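import Fermat.Agent.Ribet.H232.NCBoth
import Fermat.Agent.S29.H801.M1Modular
import Fermat.Agent.S29.H395.KummerCorr

/-!
# RIBET / WALL-p, leaf W-NC — consumer forms (helper232)

The concrete norm contraction of `NCBoth.lean` with the top level RENAMED along `M * p = N`
(e.g. `N = p * M'`, `h = Nat.mul_comm M' p`, the convention of `Ribet/H944/WallTargets.lean`) and
the norms written as `S29.H395.normAlong (S29.H801.alphaTo E M p N h)` /
`normAlong (betaTo E M p N h)` (the shape produced by `Ribet/H801/DegKummer.lean` over `ℚ̄`;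
descent of norms `ℚ̄ → E`: `S35.H858.iota_normAlong_alpha/beta`).

* `normAlpha_eq_normAlong`, `normBeta_eq_normAlong` (`rfl`);
* `wnc_const_to`, `wnc_both_to`, `wnc_both_one_to`.
-/

set_option autoImplicit false
set_option synthInstance.maxHeartbeats 400000
set_option maxHeartbeats 1600000
set_option linter.unusedSectionVars false
set_option linter.style.haveILetI false

noncomputable section

namespace Fermat.Agent.Ribet.H232

open Fermat.Agent.A2 Fermat.Agent.A2.Mod Fermat.Agent.A2.H48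
open Fermat.Agent.S29.H395 Fermat.Agent.S29.H801

section To

variable {P : ValuationSubring Qb} {E : IntermediateField ℚ Qb} {M p : ℕ} [NeZero M] [NeZero p]
  {w : RE P E}

theorem normAlpha_eq_normAlong (u : FE E (M * p)) :
    normAlpha E M p u = normAlong (αE E M p) u := rfl

theorem normBeta_eq_normAlong (u : FE E (M * p)) :
    normBeta E M p u = normAlong (βE E M p) u := rfl

/-- `wnc_const` with the top level renamed. -/
theorem wnc_const_to {N : ℕ} [NeZero N] (h : M * p = N) (hS : Setting P E M p w)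
    {VM : ValuationSubring (FE E M)} {V : ValuationSubring (FE E N)}
    (hVM : IsVinf P E M VM) (hV : IsVinf P E N V)
    {W : FE E N ≃ₐ[E] FE E N} (hW : IsFricke E N W)
    {u : FE E N} (hu : u ≠ 0) {eα eβ : E} {hA hB : FE E M}
    (hNα : normAlong (alphaTo E M p N h) u = algebraMap E (FE E M) eα * hA ^ p)
    (hNβ : normAlong (betaTo E M p N h) u = algebraMap E (FE E M) eβ * hB ^ p)
    (h1 : DepthE w p V 1 u ∨ DepthE w p (V.comap (W : FE E N →+* FE E N)) 1 u) (s : ℕ) :
    DepthC V (cE P E N w) p (algebraMap E (FE E N) eα) s u ∧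
      DepthC (V.comap (W : FE E N →+* FE E N)) (cE P E N w) p
        (algebraMap E (FE E N) eβ) s u := by
  subst h
  exact wnc_const hS hVM hV hW hu hNα hNβ h1 s

/-- `wnc_both` with the top level renamed. -/
theorem wnc_both_to {N : ℕ} [NeZero N] (h : M * p = N) (hS : Setting P E M p w)
    {VM : ValuationSubring (FE E M)} {V : ValuationSubring (FE E N)}
    (hVM : IsVinf P E M VM) (hV : IsVinf P E N V)
    {W : FE E N ≃ₐ[E] FE E N} (hW : IsFricke E N W)
    {u : FE E N} (hu : u ≠ 0) {e : E} {hA hB : FE E M}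
    (hNα : normAlong (alphaTo E M p N h) u = algebraMap E (FE E M) e * hA ^ p)
    (hNβ : normAlong (betaTo E M p N h) u = algebraMap E (FE E M) e * hB ^ p)
    (h1 : DepthE w p V 1 u ∨ DepthE w p (V.comap (W : FE E N →+* FE E N)) 1 u) (s : ℕ) :
    ∃ g : FE E N, g ≠ 0 ∧
      (u * (algebraMap E (FE E N) e * g ^ p)⁻¹ - 1) * (cE P E N w ^ s)⁻¹ ∈ V ∧
      (u * (algebraMap E (FE E N) e * g ^ p)⁻¹ - 1) * (cE P E N w ^ s)⁻¹
        ∈ V.comap (W : FE E N →+* FE E N) := by
  subst h
  exact wnc_both hS hVM hV hW hu hNα hNβ h1 s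

/-- **W-NC, consumer form.**  `N = M p` (renamed), `p ∤ M`, `R_E` a discrete valuation ring over
`p` with uniformiser `w`, `V∞` the Gauss valuation ring of `F_{N,E}`, `V₀ = V∞ ∘ W`.  If both
norms of `u ∈ F_{N,E}^×` to level `M` are `p`-th powers and `u ∈ E^× (F^×)^p (1 + w V)` at
`V = V∞` or at `V = V₀`, then for every `s` there is `g ≠ 0` with
`u / g^p ∈ (1 + w^s V∞) ∩ (1 + w^s V₀)`. -/
theorem wnc_both_one_to {N : ℕ} [NeZero N] (h : M * p = N) (hS : Setting P E M p w)
    {VM : ValuationSubring (FE E M)} {V : ValuationSubring (FE E N)}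
    (hVM : IsVinf P E M VM) (hV : IsVinf P E N V)
    {W : FE E N ≃ₐ[E] FE E N} (hW : IsFricke E N W)
    {u : FE E N} (hu : u ≠ 0) {hA hB : FE E M}
    (hNα : normAlong (alphaTo E M p N h) u = hA ^ p)
    (hNβ : normAlong (betaTo E M p N h) u = hB ^ p)
    (h1 : DepthE w p V 1 u ∨ DepthE w p (V.comap (W : FE E N →+* FE E N)) 1 u) (s : ℕ) :
    ∃ g : FE E N, g ≠ 0 ∧
      (u * (g ^ p)⁻¹ - 1) * (cE P E N w ^ s)⁻¹ ∈ V ∧
      (u * (g ^ p)⁻¹ - 1) * (cE P E N w ^ s)⁻¹ ∈ V.comap (W : FE E N →+* FE E N) := by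
  subst h
  exact wnc_both_one hS hVM hV hW hu hNα hNβ h1 s

end To

end Fermat.Agent.Ribet.H232
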