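import Fermat.Agent.Ribet.H232.NormContraction
import Fermat.Agent.A2.Mod.H553.Fricke
import Fermat.Agent.A2.Mod.H553.VzeroNe
import Fermat.Agent.A2.Mod.H378.L11
import Fermat.Agent.A2.Mod.H753.IndZero
import Fermat.Agent.A2.Mod.H872.FrickeStable
import Fermat.Agent.S37.H88.KronCharpoly
import Fermat.Agent.S37.H88.ALSwap
import Fermat.Agent.S28.H386.Toolkit

/-!
# RIBET / WALL-p, leaf W-NC — the CONCRETE instance (helper232)

The abstract norm contraction of `NormContraction.lean` (`NLSetting`, `Side`, `pingpong_inf`,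
`pingpong_zero`) instantiated in the vocabulary of `A2/Mod/Spec.lean` with `q := p`:
`K = F_M = FE E M`, `L = F_N = FE E (M * p)`, `O = V∞` of level `M`, `V∞` of level `N`,
`V₀ = V∞.comap W` (`W` the Fricke involution of level `N`), `ϖ = w` (uniformiser of `R_E`).

* `nlSetting_beta` : `NLSetting` for `β` (`t ↦ t^p`): degree-one place `V₀`, inseparable place `V∞`,
  `θ = j`, `θ^p ≡ β j` (Kronecker), `1, j, …, j^(p-1)` independent modulo `w` over `β(V∞_M)`;
* `nlSetting_alpha` : `NLSetting` for `α` (inclusion): the Fricke transform of the former;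
* `side_alpha`, `side_beta` : the two `Side`s;
* `wnc_inf`, `wnc_zero` : **concrete W-NC**: if the norms of `u ∈ F_N` along `α` and along `β` are
  constants times `p`-th powers and `u` is a constant times a `p`-th power times an element of
  `1 + w V` at ONE of the two places `V∞`, `V₀`, then for every `s` it is a constant times a
  `p`-th power times an element of `1 + w^s V` at BOTH places.
-/

set_option autoImplicit false
set_option synthInstance.maxHeartbeats 400000
set_option maxHeartbeats 1600000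
set_option linter.unusedSectionVars false
set_option linter.style.haveILetI false

noncomputable section

namespace Fermat.Agent.Ribet.H232

open ModularCurve HahnSeries Polynomial
open Fermat.Agent.A2 Fermat.Agent.A2.Mod

/-! ## 0. generic lemmas -/

section Generic

variable {F : Type*} [Field F]

/-- `Dv` for a pulled-back valuation ring. -/
theorem dv_comap_iff (V : ValuationSubring F) (σ : F →+* F) (hσ : Function.Surjective σ)
    (c x : F) : Dv (V.comap σ) c x ↔ Dv V (σ c) (σ x) := by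
  constructor
  · rintro ⟨y, hy, rfl⟩
    exact ⟨σ y, hy, map_mul σ c y⟩
  · rintro ⟨y, hy, hxy⟩
    obtain ⟨y', rfl⟩ := hσ y
    refine ⟨y', hy, ?_⟩
    apply σ.injective
    rw [map_mul, hxy]

/-- transport of a uniformiser along an endomorphism fixing it. -/
theorem isUnif_comap {V : ValuationSubring F} {π : F} (h : H48.IsUnif V π) (σ : F →+* F)
    (hσ : σ π = π) : H48.IsUnif (V.comap σ) π where
  mem := by
    show σ π ∈ V
    rw [hσ]
    exact h.mem
  inv_not_mem := by
    intro hmem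
    have h1 : σ π⁻¹ ∈ V := hmem
    rw [map_inv₀, hσ] at h1
    exact h.inv_not_mem h1
  gen := by
    intro f hf hfinv
    have h1 : σ f ∈ V := hf
    have h2 : (σ f)⁻¹ ∉ V := by
      intro hmem
      apply hfinv
      show σ f⁻¹ ∈ V
      rw [map_inv₀]
      exact hmem
    have h3 := h.gen (σ f) h1 h2
    show σ (f * π⁻¹) ∈ V
    rw [map_mul, map_inv₀, hσ]
    exact h3

/-- in a discrete valuation ring every element of the fraction field has bounded denominator. -/
theorem exists_pow_mul_mem_of_dvr (A : ValuationSubring F) [IsDiscreteValuationRing A] {w : A}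
    (hw : Irreducible w) (c : F) : ∃ k : ℕ, (w : F) ^ k * c ∈ A := by
  rcases A.mem_or_inv_mem c with h | h
  · exact ⟨0, by simpa using h⟩
  · by_cases hc : c = 0
    · exact ⟨0, by rw [hc, mul_zero]; exact A.zero_mem⟩
    have hy : (⟨c⁻¹, h⟩ : A) ≠ 0 := by
      intro h0
      exact inv_ne_zero hc (congrArg Subtype.val h0)
    obtain ⟨n, u, hu⟩ := IsDiscreteValuationRing.eq_unit_mul_pow_irreducible hy hw
    refine ⟨n, ?_⟩
    have h1 : c⁻¹ = ((u : A) : F) * (w : F) ^ n := by
      have := congrArg Subtype.val hu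
      simpa using this
    have hu0 : ((u : A) : F) ≠ 0 := by
      intro h0
      exact u.ne_zero (Subtype.ext h0)
    have h2 : (w : F) ^ n * c = (((u⁻¹ : Aˣ) : A) : F) := by
      have h3 : ((u : A) : F) * (((u⁻¹ : Aˣ) : A) : F) = 1 := by
        have h4 : ((u : A) * ((u⁻¹ : Aˣ) : A) : A) = 1 := u.mul_inv
        have h5 := congrArg (fun z : A => (z : F)) h4
        exact h5
      have hc' : c = (((u : A) : F) * (w : F) ^ n)⁻¹ := by rw [← h1, inv_inv]
      have hw0 : (w : F) ^ n ≠ 0 := by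
        intro h0
        rw [h0, mul_zero] at h1
        exact inv_ne_zero hc h1
      rw [hc']
      field_simp
      rw [h3]
    rw [h2]
    exact ((u⁻¹ : Aˣ) : A).2

/-- coefficient of a polynomial given by its list of coefficients. -/
theorem coeff_sum_fin {R : Type*} [CommRing R] (n : ℕ) (f : Fin n → R) (j : Fin n) :
    (∑ i : Fin n, C (f i) * X ^ (i : ℕ)).coeff (j : ℕ) = f j := by
  classical
  rw [Polynomial.finsetSum_coeff, Finset.sum_eq_single j]
  · rw [coeff_C_mul_X_pow, if_pos rfl]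
  · intro b _ hb
    rw [coeff_C_mul_X_pow, if_neg]
    intro h
    exact hb (Fin.ext h.symm)
  · intro h
    exact absurd (Finset.mem_univ j) h

end Generic

/-! ## 1. digits in `k((t))` -/

section Digits

variable {k : Type*} [Field k]

/-- **Digits.**  `∑_{i<p} n_i(t^p) j^i = 0 ⟹ n_i = 0`. -/
theorem digits_jqModC (p : ℕ) [NeZero p] (n : Fin p → LaurentSeries k)
    (h : ∑ i : Fin p, qExpand k p (n i) * jqModC k ^ (i : ℕ) = 0) (i : Fin p) : n i = 0 := by
  classical
  set Pol : (LaurentSeries k)[X] := ∑ i : Fin p, C (qExpand k p (n i)) * X ^ (i : ℕ) with hPol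
  have heval : Pol.eval (jqModC k) = 0 := by
    rw [hPol, Polynomial.eval_finsetSum, ← h]
    refine Finset.sum_congr rfl fun i _ => ?_
    rw [eval_mul, eval_C, eval_pow, eval_X]
  have hzero : Pol = 0 := by
    by_contra hne
    refine Fermat.Agent.S28.H386.eval_jqModC_ne_zero_of_natDegree_lt p Pol hne ?_ ?_ heval
    · rw [Polynomial.natDegree_lt_iff_degree_lt hne]
      exact Polynomial.degree_sum_fin_lt _
    · intro j
      rw [hPol, Polynomial.finsetSum_coeff]
      have hmem : ∀ i ∈ (Finset.univ : Finset (Fin p)),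
          (C (qExpand k p (n i)) * X ^ (i : ℕ)).coeff j ∈ (qExpand k p).range := by
        intro i _
        rw [coeff_C_mul_X_pow]
        split_ifs
        · exact ⟨n i, rfl⟩
        · exact Subring.zero_mem _
      exact Subring.sum_mem _ hmem
  have h1 : qExpand k p (n i) = 0 := by
    rw [← coeff_sum_fin p (fun i => qExpand k p (n i)) i, ← hPol, hzero, Polynomial.coeff_zero]
  exact qExpand_injective p (by rw [h1, map_zero])

end Digits

/-! ## 2. the two Gauss valuations -/

section Concrete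

variable {P : ValuationSubring Qb} {E : IntermediateField ℚ Qb} {M p : ℕ} [NeZero M] [NeZero p]
  {w : RE P E}

theorem inW_iff_dv (hS : Setting P E M p w) (N : ℕ) (V : ValuationSubring (FE E N))
    (f : FE E N) : InW P E N V w f ↔ Dv V (cE P E N w) f :=
  (Dv.iff_mul_inv (H378.cE_ne_zero hS N)).symm

theorem beta_cE (r : RE P E) : βE E M p (cE P E M r) = cE P E (M * p) r :=
  (βE E M p).commutes (r : E)

theorem w_mem_maximalIdeal (hS : Setting P E M p w) : w ∈ IsLocalRing.maximalIdeal (RE P E) :=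
  (IsLocalRing.mem_maximalIdeal _).mpr hS.unif.not_isUnit

theorem isUnif_vinf (hS : Setting P E M p w) {N : ℕ} (hN : N ≠ 0)
    {V : ValuationSubring (FE E N)} (hV : IsVinf P E N V) : H48.IsUnif V (cE P E N w) :=
  (H553.vinfBasic P E w N hN hS.dvr hS.unif V hV).1

theorem jE_mem (hS : Setting P E M p w) {N : ℕ} (hN : N ≠ 0)
    {V : ValuationSubring (FE E N)} (hV : IsVinf P E N V) (d : ℕ) [NeZero d] (hd : d ∣ N) :
    jE E N d hd ∈ V :=
  ((H553.vinfBasic P E w N hN hS.dvr hS.unif V hV).2.2 d hd).1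

theorem level_ne_zero : M * p ≠ 0 := mul_ne_zero (NeZero.ne M) (NeZero.ne p)

/-- `β` maps `V∞` of level `M` into `V∞` of level `M p`. -/
theorem beta_mem {VM : ValuationSubring (FE E M)} {V : ValuationSubring (FE E (M * p))}
    (hVM : IsVinf P E M VM) (hV : IsVinf P E (M * p) V) {a : FE E M} (ha : a ∈ VM) :
    βE E M p a ∈ V := by
  obtain ⟨U₁, U₂, hU₂, hU₂F, hU⟩ := (hVM a).mp ha
  rw [hV]
  refine ⟨qExpand _ p U₁, qExpand _ p U₂, ?_, ?_, ?_⟩
  · show coeffMap _ (qExpand _ p U₂) ≠ 0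
    rw [coeffMap_qExpand]
    intro h
    exact hU₂ (qExpand_injective p (by rw [h, map_zero]))
  · show coeffMap _ (qExpand _ p U₂) ∈ _
    rw [coeffMap_qExpand]
    exact (βE E M p ⟨H708.incl (RE P E) U₂, hU₂F⟩).2
  · show qExpand E p (a : LaurentSeries E) * coeffMap _ (qExpand _ p U₂)
      = coeffMap _ (qExpand _ p U₁)
    rw [coeffMap_qExpand, coeffMap_qExpand, ← map_mul]
    exact congrArg _ hU

/-- the `t`-expansion of `j` as an integral series. -/
theorem coe_jE_one (N : ℕ) :
    ((jE E N 1 (one_dvd _) : FE E N) : LaurentSeries E)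
      = H708.incl (RE P E) (H708.castA (RE P E) (jqModC ℤ)) := by
  rw [H753.coe_jE_incl (P := P) N 1 (one_dvd _), qExpand_one_apply]

/-- **Kronecker congruence** `j^p ≡ β j` modulo `w V∞`. -/
theorem frob_dv (hS : Setting P E M p w) {V : ValuationSubring (FE E (M * p))}
    (hV : IsVinf P E (M * p) V) :
    Dv V (cE P E (M * p) w)
      (jE E (M * p) 1 (one_dvd _) ^ p - βE E M p (jE E M 1 (one_dvd _))) := by
  rw [← inW_iff_dv hS]
  haveI : CharP (IsLocalRing.ResidueField (RE P E)) p :=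
    H753.charP_residueField P E hS.q_prime hS.lies_over
  refine H753.inW_of_red_eq_zero P E hV hS.dvr hS.unif
    (S := H708.castA (RE P E) (jqModC ℤ ^ p - qExpand ℤ p (jqModC ℤ))) ?_ ?_
  · have h1 : ((jE E (M * p) 1 (one_dvd _) ^ p - βE E M p (jE E M 1 (one_dvd _)) :
        FE E (M * p)) : LaurentSeries E)
        = ((jE E (M * p) 1 (one_dvd _) : FE E (M * p)) : LaurentSeries E) ^ p
          - qExpand E p ((jE E M 1 (one_dvd _) : FE E M) : LaurentSeries E) := rfl
    rw [h1, coe_jE_one (P := P), coe_jE_one (P := P), map_sub, map_sub, map_pow, map_pow]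
    congr 1
    show _ = coeffMap _ (coeffMap _ (qExpand ℤ p (jqModC ℤ)))
    rw [coeffMap_qExpand, coeffMap_qExpand]
  · rw [H753.red_castA, map_sub, map_pow, H753.castL_qExpand_jqModC p hS.q_prime,
      Fermat.Agent.S28.H325.castL_jqModC, sub_self]

/-- a primitive integral series of `F_N` is a unit of `V∞`. -/
theorem inv_mem_of_prim {N : ℕ} {V : ValuationSubring (FE E N)} (hV : IsVinf P E N V)
    {U : LaurentSeries (RE P E)} (hU : H708.red (RE P E) U ≠ 0)
    (hm : H708.incl (RE P E) U ∈ FE E N) :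
    (⟨H708.incl (RE P E) U, hm⟩ : FE E N)⁻¹ ∈ V := by
  rw [hV, IntermediateField.coe_inv]
  exact H378.isGaussInt_inv_of_prim (RE P E) hU hm

/-- **Independence**: `1, j, …, j^(p-1)` are independent modulo `w` over `β(V∞_M)`. -/
theorem beta_indep (hS : Setting P E M p w) {VM : ValuationSubring (FE E M)}
    {V : ValuationSubring (FE E (M * p))} (hVM : IsVinf P E M VM) (hV : IsVinf P E (M * p) V)
    (a : Fin p → FE E M) (ha : ∀ i, a i ∈ VM)
    (hz : InW P E (M * p) V w
      (∑ i : Fin p, βE E M p (a i) * jE E (M * p) 1 (one_dvd _) ^ (i : ℕ))) (i : Fin p) :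
    InW P E M VM w (a i) := by
  classical
  haveI := hS.dvr
  have key : ∀ i, ∃ U₁ U₂ : LaurentSeries (RE P E), H708.red (RE P E) U₂ ≠ 0 ∧
      H708.incl (RE P E) U₂ ∈ FE E M ∧
      (a i : LaurentSeries E) * H708.incl (RE P E) U₂ = H708.incl (RE P E) U₁ :=
    fun i => (hVM (a i)).mp (ha i)
  choose U₁ U₂ hU₂ hU₂F hU using key
  obtain ⟨D, hD⟩ : ∃ D : LaurentSeries (RE P E), D = ∏ i, U₂ i := ⟨_, rfl⟩
  obtain ⟨Nm, hNm⟩ : ∃ Nm : Fin p → LaurentSeries (RE P E),
      ∀ i, Nm i = U₁ i * ∏ l ∈ Finset.univ.erase i, U₂ l := ⟨_, fun _ => rfl⟩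
  have hND : ∀ i, (a i : LaurentSeries E) * H708.incl (RE P E) D
      = H708.incl (RE P E) (Nm i) := by
    intro i
    rw [hD, ← Finset.mul_prod_erase Finset.univ U₂ (Finset.mem_univ i), map_mul, ← mul_assoc,
      hU i, hNm, map_mul]
  have hDF : H708.incl (RE P E) D ∈ FE E M := by
    rw [hD, map_prod]
    exact prod_mem (fun i _ => hU₂F i)
  have hDred : ∀ i, H708.red (RE P E) (∏ l ∈ Finset.univ.erase i, U₂ l) ≠ 0 := by
    intro i
    rw [map_prod]
    exact Finset.prod_ne_zero_iff.mpr (fun l _ => hU₂ l)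
  -- the integral series
  obtain ⟨J, hJ⟩ : ∃ J : LaurentSeries (RE P E), J = H708.castA (RE P E) (jqModC ℤ) :=
    ⟨_, rfl⟩
  obtain ⟨S, hSdef⟩ : ∃ S : LaurentSeries (RE P E),
      S = ∑ i : Fin p, qExpand _ p (Nm i) * J ^ (i : ℕ) := ⟨_, rfl⟩
  obtain ⟨dM, hdM⟩ : ∃ dM : FE E M, (dM : LaurentSeries E) = H708.incl (RE P E) D :=
    ⟨⟨H708.incl (RE P E) D, hDF⟩, rfl⟩
  have hdMV : dM ∈ VM := by
    rw [hVM, hdM]
    exact H708.IsGaussInt.of_incl _
  have hdNV : βE E M p dM ∈ V := beta_mem hVM hV hdMV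
  obtain ⟨z, hzdef⟩ : ∃ z : FE E (M * p),
      z = ∑ i : Fin p, βE E M p (a i) * jE E (M * p) 1 (one_dvd _) ^ (i : ℕ) := ⟨_, rfl⟩
  rw [← hzdef] at hz
  have hinclq : ∀ U : LaurentSeries (RE P E),
      H708.incl (RE P E) (qExpand _ p U) = qExpand E p (H708.incl (RE P E) U) :=
    fun U => coeffMap_qExpand _ p U
  have hredq : ∀ U : LaurentSeries (RE P E),
      H708.red (RE P E) (qExpand _ p U) = qExpand _ p (H708.red (RE P E) U) :=
    fun U => coeffMap_qExpand _ p U
  have hcoe : ((z * βE E M p dM : FE E (M * p)) : LaurentSeries E)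
      = H708.incl (RE P E) S := by
    have h1 : ((z * βE E M p dM : FE E (M * p)) : LaurentSeries E)
        = (∑ i : Fin p, qExpand E p (a i : LaurentSeries E)
            * ((jE E (M * p) 1 (one_dvd _) : FE E (M * p)) : LaurentSeries E) ^ (i : ℕ))
          * qExpand E p (dM : LaurentSeries E) := by
      rw [IntermediateField.coe_mul, hzdef, IntermediateField.coe_sum]
      rfl
    rw [h1, Finset.sum_mul, hSdef, map_sum]
    refine Finset.sum_congr rfl fun i _ => ?_
    have e1 : H708.incl (RE P E) (qExpand _ p (Nm i) * J ^ (i : ℕ))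
        = qExpand E p (H708.incl (RE P E) (Nm i)) * (H708.incl (RE P E) J) ^ (i : ℕ) := by
      rw [map_mul, map_pow, hinclq]
    rw [e1, ← hND i, map_mul, coe_jE_one (P := P), hdM, hJ]
    ring
  have hInW : InW P E (M * p) V w (z * βE E M p dM) := by
    show z * βE E M p dM * (cE P E (M * p) w)⁻¹ ∈ V
    have h1 : z * βE E M p dM * (cE P E (M * p) w)⁻¹
        = z * (cE P E (M * p) w)⁻¹ * βE E M p dM := by ring
    rw [h1]
    exact V.mul_mem _ _ hz hdNV
  have hred : H708.red (RE P E) S = 0 :=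
    H753.red_eq_zero_of_inW hV hS.unif.ne_zero (w_mem_maximalIdeal hS) hcoe hInW
  have hredJ : H708.red (RE P E) J = jqModC (IsLocalRing.ResidueField (RE P E)) := by
    rw [hJ, H753.red_castA, Fermat.Agent.S28.H325.castL_jqModC]
  have hsum : ∑ i : Fin p, qExpand _ p (H708.red (RE P E) (Nm i))
      * jqModC (IsLocalRing.ResidueField (RE P E)) ^ (i : ℕ) = 0 := by
    rw [← hred, hSdef, map_sum]
    refine Finset.sum_congr rfl fun i _ => ?_
    have e1 : H708.red (RE P E) (qExpand _ p (Nm i) * J ^ (i : ℕ))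
        = qExpand _ p (H708.red (RE P E) (Nm i)) * (H708.red (RE P E) J) ^ (i : ℕ) := by
      rw [map_mul, map_pow, hredq]
    rw [e1, hredJ]
  have hNi : H708.red (RE P E) (Nm i) = 0 := digits_jqModC p _ hsum i
  have hU₁i : H708.red (RE P E) (U₁ i) = 0 := by
    rw [hNm i, map_mul] at hNi
    rcases mul_eq_zero.mp hNi with h | h
    · exact h
    · exact absurd h (hDred i)
  -- conclusion
  set u₂ : FE E M := ⟨H708.incl (RE P E) (U₂ i), hU₂F i⟩ with hu₂
  have hu₂inv : u₂⁻¹ ∈ VM := inv_mem_of_prim hVM (hU₂ i) (hU₂F i)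
  have hu₂0 : u₂ ≠ 0 := by
    intro h0
    have h1 : H708.incl (RE P E) (U₂ i) = 0 := congrArg Subtype.val h0
    exact H708.incl_ne_zero _ (H708.ne_zero_of_red_ne_zero _ (hU₂ i)) h1
  have h2 : InW P E M VM w (a i * u₂) :=
    H753.inW_of_red_eq_zero P E hVM hS.dvr hS.unif (S := U₁ i)
      (by rw [IntermediateField.coe_mul]; exact hU i) hU₁i
  show a i * (cE P E M w)⁻¹ ∈ VM
  have h3 : a i * (cE P E M w)⁻¹ = a i * u₂ * (cE P E M w)⁻¹ * u₂⁻¹ := by
    field_simp
  rw [h3]
  exact VM.mul_mem _ _ h2 hu₂inv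

/-- `V∞` has rank one: bounded denominators. -/
theorem arch_vinf (hS : Setting P E M p w) {N : ℕ} {V : ValuationSubring (FE E N)}
    (hV : IsVinf P E N V) (a : FE E N) : ∃ k : ℕ, cE P E N w ^ k * a ∈ V := by
  haveI := hS.dvr
  by_cases ha : a = 0
  · exact ⟨0, by rw [ha, mul_zero]; exact V.zero_mem⟩
  obtain ⟨c, hc0, hu⟩ := H553.exists_const_mul_unit P E hV ha
  obtain ⟨k, hk⟩ := exists_pow_mul_mem_of_dvr (RE P E) hS.unif c
  refine ⟨k, ?_⟩
  have huV : a * (algebraMap E (FE E N) c)⁻¹ ∈ V := (V.valuation_le_one_iff _).mp hu.le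
  have hcF : algebraMap E (FE E N) c ≠ 0 :=
    (map_ne_zero_iff _ (algebraMap E (FE E N)).injective).mpr hc0
  have h1 : cE P E N w ^ k * a
      = (a * (algebraMap E (FE E N) c)⁻¹) * algebraMap E (FE E N) ((w : E) ^ k * c) := by
    rw [map_mul, map_pow]
    show algebraMap E (FE E N) (w : E) ^ k * a = _
    field_simp
  rw [h1]
  exact V.mul_mem _ _ huV ((H553.algebraMap_mem_iff P E hV _).mpr hk)

/-- `p ∈ w V∞`. -/
theorem natCast_dv (hS : Setting P E M p w) {N : ℕ} {V : ValuationSubring (FE E N)}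
    (hV : IsVinf P E N V) : Dv V (cE P E N w) ((p : ℕ) : FE E N) := by
  obtain ⟨c, hc⟩ := H378.exists_q_eq hS
  refine ⟨cE P E N c, H378.cE_mem hV c, ?_⟩
  have h1 : ((p : ℕ) : FE E N) = algebraMap E (FE E N) ((p : ℕ) : E) := (map_natCast _ _).symm
  rw [h1, hc, map_mul]
  rfl

/-- **The setting of the local norm congruence for `β`** (`t ↦ t^p`): the degree-one place is
`V₀ = V∞ ∘ W`, the inseparable place is `V∞`, `θ = j`. -/
theorem nlSetting_beta (hS : Setting P E M p w) {VM : ValuationSubring (FE E M)}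
    {V : ValuationSubring (FE E (M * p))} (hVM : IsVinf P E M VM) (hV : IsVinf P E (M * p) V)
    {W : FE E (M * p) ≃ₐ[E] FE E (M * p)} (hW : IsFricke E (M * p) W) :
    letI := AlgebraicCurve.algebraAlong (βE E M p)
    NLSetting VM (V.comap (W : FE E (M * p) →+* FE E (M * p))) V (cE P E M w) p
      (jE E (M * p) 1 (one_dvd _)) (jE E M 1 (one_dvd _)) := by
  letI := AlgebraicCurve.algebraAlong (βE E M p)
  haveI : NeZero (M * p) := ⟨level_ne_zero⟩
  have hmap : ∀ a : FE E M, algebraMap (FE E M) (FE E (M * p)) a = βE E M p a := fun _ => rfl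
  have hϖ : algebraMap (FE E M) (FE E (M * p)) (cE P E M w) = cE P E (M * p) w := by
    rw [hmap, beta_cE]
  have hWM := H553.isFricke_wE E M
  have hWc : (W : FE E (M * p) →+* FE E (M * p)) (cE P E (M * p) w) = cE P E (M * p) w :=
    W.commutes _
  refine
    { unifO := isUnif_vinf hS (NeZero.ne M) hVM
      unif₁ := ?_
      unif₂ := ?_
      le₁ := ?_
      le₂ := ?_
      ne := H553.vzeroNe P E M p w hS V W hV hW
      arch := arch_vinf hS hVM
      char_p := natCast_dv hS hVM
      θ_mem₁ := ?_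
      θ_mem₂ := jE_mem hS level_ne_zero hV 1 (one_dvd _)
      g_mem := jE_mem hS (NeZero.ne M) hVM 1 (one_dvd _)
      θ_pow := ?_
      θ_indep := ?_
      card := ?_ }
  · rw [hϖ]
    exact isUnif_comap (isUnif_vinf hS level_ne_zero hV) _ hWc
  · rw [hϖ]
    exact isUnif_vinf hS level_ne_zero hV
  · intro a ha
    rw [hmap]
    show W (βE E M p a) ∈ V
    rw [(H553.frickeCompat E M p (H553.wE E M) W hWM hW a).2]
    exact (H378.alpha_mem_iff hS hVM hV _).mpr
      (H872.frickeStable P E M p w hS VM (H553.wE E M) hVM hWM a ha)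
  · intro a ha
    rw [hmap]
    exact beta_mem hVM hV ha
  · show W (jE E (M * p) 1 (one_dvd _)) ∈ V
    rw [hW.1 1 (M * p) (one_dvd _) dvd_rfl (one_mul _)]
    exact jE_mem hS level_ne_zero hV (M * p) dvd_rfl
  · rw [hϖ, hmap]
    exact frob_dv hS hV
  · intro a ha hz i
    rw [hϖ] at hz
    rw [← inW_iff_dv hS]
    rw [← inW_iff_dv hS] at hz
    exact beta_indep hS hVM hV a ha hz i
  · exact Fermat.Agent.S37.H88.finrankAlong_heckeBetaBar hS.q_prime hS.q_not_dvd

/-- **The setting of the local norm congruence for `α`** (the inclusion): the degree-one place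
is `V∞`, the inseparable place is `V₀ = V∞ ∘ W`, `θ = W j`. -/
theorem nlSetting_alpha (hS : Setting P E M p w) {VM : ValuationSubring (FE E M)}
    {V : ValuationSubring (FE E (M * p))} (hVM : IsVinf P E M VM) (hV : IsVinf P E (M * p) V)
    {W : FE E (M * p) ≃ₐ[E] FE E (M * p)} (hW : IsFricke E (M * p) W) :
    letI := AlgebraicCurve.algebraAlong (αE E M p)
    NLSetting VM V (V.comap (W : FE E (M * p) →+* FE E (M * p))) (cE P E M w) p
      (W (jE E (M * p) 1 (one_dvd _))) (H553.wE E M (jE E M 1 (one_dvd _))) := by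
  letI := AlgebraicCurve.algebraAlong (αE E M p)
  haveI : NeZero (M * p) := ⟨level_ne_zero⟩
  have hmap : ∀ a : FE E M, algebraMap (FE E M) (FE E (M * p)) a = αE E M p a := fun _ => rfl
  have hϖ : algebraMap (FE E M) (FE E (M * p)) (cE P E M w) = cE P E (M * p) w := by
    rw [hmap, H378.alpha_cE]
  have hWM := H553.isFricke_wE E M
  have hWc : (W : FE E (M * p) →+* FE E (M * p)) (cE P E (M * p) w) = cE P E (M * p) w :=
    W.commutes _
  have hWMc : H553.wE E M (cE P E M w) = cE P E M w := (H553.wE E M).commutes _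
  have hstab : ∀ f ∈ VM, H553.wE E M f ∈ VM :=
    H872.frickeStable P E M p w hS VM (H553.wE E M) hVM hWM
  have hWα : ∀ a : FE E M, W (αE E M p a) = βE E M p (H553.wE E M a) :=
    fun a => (H553.frickeCompat E M p (H553.wE E M) W hWM hW a).1
  have hsurj : Function.Surjective (W : FE E (M * p) →+* FE E (M * p)) := W.surjective
  refine
    { unifO := isUnif_vinf hS (NeZero.ne M) hVM
      unif₁ := ?_
      unif₂ := ?_
      le₁ := ?_
      le₂ := ?_
      ne := (H553.vzeroNe P E M p w hS V W hV hW).symm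
      arch := arch_vinf hS hVM
      char_p := natCast_dv hS hVM
      θ_mem₁ := ?_
      θ_mem₂ := ?_
      g_mem := hstab _ (jE_mem hS (NeZero.ne M) hVM 1 (one_dvd _))
      θ_pow := ?_
      θ_indep := ?_
      card := ?_ }
  · rw [hϖ]
    exact isUnif_vinf hS level_ne_zero hV
  · rw [hϖ]
    exact isUnif_comap (isUnif_vinf hS level_ne_zero hV) _ hWc
  · intro a ha
    rw [hmap]
    exact (H378.alpha_mem_iff hS hVM hV _).mpr ha
  · intro a ha
    rw [hmap]
    show W (αE E M p a) ∈ V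
    rw [hWα]
    exact beta_mem hVM hV (hstab a ha)
  · rw [hW.1 1 (M * p) (one_dvd _) dvd_rfl (one_mul _)]
    exact jE_mem hS level_ne_zero hV (M * p) dvd_rfl
  · show W (W (jE E (M * p) 1 (one_dvd _))) ∈ V
    rw [hW.2]
    exact jE_mem hS level_ne_zero hV 1 (one_dvd _)
  · rw [hϖ, hmap, dv_comap_iff V _ hsurj, hWc]
    have h1 : (W : FE E (M * p) →+* FE E (M * p))
        (W (jE E (M * p) 1 (one_dvd _)) ^ p - αE E M p (H553.wE E M (jE E M 1 (one_dvd _))))
        = jE E (M * p) 1 (one_dvd _) ^ p - βE E M p (jE E M 1 (one_dvd _)) := by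
      show W (W (jE E (M * p) 1 (one_dvd _)) ^ p
        - αE E M p (H553.wE E M (jE E M 1 (one_dvd _)))) = _
      rw [map_sub, map_pow, hW.2, hWα, hWM.2]
    rw [h1]
    exact frob_dv hS hV
  · intro a ha hz i
    rw [hϖ, dv_comap_iff V _ hsurj, hWc] at hz
    have h1 : (W : FE E (M * p) →+* FE E (M * p))
        (∑ i : Fin p, algebraMap (FE E M) (FE E (M * p)) (a i)
          * W (jE E (M * p) 1 (one_dvd _)) ^ (i : ℕ))
        = ∑ i : Fin p, βE E M p (H553.wE E M (a i)) * jE E (M * p) 1 (one_dvd _) ^ (i : ℕ) := by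
      rw [map_sum]
      refine Finset.sum_congr rfl fun i _ => ?_
      rw [map_mul, map_pow, hmap]
      show W (αE E M p (a i)) * W (W (jE E (M * p) 1 (one_dvd _))) ^ (i : ℕ) = _
      rw [hW.2, hWα]
    rw [h1, ← inW_iff_dv hS] at hz
    have h2 := beta_indep hS hVM hV (fun i => H553.wE E M (a i)) (fun i => hstab _ (ha i)) hz i
    rw [inW_iff_dv hS] at h2
    obtain ⟨y, hy, hay⟩ := h2
    refine ⟨H553.wE E M y, hstab y hy, ?_⟩
    have h3 : a i = H553.wE E M (H553.wE E M (a i)) := (hWM.2 _).symm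
    rw [h3, hay, map_mul, hWMc]
  · exact Fermat.Agent.S37.H88.finrankAlong_heckeAlphaBar' hS.q_prime hS.q_not_dvd

end Concrete

/-! ## 3. the two sides and the concrete norm contraction -/

section WNC

variable (P : ValuationSubring Qb) (E : IntermediateField ℚ Qb) (M p : ℕ) [NeZero M] [NeZero p]

/-- The norm of `F_N / α(F_M)`, as a monoid homomorphism
(`= Algebra.norm` for the algebra structure `algebraAlong (αE E M p)`). -/
def normAlpha : FE E (M * p) →* FE E M :=
  letI := AlgebraicCurve.algebraAlong (αE E M p)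
  Algebra.norm (FE E M)

/-- The norm of `F_N / β(F_M)`, as a monoid homomorphism
(`= Algebra.norm` for the algebra structure `algebraAlong (βE E M p)`). -/
def normBeta : FE E (M * p) →* FE E M :=
  letI := AlgebraicCurve.algebraAlong (βE E M p)
  Algebra.norm (FE E M)

/-- The nonzero constants of `F_M`. -/
def constSet : Set (FE E M) := {c | ∃ e : E, e ≠ 0 ∧ c = algebraMap E (FE E M) e}

theorem isConstSet_constSet : IsConstSet (constSet E M) where
  ne_zero := by
    rintro c ⟨e, he, rfl⟩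
    exact (map_ne_zero_iff _ (algebraMap E (FE E M)).injective).mpr he
  mul_mem := by
    rintro c ⟨e, he, rfl⟩ d ⟨e', he', rfl⟩
    exact ⟨e * e', mul_ne_zero he he', (map_mul _ _ _).symm⟩
  inv_mem := by
    rintro c ⟨e, he, rfl⟩
    exact ⟨e⁻¹, inv_ne_zero he, (map_inv₀ _ _).symm⟩

variable {P E M p} {w : RE P E}

/-- `u ∈ E^× · (F_N^×)^p · (1 + w^s V)`. -/
def DepthE (w : RE P E) (p : ℕ) {N : ℕ} (V : ValuationSubring (FE E N)) (s : ℕ)
    (u : FE E N) : Prop :=
  ∃ e : E, e ≠ 0 ∧ ∃ g : FE E N, g ≠ 0 ∧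
    (u * (algebraMap E (FE E N) e * g ^ p)⁻¹ - 1) * (cE P E N w ^ s)⁻¹ ∈ V

/-- `Nm u ∈ E · F_M^p`. -/
def IsPthNormE (Nm : FE E (M * p) →* FE E M) (u : FE E (M * p)) : Prop :=
  ∃ (e : E) (h : FE E M), Nm u = algebraMap E (FE E M) e * h ^ p

theorem depthE_one_iff {N : ℕ} (V : ValuationSubring (FE E N)) (u : FE E N) :
    DepthE w p V 1 u ↔ ∃ e : E, e ≠ 0 ∧ ∃ g : FE E N, g ≠ 0 ∧
      InW P E N V w (u * (algebraMap E (FE E N) e * g ^ p)⁻¹ - 1) := by
  unfold DepthE InW
  rw [pow_one]

theorem side_alpha (hS : Setting P E M p w) {VM : ValuationSubring (FE E M)}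
    {V : ValuationSubring (FE E (M * p))} (hVM : IsVinf P E M VM) (hV : IsVinf P E (M * p) V)
    {W : FE E (M * p) ≃ₐ[E] FE E (M * p)} (hW : IsFricke E (M * p) W) :
    Side VM V (V.comap (W : FE E (M * p) →+* FE E (M * p))) (cE P E M w) p
      (αE E M p).toRingHom (normAlpha E M p) :=
  letI := AlgebraicCurve.algebraAlong (αE E M p)
  (nlSetting_alpha hS hVM hV hW).side

theorem side_beta (hS : Setting P E M p w) {VM : ValuationSubring (FE E M)}
    {V : ValuationSubring (FE E (M * p))} (hVM : IsVinf P E M VM) (hV : IsVinf P E (M * p) V)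
    {W : FE E (M * p) ≃ₐ[E] FE E (M * p)} (hW : IsFricke E (M * p) W) :
    Side VM (V.comap (W : FE E (M * p) →+* FE E (M * p))) V (cE P E M w) p
      (βE E M p).toRingHom (normBeta E M p) :=
  letI := AlgebraicCurve.algebraAlong (βE E M p)
  (nlSetting_beta hS hVM hV hW).side

theorem depth_iff_depthE (hS : Setting P E M p w) (V : ValuationSubring (FE E (M * p)))
    (s : ℕ) (u : FE E (M * p)) :
    Depth V ((αE E M p).toRingHom (cE P E M w)) p (αE E M p).toRingHom (constSet E M) s u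
      ↔ DepthE w p V s u := by
  have hϖ : (αE E M p).toRingHom (cE P E M w) = cE P E (M * p) w := H378.alpha_cE w
  have hc0 : cE P E (M * p) w ^ s ≠ 0 := pow_ne_zero _ (H378.cE_ne_zero hS _)
  rw [hϖ]
  constructor
  · rintro ⟨c, ⟨e, he, rfl⟩, g, hg, hdv⟩
    refine ⟨e, he, g, hg, ?_⟩
    have h1 : (αE E M p).toRingHom (algebraMap E (FE E M) e) = algebraMap E (FE E (M * p)) e :=
      (αE E M p).commutes e
    rw [h1] at hdv
    exact (Dv.iff_mul_inv hc0).mp hdv
  · rintro ⟨e, he, g, hg, hmem⟩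
    refine ⟨algebraMap E (FE E M) e, ⟨e, he, rfl⟩, g, hg, ?_⟩
    have h1 : (αE E M p).toRingHom (algebraMap E (FE E M) e) = algebraMap E (FE E (M * p)) e :=
      (αE E M p).commutes e
    rw [h1]
    exact (Dv.iff_mul_inv hc0).mpr hmem

theorem isPthNorm_of (Nm : FE E (M * p) →* FE E M) {u : FE E (M * p)} (hu : u ≠ 0)
    (h : IsPthNormE Nm u) : IsPthNorm Nm p (constSet E M) u := by
  obtain ⟨e, h', he⟩ := h
  have hN0 : Nm u ≠ 0 := norm_ne_zero_of_ne_zero Nm hu
  have he0 : e ≠ 0 := by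
    rintro rfl
    rw [map_zero, zero_mul] at he
    exact hN0 he
  have hh0 : h' ≠ 0 := by
    rintro rfl
    rw [zero_pow (NeZero.ne p), mul_zero] at he
    exact hN0 he
  exact ⟨algebraMap E (FE E M) e, ⟨e, he0, rfl⟩, h', hh0, he⟩

/-- **W-NC, concrete form (start at `V∞`).**  Level `N = M p`, `p ∤ M`, `R_E` a discrete
valuation ring over `p` with uniformiser `w`.  If the norms of `u ∈ F_N^×` along `α` and along
`β` are constants times `p`-th powers and `u ∈ E^× (F_N^×)^p (1 + w V∞)`, then for every `s`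
`u ∈ E^× (F_N^×)^p (1 + w^s V∞)` and `u ∈ E^× (F_N^×)^p (1 + w^s V₀)`. -/
theorem wnc_inf (hS : Setting P E M p w) {VM : ValuationSubring (FE E M)}
    {V : ValuationSubring (FE E (M * p))} (hVM : IsVinf P E M VM) (hV : IsVinf P E (M * p) V)
    {W : FE E (M * p) ≃ₐ[E] FE E (M * p)} (hW : IsFricke E (M * p) W)
    {u : FE E (M * p)} (hu : u ≠ 0)
    (hNα : IsPthNormE (normAlpha E M p) u) (hNβ : IsPthNormE (normBeta E M p) u)
    (h1 : DepthE w p V 1 u) (s : ℕ) :
    DepthE w p V s u ∧ DepthE w p (V.comap (W : FE E (M * p) →+* FE E (M * p))) s u := by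
  have hαβ : ∀ c ∈ constSet E M, (βE E M p).toRingHom c = (αE E M p).toRingHom c := by
    rintro c ⟨e, -, rfl⟩
    exact ((βE E M p).commutes e).trans ((αE E M p).commutes e).symm
  have hϖ : (βE E M p).toRingHom (cE P E M w) = (αE E M p).toRingHom (cE P E M w) :=
    ((βE E M p).commutes _).trans ((αE E M p).commutes _).symm
  have key := pingpong_inf (side_alpha hS hVM hV hW) (side_beta hS hVM hV hW)
    (isConstSet_constSet E M) hαβ hϖ (isPthNorm_of _ hu hNα) (isPthNorm_of _ hu hNβ)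
    ((depth_iff_depthE hS V 1 u).mpr h1) s
  exact ⟨(depth_iff_depthE hS V s u).mp key.1, (depth_iff_depthE hS _ s u).mp key.2⟩

/-- **W-NC, concrete form (start at `V₀`).** -/
theorem wnc_zero (hS : Setting P E M p w) {VM : ValuationSubring (FE E M)}
    {V : ValuationSubring (FE E (M * p))} (hVM : IsVinf P E M VM) (hV : IsVinf P E (M * p) V)
    {W : FE E (M * p) ≃ₐ[E] FE E (M * p)} (hW : IsFricke E (M * p) W)
    {u : FE E (M * p)} (hu : u ≠ 0)
    (hNα : IsPthNormE (normAlpha E M p) u) (hNβ : IsPthNormE (normBeta E M p) u)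
    (h1 : DepthE w p (V.comap (W : FE E (M * p) →+* FE E (M * p))) 1 u) (s : ℕ) :
    DepthE w p V s u ∧ DepthE w p (V.comap (W : FE E (M * p) →+* FE E (M * p))) s u := by
  have hαβ : ∀ c ∈ constSet E M, (βE E M p).toRingHom c = (αE E M p).toRingHom c := by
    rintro c ⟨e, -, rfl⟩
    exact ((βE E M p).commutes e).trans ((αE E M p).commutes e).symm
  have hϖ : (βE E M p).toRingHom (cE P E M w) = (αE E M p).toRingHom (cE P E M w) :=
    ((βE E M p).commutes _).trans ((αE E M p).commutes _).symm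
  have key := pingpong_zero (side_alpha hS hVM hV hW) (side_beta hS hVM hV hW)
    (isConstSet_constSet E M) hαβ hϖ (isPthNorm_of _ hu hNα) (isPthNorm_of _ hu hNβ)
    ((depth_iff_depthE hS _ 1 u).mpr h1) s
  exact ⟨(depth_iff_depthE hS V s u).mp key.1, (depth_iff_depthE hS _ s u).mp key.2⟩

end WNC

end Fermat.Agent.Ribet.H232
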