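import Fermat.Agent.Ribet.H232.NCFinal
import Fermat.Agent.Ribet.H884.SlopeClosed
import Fermat.Agent.Ribet.H573.SplitRoot
import Fermat.Agent.Ribet.H939.ResField

/-!
# RIBET / WALL-p, (S4) WILD, DEEP-SPLIT of `f_t`: the depth-one input at a GIVEN good level
(helper232)

`E` a good level for `A` (`R_E = A ∩ E` a discrete valuation ring with algebraically closed
residue field; e.g. the TAME level), `N` a level, `V = V∞(E)` the Gauss valuation ring of
`F_{N,E}`, `w` a uniformiser of `R_E`.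

* `resRE_surjective`      : `R_E → k_A` is surjective (`k_A` = residue field of `A`);
* `exists_isRedInf_level` : every `s ≠ 0` of `k(X₀(M))`, `M ∣ N`, is a reduction
                            (`H884.IsRedInf`) of `ι g`, `g ∈ F_{N,E}`;
* `depthE_of_isRedInf_one`: `h ∈ F_{N,E}` with reduction `1` ⟹ `h ∈ Eˣ · (1 + w V)`;
* **`depthE_one_of_isRedInf`** : `u ∈ F_{N,E}` whose reduction is `s ^ p`, `s ∈ k(X₀(M))`,
                            `M ∣ N` ⟹ `DepthE w p V 1 u`
                            (the hypothesis `h1` of `wnc_both`, `H703.deepSplit_E`);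
* **`depthE_one_of_splitGen`** : `u ∈ F_{pM',E}` with `H884.SplitGen p M' A (ι u)` ⟹
                            `DepthE w p V 1 u` and `DepthE w p (V.comap W) 1 u`.
-/

set_option autoImplicit false
set_option synthInstance.maxHeartbeats 400000
set_option maxHeartbeats 1600000
set_option linter.unusedSectionVars false
set_option linter.style.haveILetI false

noncomputable section

namespace Fermat.Agent.Ribet.H232

open ModularCurve HahnSeries AlgebraicCurve Polynomial
open Fermat.Agent.A2 Fermat.Agent.A2.Mod Fermat.Agent.A2.H48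

local notation "Q̄" => AlgebraicClosure ℚ

/-! ## 0. `R_E → k_A` is surjective -/

section Residue

variable (A : ValuationSubring Q̄) (E : IntermediateField ℚ Q̄)

/-- the residue map of `A` restricted to `R_E`. -/
def resRE : Mod.RE A E →+* IsLocalRing.ResidueField A :=
  (IsLocalRing.residue A).comp (inclRA A E)

theorem isUnit_of_isUnit_inclRA {r : Mod.RE A E} (h : IsUnit (inclRA A E r)) : IsUnit r := by
  obtain ⟨a, ha⟩ := h.exists_right_inv
  have h1 : algebraMap E Q̄ (r : E) * (a : Q̄) = 1 := congrArg Subtype.val ha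
  have hr0 : (r : E) ≠ 0 := by
    intro h0
    rw [h0, map_zero, zero_mul] at h1
    exact zero_ne_one h1
  have h2 : algebraMap E Q̄ ((r : E)⁻¹) = (a : Q̄) := by
    rw [map_inv₀]
    exact inv_eq_of_mul_eq_one_right h1
  have h3 : algebraMap E Q̄ ((r : E)⁻¹) ∈ A := by rw [h2]; exact a.2
  refine IsUnit.of_mul_eq_one (⟨(r : E)⁻¹, h3⟩ : Mod.RE A E) ?_
  exact Subtype.ext (mul_inv_cancel₀ hr0)

instance isLocalHom_inclRA : IsLocalHom (inclRA A E) :=
  ⟨fun _ h => isUnit_of_isUnit_inclRA A E h⟩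

variable {A}

theorem intCast_residue_ne_zero {p : ℕ} (hp : p.Prime) (hA : A.LiesOverPrime p) {n : ℤ}
    (hn : ¬ (p : ℤ) ∣ n) : ((n : ℤ) : IsLocalRing.ResidueField A) ≠ 0 := by
  have hp0 : ((p : ℤ) : IsLocalRing.ResidueField A) = 0 := by
    have h1 : ((p : ℤ) : IsLocalRing.ResidueField A) = IsLocalRing.residue A ((p : ℕ) : A) := by
      simp
    rw [h1, IsLocalRing.residue_eq_zero_iff, A.valuation_lt_one_iff]
    have h2 : A.valuation (((p : ℕ) : A) : Q̄) < 1 := (ValuationSubring.mem_nonunits_iff A).mp (by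
      have h3 : (((p : ℕ) : A) : Q̄) = (p : Q̄) := by simp
      rw [h3]
      exact hA)
    exact h2
  have hcop : IsCoprime n (p : ℤ) := by
    rw [isCoprime_comm]
    exact (Prime.coprime_iff_not_dvd (Nat.prime_iff_prime_int.mp hp)).mpr hn
  obtain ⟨a, b, hab⟩ := hcop
  intro h0
  have h4 := congrArg (fun z : ℤ => (z : IsLocalRing.ResidueField A)) hab
  simp only [Int.cast_add, Int.cast_mul, Int.cast_one, hp0, h0, mul_zero, add_zero] at h4
  exact zero_ne_one h4

/-- `R_E → k_A` is surjective when the residue field of `R_E` is algebraically closed. -/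
theorem resRE_surjective {p : ℕ} (hp : p.Prime) (hA : A.LiesOverPrime p)
    [IsAlgClosed (IsLocalRing.ResidueField (Mod.RE A E))] :
    Function.Surjective (resRE A E) := by
  set f : IsLocalRing.ResidueField (Mod.RE A E) →+* IsLocalRing.ResidueField A :=
    IsLocalRing.ResidueField.map (inclRA A E) with hf
  have hint : f.IsIntegral := by
    intro c
    obtain ⟨a, rfl⟩ := IsLocalRing.residue_surjective c
    have halgQ : IsAlgebraic ℚ (a : Q̄) := (AlgebraicClosure.isAlgebraic ℚ).isAlgebraic _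
    have halgZ : IsAlgebraic ℤ (a : Q̄) := (IsFractionRing.isAlgebraic_iff ℤ ℚ Q̄).mpr halgQ
    obtain ⟨P, hP0, hPa⟩ := halgZ
    have hqa : aeval (a : Q̄) P.primPart = 0 := aeval_primPart_eq_zero hP0 hPa
    have hqA : Polynomial.eval₂ (Int.castRingHom A) a P.primPart = 0 := by
      apply Subtype.ext
      have h := Polynomial.hom_eval₂ P.primPart (Int.castRingHom A) A.subtype a
      rw [ZeroMemClass.coe_zero, ← hqa, aeval_def]
      have hc : (A.subtype).comp (Int.castRingHom A) = algebraMap ℤ Q̄ := RingHom.ext_int _ _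
      rw [← hc]
      exact h
    -- a coefficient prime to `p`
    have hex : ∃ i, ¬ (p : ℤ) ∣ P.primPart.coeff i := by
      by_contra hcon
      have hcon' : ∀ i, (p : ℤ) ∣ P.primPart.coeff i := fun i => by
        by_contra h
        exact hcon ⟨i, h⟩
      have hdvd : Polynomial.C (p : ℤ) ∣ P.primPart := by
        rw [C_dvd_iff_dvd_coeff]
        exact hcon'
      have hu := (isPrimitive_iff_isUnit_of_C_dvd.mp (isPrimitive_primPart P)) _ hdvd
      have h1 := Int.isUnit_iff.mp hu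
      have h2 := hp.two_le
      omega
    obtain ⟨i, hi⟩ := hex
    set Q : Polynomial (IsLocalRing.ResidueField (Mod.RE A E)) :=
      P.primPart.map (Int.castRingHom _) with hQ
    have hcomp : f.comp (Int.castRingHom (IsLocalRing.ResidueField (Mod.RE A E)))
        = (IsLocalRing.residue A).comp (Int.castRingHom A) := RingHom.ext_int _ _
    have hroot : Polynomial.eval₂ f (IsLocalRing.residue A a) Q = 0 := by
      rw [hQ, Polynomial.eval₂_map, hcomp, ← Polynomial.hom_eval₂, hqA, map_zero]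
    have hQ0 : Q ≠ 0 := by
      intro h0
      have h1 : f (Q.coeff i) = ((P.primPart.coeff i : ℤ) : IsLocalRing.ResidueField A) := by
        rw [hQ, coeff_map]
        simp
      rw [h0, Polynomial.coeff_zero, map_zero] at h1
      exact intCast_residue_ne_zero hp hA hi h1.symm
    refine ⟨Q * Polynomial.C Q.leadingCoeff⁻¹, monic_mul_leadingCoeff_inv hQ0, ?_⟩
    rw [Polynomial.eval₂_mul, hroot, zero_mul]
  have hsurj : Function.Surjective f := (IsAlgClosed.ringHom_bijective_of_isIntegral f hint).2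
  intro c
  obtain ⟨y, hy⟩ := hsurj c
  obtain ⟨r, rfl⟩ := IsLocalRing.residue_surjective y
  refine ⟨r, ?_⟩
  rw [← hy]
  rfl

end Residue

/-! ## 1. lifting `k(X₀(M))` to level `E` -/

section Lift

open Fermat.Agent.S24 Fermat.Agent.A2.H528 Fermat.Agent.A2.T1.H669 Fermat.Agent.Ribet.H884

variable (A : ValuationSubring Q̄) (E : IntermediateField ℚ Q̄)

/-- reduction of `R_E`-integral series to `k_A((t))`. -/
abbrev redE : LaurentSeries (Mod.RE A E) →+* LaurentSeries (IsLocalRing.ResidueField A) :=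
  coeffMap (resRE A E)

theorem red_up (U : LaurentSeries (Mod.RE A E)) :
    H708.red A (coeffMap (inclRA A E) U) = redE A E U := by
  show coeffMap _ (coeffMap _ U) = _
  rw [coeffMap_coeffMap]
  rfl

/-- `s` is the reduction of a fraction of `R_E`-integral series of `F_E`. -/
def LiftE (F₀ : IntermediateField ℚ (LaurentSeries ℚ))
    (s : LaurentSeries (IsLocalRing.ResidueField A)) : Prop :=
  ∃ U₁ U₂ : LaurentSeries (Mod.RE A E), redE A E U₂ ≠ 0 ∧
    H708.incl (Mod.RE A E) U₁ ∈ laurentBaseChange E F₀ ∧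
    H708.incl (Mod.RE A E) U₂ ∈ laurentBaseChange E F₀ ∧ s * redE A E U₂ = redE A E U₁

variable {A E} {F₀ : IntermediateField ℚ (LaurentSeries ℚ)}

theorem LiftE.zero : LiftE A E F₀ 0 :=
  ⟨0, 1, by rw [map_one]; exact one_ne_zero, by rw [map_zero]; exact zero_mem _,
    by rw [map_one]; exact one_mem _, by rw [zero_mul, map_zero]⟩

theorem LiftE.add {s s' : LaurentSeries (IsLocalRing.ResidueField A)} (h : LiftE A E F₀ s)
    (h' : LiftE A E F₀ s') : LiftE A E F₀ (s + s') := by
  obtain ⟨U₁, U₂, h0, hm₁, hm₂, he⟩ := h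
  obtain ⟨U₁', U₂', h0', hm₁', hm₂', he'⟩ := h'
  refine ⟨U₁ * U₂' + U₁' * U₂, U₂ * U₂', ?_, ?_, ?_, ?_⟩
  · rw [map_mul]; exact mul_ne_zero h0 h0'
  · rw [map_add, map_mul, map_mul]
    exact add_mem (mul_mem hm₁ hm₂') (mul_mem hm₁' hm₂)
  · rw [map_mul]; exact mul_mem hm₂ hm₂'
  · rw [map_add, map_mul, map_mul, map_mul, ← he, ← he']
    ring

theorem LiftE.mul {s s' : LaurentSeries (IsLocalRing.ResidueField A)} (h : LiftE A E F₀ s)
    (h' : LiftE A E F₀ s') : LiftE A E F₀ (s * s') := by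
  obtain ⟨U₁, U₂, h0, hm₁, hm₂, he⟩ := h
  obtain ⟨U₁', U₂', h0', hm₁', hm₂', he'⟩ := h'
  refine ⟨U₁ * U₁', U₂ * U₂', ?_, ?_, ?_, ?_⟩
  · rw [map_mul]; exact mul_ne_zero h0 h0'
  · rw [map_mul]; exact mul_mem hm₁ hm₁'
  · rw [map_mul]; exact mul_mem hm₂ hm₂'
  · rw [map_mul, map_mul, ← he, ← he']
    ring

theorem LiftE.inv {s : LaurentSeries (IsLocalRing.ResidueField A)} (h : LiftE A E F₀ s) :
    LiftE A E F₀ s⁻¹ := by
  by_cases hs : s = 0
  · rw [hs, inv_zero]
    exact LiftE.zero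
  obtain ⟨U₁, U₂, h0, hm₁, hm₂, he⟩ := h
  refine ⟨U₂, U₁, ?_, hm₂, hm₁, ?_⟩
  · rw [← he]
    exact mul_ne_zero hs h0
  · rw [← he, ← mul_assoc, inv_mul_cancel₀ hs, one_mul]

theorem LiftE.const (hsurj : Function.Surjective (resRE A E))
    (c : IsLocalRing.ResidueField A) :
    LiftE A E F₀ (algebraMap _ (LaurentSeries (IsLocalRing.ResidueField A)) c) := by
  obtain ⟨r, rfl⟩ := hsurj c
  refine ⟨H708.cstA (Mod.RE A E) r, 1, by rw [map_one]; exact one_ne_zero, ?_,
    by rw [map_one]; exact one_mem _, ?_⟩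
  · rw [H708.incl_cstA]
    exact (laurentBaseChange E F₀).algebraMap_mem _
  · rw [map_one, mul_one, algebraMap_laurentSeries_eq_single, H708.cstA]
    exact (coeffMap_single _ _ _).symm

theorem LiftE.gen {N : ℕ} (d : ℕ) [NeZero d] (hd : d ∣ N) :
    LiftE A E (modularFunctionFieldFull N)
      (qExpand (IsLocalRing.ResidueField A) d (jqModC (IsLocalRing.ResidueField A))) := by
  refine ⟨coeffMap (Int.castRingHom (Mod.RE A E)) (qExpand ℤ d (jqModC ℤ)), 1,
    by rw [map_one]; exact one_ne_zero, ?_, by rw [map_one]; exact one_mem _, ?_⟩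
  · have h1 : H708.incl (Mod.RE A E)
          (coeffMap (Int.castRingHom (Mod.RE A E)) (qExpand ℤ d (jqModC ℤ)))
        = coeffEmb E (qExpand ℚ d jq) := by
      show coeffMap _ (coeffMap _ _) = coeffMap _ _
      rw [coeffMap_coeffMap, coeffMap_qExpand, coeffMap_jqModC, ← jqModC_rat, coeffMap_qExpand,
        coeffMap_jqModC]
    rw [h1]
    exact coeffEmb_mem_laurentBaseChange E (jqd_mem_full N hd)
  · rw [map_one, mul_one]
    show _ = coeffMap _ (coeffMap _ _)
    rw [coeffMap_coeffMap, coeffMap_qExpand, coeffMap_jqModC]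

/-- every element of `k(X₀(M))`, `M ∣ N`, lifts to level `E`. -/
theorem liftE_of_mem_fullC (hsurj : Function.Surjective (resRE A E)) {M N : ℕ} (hMN : M ∣ N)
    {s : LaurentSeries (IsLocalRing.ResidueField A)}
    (hs : s ∈ modularFunctionFieldFullC (IsLocalRing.ResidueField A) M) :
    LiftE A E (modularFunctionFieldFull N) s := by
  induction hs using IntermediateField.adjoin_induction with
  | mem x hx =>
      obtain ⟨d, hne, hd, rfl⟩ := hx
      haveI := hne
      exact LiftE.gen d (hd.trans hMN)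
  | algebraMap c => exact LiftE.const hsurj c
  | add x y _ _ ihx ihy => exact ihx.add ihy
  | mul x y _ _ ihx ihy => exact ihx.mul ihy
  | inv x _ ihx => exact ihx.inv

/-- **Lifting at level `E`**: every nonzero `s ∈ k(X₀(M))`, `M ∣ N`, is a reduction of `ι g`
with `g ∈ F_{N,E}`. -/
theorem exists_isRedInf_level (hsurj : Function.Surjective (resRE A E)) {M N : ℕ} [NeZero N]
    (hMN : M ∣ N) {s : LaurentSeries (IsLocalRing.ResidueField A)}
    (hs : s ∈ modularFunctionFieldFullC (IsLocalRing.ResidueField A) M) (hs0 : s ≠ 0) :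
    ∃ g : FE E N, g ≠ 0 ∧ IsRedInf N A (iota E (modularFunctionFieldFull N) g) s := by
  obtain ⟨U₁, U₂, h0, hm₁, hm₂, he⟩ := liftE_of_mem_fullC hsurj hMN (N := N) hs
  have h1 : redE A E U₁ ≠ 0 := by
    rw [← he]
    exact mul_ne_zero hs0 h0
  have hU₂ : H708.incl (Mod.RE A E) U₂ ≠ 0 := by
    intro h
    apply h0
    have : U₂ = 0 := H708.incl_injective _ (h.trans (map_zero _).symm)
    rw [this, map_zero]
  have hU₁ : H708.incl (Mod.RE A E) U₁ ≠ 0 := by
    intro h
    apply h1
    have : U₁ = 0 := H708.incl_injective _ (h.trans (map_zero _).symm)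
    rw [this, map_zero]
  refine ⟨⟨H708.incl (Mod.RE A E) U₁ / H708.incl (Mod.RE A E) U₂, div_mem hm₁ hm₂⟩, ?_, ?_⟩
  · intro h
    have h2 := congrArg Subtype.val h
    exact div_ne_zero hU₁ hU₂ h2
  · refine ⟨1, coeffMap (inclRA A E) U₁, coeffMap (inclRA A E) U₂, one_ne_zero, ?_, ?_, ?_, ?_⟩
    · rw [red_up]; exact h1
    · rw [red_up]; exact h0
    · rw [coe_iota]
      show coeffMap (algebraMap E Q̄) (H708.incl (Mod.RE A E) U₁ / H708.incl (Mod.RE A E) U₂) * _
        = _
      rw [map_div₀, coeffMap_incl_RE, coeffMap_incl_RE, H708.cst_one, one_mul]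
      have hY : H708.incl A (coeffMap (inclRA A E) U₂) ≠ 0 := by
        rw [← coeffMap_incl_RE]
        exact (map_ne_zero_iff _ (Fermat.Agent.S18.H602.coeffMap_injective _ (algebraMap E Q̄).injective)).mpr hU₂
      exact div_mul_cancel₀ _ hY
    · rw [red_up, red_up]; exact he

end Lift

/-! ## 2. reduction `1` ⟹ depth one at level `E` -/

section DepthOne

open Fermat.Agent.S24 Fermat.Agent.A2.H528 Fermat.Agent.A2.T1.H669 Fermat.Agent.Ribet.H884

variable {A : ValuationSubring Q̄} {E : IntermediateField ℚ Q̄}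

theorem resRE_eq (r : Mod.RE A E) :
    resRE A E r = IsLocalRing.ResidueField.map (inclRA A E) (IsLocalRing.residue _ r) := rfl

/-- primitive over `k_A` ⟹ primitive over the residue field of `R_E`. -/
theorem red_ne_zero_of_redE {U : LaurentSeries (Mod.RE A E)} (h : redE A E U ≠ 0) :
    H708.red (Mod.RE A E) U ≠ 0 := by
  intro h0
  apply h
  ext n
  have h1 := congrArg (fun z => z.coeff n) h0
  simp only [coeffMap_coeff, HahnSeries.coeff_zero] at h1
  rw [coeffMap_coeff, HahnSeries.coeff_zero, resRE_eq, h1, map_zero]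

theorem redE_cstA (r : Mod.RE A E) :
    redE A E (H708.cstA (Mod.RE A E) r) = HahnSeries.single 0 (resRE A E r) := by
  rw [H708.cstA]
  exact coeffMap_single _ _ _

theorem cst_inv' {L : Type*} [Field L] (c : L) : H708.cst c⁻¹ = (H708.cst c)⁻¹ :=
  map_inv₀ _ _

/-- the coercion of the depth-one quotient. -/
theorem coe_depth_quot {N : ℕ} (w : Mod.RE A E) (h : FE E N) (e : E) :
    (((h * (algebraMap E (FE E N) e)⁻¹ - 1) * (cE A E N w)⁻¹ : FE E N) : LaurentSeries E)
      = ((h : LaurentSeries E) * (H708.cst e)⁻¹ - 1) * (H708.cst (w : E))⁻¹ := rfl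

/-- **Reduction `1` ⟹ depth one.** -/
theorem depthE_of_isRedInf_one {N : ℕ} [NeZero N] [IsDiscreteValuationRing (Mod.RE A E)]
    (hsurj : Function.Surjective (resRE A E)) {w : Mod.RE A E} (hw : Irreducible w)
    {V : ValuationSubring (FE E N)} (hV : IsVinf A E N V) {h : FE E N}
    (hred : IsRedInf N A (iota E (modularFunctionFieldFull N) h) 1) :
    ∃ e : E, e ≠ 0 ∧ (h * (algebraMap E (FE E N) e)⁻¹ - 1) * (cE A E N w)⁻¹ ∈ V := by
  have hx0 : ((iota E (modularFunctionFieldFull N) h : FF N) : LaurentSeries Q̄) ≠ 0 :=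
    hred.fun_ne_zero
  have hh0 : (h : LaurentSeries E) ≠ 0 := by
    intro h0
    apply hx0
    rw [coe_iota, h0, map_zero]
  obtain ⟨c, U₁, U₂, hc, h₁, h₂, hrel, hr⟩ := hred
  rw [one_mul] at hr
  rw [coe_iota] at hrel
  -- the normal form at level `E`
  obtain ⟨c', U₁', U₂', hc', h₁', h₂', hm₁', hm₂', he⟩ :=
    H708.exists_normal_form (H708.intGen_full N)
      (H708.attainsMax_of_isNoetherianRing (Mod.RE A E) (modularFunctionFieldFull N)) h.2 hh0
  have hc'' : algebraMap E Q̄ c' ≠ 0 := (map_ne_zero_iff _ (algebraMap E Q̄).injective).mpr hc'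
  have he' : coeffMap (algebraMap E Q̄) (h : LaurentSeries E)
        * H708.incl A (coeffMap (inclRA A E) U₂')
      = H708.cst (algebraMap E Q̄ c') * H708.incl A (coeffMap (inclRA A E) U₁') := by
    rw [← coeffMap_incl_RE, ← coeffMap_incl_RE, ← map_mul, he, map_mul]
    congr 1
    exact Fermat.Agent.S18.H602.coeffMap_algebraMap' (algebraMap E Q̄) c'
  have hp₁ : H708.red A (coeffMap (inclRA A E) U₁') ≠ 0 := red_inclRA_ne_zero A E h₁'
  have hp₂ : H708.red A (coeffMap (inclRA A E) U₂') ≠ 0 := red_inclRA_ne_zero A E h₂'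
  -- comparison of the two normal forms over `A`
  have hX₂ : H708.incl A U₂ ≠ 0 := H708.incl_ne_zero A (H708.ne_zero_of_red_ne_zero A h₂)
  have hX₂' : H708.incl A (coeffMap (inclRA A E) U₂') ≠ 0 :=
    H708.incl_ne_zero A (H708.ne_zero_of_red_ne_zero A hp₂)
  have hcc : H708.cst c ≠ 0 := H708.cst_ne_zero hc
  have hcc' : H708.cst (algebraMap E Q̄ c') ≠ 0 := H708.cst_ne_zero hc''
  have key : H708.cst (c * (algebraMap E Q̄ c')⁻¹)
        * H708.incl A (U₁ * coeffMap (inclRA A E) U₂')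
      = H708.incl A (coeffMap (inclRA A E) U₁' * U₂) := by
    rw [map_mul, map_mul, H708.cst_mul, cst_inv']
    have e1 : H708.incl A U₁ = (H708.cst c)⁻¹
        * (coeffMap (algebraMap E Q̄) (h : LaurentSeries E) * H708.incl A U₂) := by
      rw [hrel, ← mul_assoc, inv_mul_cancel₀ hcc, one_mul]
    have e2 : H708.incl A (coeffMap (inclRA A E) U₁') = (H708.cst (algebraMap E Q̄ c'))⁻¹
        * (coeffMap (algebraMap E Q̄) (h : LaurentSeries E)
          * H708.incl A (coeffMap (inclRA A E) U₂')) := by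
      rw [he', ← mul_assoc, inv_mul_cancel₀ hcc', one_mul]
    rw [e1, e2]
    field_simp
  have key' : H708.cst (algebraMap E Q̄ c' * c⁻¹)
        * H708.incl A (coeffMap (inclRA A E) U₁' * U₂)
      = H708.incl A (U₁ * coeffMap (inclRA A E) U₂') := by
    rw [← key, ← mul_assoc, ← H708.cst_mul]
    have e3 : algebraMap E Q̄ c' * c⁻¹ * (c * (algebraMap E Q̄ c')⁻¹) = 1 := by
      field_simp
    rw [e3, H708.cst_one, one_mul]
  have hprim : H708.red A (U₁ * coeffMap (inclRA A E) U₂') ≠ 0 := by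
    rw [map_mul]; exact mul_ne_zero h₁ hp₂
  have hprim' : H708.red A (coeffMap (inclRA A E) U₁' * U₂) ≠ 0 := by
    rw [map_mul]; exact mul_ne_zero hp₁ h₂
  have hεA : c * (algebraMap E Q̄ c')⁻¹ ∈ A := H708.mem_of_cst_mul_prim A hprim key
  have hεA' : algebraMap E Q̄ c' * c⁻¹ ∈ A := H708.mem_of_cst_mul_prim A hprim' key'
  obtain ⟨ε, hεdef⟩ : ∃ ε : A, (ε : Q̄) = c * (algebraMap E Q̄ c')⁻¹ := ⟨⟨_, hεA⟩, rfl⟩
  have hεu : IsUnit ε := by
    refine IsUnit.of_mul_eq_one (⟨_, hεA'⟩ : A) ?_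
    apply Subtype.ext
    show (ε : Q̄) * (algebraMap E Q̄ c' * c⁻¹) = 1
    rw [hεdef]
    field_simp
  have hεres : IsLocalRing.residue A ε ≠ 0 := by
    intro h0
    rw [IsLocalRing.residue_eq_zero_iff] at h0
    exact (IsLocalRing.mem_maximalIdeal _).mp h0 hεu
  have hredrel : HahnSeries.single 0 (IsLocalRing.residue A ε)
        * H708.red A (coeffMap (inclRA A E) U₂')
      = H708.red A (coeffMap (inclRA A E) U₁') := by
    have h5 : H708.cstA A ε * (U₁ * coeffMap (inclRA A E) U₂')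
        = coeffMap (inclRA A E) U₁' * U₂ := by
      apply H708.incl_injective A
      rw [map_mul, H708.incl_cstA, hεdef]
      exact key
    have h6 := congrArg (H708.red A) h5
    rw [map_mul, map_mul, map_mul, H708.red_cstA, ← hr] at h6
    have h7 : (HahnSeries.single 0 (IsLocalRing.residue A ε)
          * H708.red A (coeffMap (inclRA A E) U₂')) * H708.red A U₂
        = H708.red A (coeffMap (inclRA A E) U₁') * H708.red A U₂ := by
      rw [← h6]; ring
    exact mul_right_cancel₀ h₂ h7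
  -- lift the residue of `ε`
  obtain ⟨r₀, hr₀⟩ := hsurj (IsLocalRing.residue A ε)
  have hr₀0 : (r₀ : E) ≠ 0 := by
    intro h0
    have : r₀ = 0 := Subtype.ext h0
    rw [this, map_zero] at hr₀
    exact hεres hr₀.symm
  have hprimE : redE A E (H708.cstA (Mod.RE A E) r₀ * U₂') ≠ 0 := by
    rw [map_mul, redE_cstA, hr₀, ← red_up]
    refine mul_ne_zero ?_ hp₂
    intro h0
    have := congrArg (fun z => z.coeff 0) h0
    simp only [HahnSeries.coeff_single_same, HahnSeries.coeff_zero] at this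
    exact hεres this
  -- the numerator has zero reduction
  have hU₃ : redE A E (U₁' - H708.cstA (Mod.RE A E) r₀ * U₂') = 0 := by
    rw [map_sub, map_mul, redE_cstA, hr₀, ← red_up, ← red_up, hredrel, sub_self]
  have hcoef : ∀ n, (H708.cst ((w : E)⁻¹)
      * H708.incl (Mod.RE A E) (U₁' - H708.cstA (Mod.RE A E) r₀ * U₂')).coeff n
        ∈ Mod.RE A E := by
    intro n
    rw [H708.coeff_cst_mul, H708.coeff_incl]
    have h8 := congrArg (fun z => z.coeff n) hU₃
    simp only [coeffMap_coeff, HahnSeries.coeff_zero] at h8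
    have h9 : inclRA A E ((U₁' - H708.cstA (Mod.RE A E) r₀ * U₂').coeff n)
        ∈ IsLocalRing.maximalIdeal A := (IsLocalRing.residue_eq_zero_iff _).mp h8
    have h10 : algebraMap E Q̄ (((U₁' - H708.cstA (Mod.RE A E) r₀ * U₂').coeff n : Mod.RE A E) : E)
        ∈ A.nonunits := by
      rw [ValuationSubring.mem_nonunits_iff]
      exact (A.valuation_lt_one_iff _).mp h9
    obtain ⟨r, hr'⟩ := exists_eq_mul_of_nonunit hw h10
    have hw0' : (w : E) ≠ 0 := fun h0 => hw.ne_zero (Subtype.ext h0)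
    rw [hr', ← mul_assoc, inv_mul_cancel₀ hw0', one_mul]
    exact r.2
  obtain ⟨U₄, hU₄⟩ := H708.exists_incl_eq (Mod.RE A E) hcoef
  refine ⟨c' * (r₀ : E), mul_ne_zero hc' hr₀0, ?_⟩
  rw [hV, coe_depth_quot]
  refine ⟨U₄, H708.cstA (Mod.RE A E) r₀ * U₂', red_ne_zero_of_redE hprimE, ?_, ?_⟩
  · rw [map_mul, H708.incl_cstA]
    exact mul_mem ((laurentBaseChange E (modularFunctionFieldFull N)).algebraMap_mem _) hm₂'
  · rw [hU₄, map_mul, map_sub, map_mul, H708.incl_cstA]
    have hw0 : H708.cst (w : E) ≠ 0 := H708.cst_ne_zero (fun h0 => hw.ne_zero (Subtype.ext h0))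
    have hr0c : H708.cst (r₀ : E) ≠ 0 := H708.cst_ne_zero hr₀0
    have hc0c : H708.cst c' ≠ 0 := H708.cst_ne_zero hc'
    have e4 : H708.incl (Mod.RE A E) U₁' = (H708.cst c')⁻¹
        * ((h : LaurentSeries E) * H708.incl (Mod.RE A E) U₂') := by
      rw [he, ← mul_assoc, inv_mul_cancel₀ hc0c, one_mul]
    rw [e4, H708.cst_mul, cst_inv']
    field_simp

end DepthOne

/-! ## 3. the depth-one input of norm contraction at level `E` -/

section Main

open Fermat.Agent.S24 Fermat.Agent.A2.H528 Fermat.Agent.A2.T1.H669 Fermat.Agent.Ribet.H884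

variable {A : ValuationSubring Q̄} {E : IntermediateField ℚ Q̄}

theorem isRedInf_pow_level {N : ℕ} [NeZero N] {f : FF N}
    {r : LaurentSeries (IsLocalRing.ResidueField A)} (h : IsRedInf N A f r) (n : ℕ) :
    IsRedInf N A (f ^ n) (r ^ n) := by
  induction n with
  | zero => rw [pow_zero, pow_zero]; exact isRedInf_one
  | succ n ih => rw [pow_succ, pow_succ]; exact IsRedInf.mul ih h

/-- **Depth one at level `E`, `V∞`.**  If the reduction of `ι u`, `u ∈ F_{N,E}`, on `C∞` is the
`p`-th power of an element of `k(X₀(M))`, `M ∣ N`, then `u ∈ Eˣ · (F_{N,E}ˣ)^p · (1 + w V∞)`. -/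
theorem depthE_one_of_isRedInf {N M : ℕ} [NeZero N] [IsDiscreteValuationRing (Mod.RE A E)]
    (hsurj : Function.Surjective (resRE A E)) {w : Mod.RE A E} (hw : Irreducible w)
    {V : ValuationSubring (FE E N)} (hV : IsVinf A E N V) {p : ℕ} (hp : p ≠ 0) (hMN : M ∣ N)
    {u : FE E N} {s : LaurentSeries (IsLocalRing.ResidueField A)}
    (hs : s ∈ modularFunctionFieldFullC (IsLocalRing.ResidueField A) M)
    (hred : IsRedInf N A (iota E (modularFunctionFieldFull N) u) (s ^ p)) :
    DepthE w p V 1 u := by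
  have hsp0 : s ^ p ≠ 0 := hred.ne_zero
  have hs0 : s ≠ 0 := by
    rintro rfl
    exact hsp0 (zero_pow hp)
  obtain ⟨g, hg0, hg⟩ := exists_isRedInf_level hsurj hMN hs hs0
  have h1 : IsRedInf N A (iota E (modularFunctionFieldFull N) (u * (g ^ p)⁻¹)) 1 := by
    have h2 := IsRedInf.mul hred (IsRedInf.inv (isRedInf_pow_level hg p))
    rw [mul_inv_cancel₀ hsp0] at h2
    rw [map_mul, map_inv₀, map_pow]
    exact h2
  obtain ⟨e, he0, he⟩ := depthE_of_isRedInf_one hsurj hw hV h1
  refine ⟨e, he0, g, hg0, ?_⟩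
  have h3 : u * (algebraMap E (FE E N) e * g ^ p)⁻¹
      = u * (g ^ p)⁻¹ * (algebraMap E (FE E N) e)⁻¹ := by
    rw [mul_inv]; ring
  rw [h3, pow_one]
  exact he

/-- transport of `DepthE` along the Fricke involution. -/
theorem depthE_comap_wE {N : ℕ} [NeZero N] {w : Mod.RE A E} {V : ValuationSubring (FE E N)}
    {p s : ℕ} {u : FE E N} (h : DepthE w p V s (H553.wE E N u)) :
    DepthE w p (V.comap ((H553.wE E N : FE E N ≃ₐ[E] FE E N) : FE E N →+* FE E N)) s u := by
  obtain ⟨e, he0, g, hg0, hmem⟩ := h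
  refine ⟨e, he0, H553.wE E N g, (map_ne_zero_iff _ (H553.wE E N).injective).mpr hg0, ?_⟩
  rw [ValuationSubring.mem_comap]
  have h1 : ((H553.wE E N : FE E N ≃ₐ[E] FE E N) : FE E N →+* FE E N)
        ((u * (algebraMap E (FE E N) e * H553.wE E N g ^ p)⁻¹ - 1) * (cE A E N w ^ s)⁻¹)
      = (H553.wE E N u * (algebraMap E (FE E N) e * g ^ p)⁻¹ - 1) * (cE A E N w ^ s)⁻¹ := by
    show H553.wE E N ((u * (algebraMap E (FE E N) e * H553.wE E N g ^ p)⁻¹ - 1)
        * (cE A E N w ^ s)⁻¹) = _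
    have hc : H553.wE E N (cE A E N w) = cE A E N w := (H553.wE E N).commutes _
    have hww : H553.wE E N (H553.wE E N g) = g := (H553.isFricke_wE E N).2 g
    rw [map_mul, map_sub, map_mul, map_inv₀, map_mul, map_pow, map_inv₀, map_pow, map_one,
      (H553.wE E N).commutes, hc, hww]
  rw [h1]
  exact hmem

/-- **Depth one at level `E`, `V₀`.** -/
theorem depthE_one_of_isRedZero {N M : ℕ} [NeZero N] [IsDiscreteValuationRing (Mod.RE A E)]
    (hsurj : Function.Surjective (resRE A E)) {w : Mod.RE A E} (hw : Irreducible w)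
    {V : ValuationSubring (FE E N)} (hV : IsVinf A E N V) {p : ℕ} (hp : p ≠ 0) (hMN : M ∣ N)
    {u : FE E N} {s : LaurentSeries (IsLocalRing.ResidueField A)}
    (hs : s ∈ modularFunctionFieldFullC (IsLocalRing.ResidueField A) M)
    (hred : IsRedZero N A (iota E (modularFunctionFieldFull N) u) (s ^ p)) :
    DepthE w p (V.comap ((H553.wE E N : FE E N ≃ₐ[E] FE E N) : FE E N →+* FE E N)) 1 u := by
  apply depthE_comap_wE
  refine depthE_one_of_isRedInf hsurj hw hV hp hMN hs ?_
  have h7 : wF N (iota E (modularFunctionFieldFull N) u)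
      = iota E (modularFunctionFieldFull N) (H553.wE E N u) := (H553.iota_wE E N u).symm
  rw [← h7]
  exact hred

/-- **DEPTH-E for a split Kummer generator.**  `E` a good level, `u ∈ F_{pM',E}` with
`H884.SplitGen p M' A (ι u)` (reductions in `k(X₀(M')) ∩ k((t^p))` on both components).  Then
`u` has depth one (constants allowed) at `V∞(E)` and at `V₀(E)`: the hypothesis `h1` of
`wnc_both`, `wnc_both_one_to`, `H703.deepSplit_E`. -/
theorem depthE_one_of_splitGen {p M' : ℕ} [NeZero M'] [NeZero p] [NeZero (p * M')]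
    (hp : p.Prime) (hpM : ¬ p ∣ M') (hA : A.LiesOverPrime p) (hE : GoodField A E)
    {w : Mod.RE A E} (hw : Irreducible w) {V : ValuationSubring (FE E (p * M'))}
    (hV : IsVinf A E (p * M') V) {u : FE E (p * M')}
    (hu : SplitGen p M' A (iota E (modularFunctionFieldFull (p * M')) u)) :
    DepthE w p V 1 u ∧
      DepthE w p (V.comap ((H553.wE E (p * M') : FE E (p * M') ≃ₐ[E] FE E (p * M')) :
        FE E (p * M') →+* FE E (p * M'))) 1 u := by
  haveI := hE.dvr
  haveI := hE.algClosed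
  obtain ⟨hac, hch⟩ := Fermat.Agent.Ribet.H939.resField p hp A hA
  haveI := hac
  haveI := hch
  haveI : Fact p.Prime := ⟨hp⟩
  have hsurj : Function.Surjective (resRE A E) := resRE_surjective E hp hA
  have hM' : M' ≠ 0 := NeZero.ne M'
  obtain ⟨r₁, r₂, h1, h2, ⟨k₁, hk₁, -, -⟩, ⟨k₂, hk₂, -, -⟩, hs1, hs2⟩ := hu
  obtain ⟨s₁, hs₁, hsr₁⟩ :=
    Fermat.Agent.Ribet.H573.exists_root_in_full p M' hM' hpM r₁ (hk₁ ▸ k₁.2) hs1
  obtain ⟨s₂, hs₂, hsr₂⟩ :=
    Fermat.Agent.Ribet.H573.exists_root_in_full p M' hM' hpM r₂ (hk₂ ▸ k₂.2) hs2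
  rw [← hsr₁] at h1
  rw [← hsr₂] at h2
  exact ⟨depthE_one_of_isRedInf hsurj hw hV hp.ne_zero (dvd_mul_left M' p) hs₁ h1,
    depthE_one_of_isRedZero hsurj hw hV hp.ne_zero (dvd_mul_left M' p) hs₂ h2⟩

/-- **DEPTH-E, series form** (any presentation `N` of the level `p M'`, e.g. `N = M' * p`):
`f ∈ ℚ̄(X₀(pM'))` a split Kummer generator whose `t`-expansion is the one of `u ∈ F_{N,E}`. -/
theorem depthE_one_of_splitGen_series {p M' N : ℕ} [NeZero M'] [NeZero p] [NeZero (p * M')]
    [NeZero N] (hN : p * M' = N) (hp : p.Prime) (hpM : ¬ p ∣ M') (hA : A.LiesOverPrime p)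
    (hE : GoodField A E) {w : Mod.RE A E} (hw : Irreducible w)
    {V : ValuationSubring (FE E N)} (hV : IsVinf A E N V) {u : FE E N} {f : FF (p * M')}
    (hfu : (f : LaurentSeries Q̄) = coeffMap (algebraMap E Q̄) (u : LaurentSeries E))
    (hf : SplitGen p M' A f) :
    DepthE w p V 1 u ∧
      DepthE w p (V.comap ((H553.wE E N : FE E N ≃ₐ[E] FE E N) : FE E N →+* FE E N)) 1 u := by
  subst hN
  have h1 : f = iota E (modularFunctionFieldFull (p * M')) u := Subtype.ext hfu
  rw [h1] at hf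
  exact depthE_one_of_splitGen hp hpM hA hE hw hV hf

end Main

end Fermat.Agent.Ribet.H232
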