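import Fermat.Agent.Ribet.H232.NCInst

/-!
# RIBET / WALL-p, leaf W-NC — constants and simultaneous roots (helper232)

Refinements of `NormContraction.lean` / `NCInst.lean`:

* `Side.step_const`, `pingpong_const` : the ping-pong with EXPLICIT constants: if
  `N_α u = c_α h^p` and `N_β u = c_β h'^p`, then at every depth `u ∈ c_α (Lˣ)^p (1 + π^s V∞)` and
  `u ∈ c_β (Lˣ)^p (1 + π^s V₀)` (the constants are those of the norms);
* `exists_common_root` : weak approximation: if `u ∈ c g₁^p (1 + π^s V₁)` and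
  `u ∈ c g₂^p (1 + π^s V₂)` (same constant), there is ONE `g` with
  `u ∈ c g^p (1 + π^s V₁) ∩ c g^p (1 + π^s V₂)`;
* `wnc_const`, `wnc_both`, `wnc_both_one` : the concrete forms at level `E`
  (vocabulary of `A2/Mod/Spec.lean`, `q := p`).  In particular (`wnc_both_one`): if the norms of
  `u ∈ F_N^×` along `α` and `β` are `p`-th powers and `u` has depth `≥ 1` at one of `V∞`, `V₀`,
  then for every `s` there is `g ≠ 0` with `u / g^p ∈ 1 + w^s V∞` and `u / g^p ∈ 1 + w^s V₀`.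
-/

set_option autoImplicit false
set_option synthInstance.maxHeartbeats 400000
set_option maxHeartbeats 1600000
set_option linter.unusedSectionVars false
set_option linter.style.haveILetI false

noncomputable section

namespace Fermat.Agent.Ribet.H232

open Fermat.Agent.A2 Fermat.Agent.A2.Mod Fermat.Agent.A2.H48

/-! ## 1. abstract part -/

section Abstract

variable {K L : Type*} [Field K] [Field L]

/-- `u ∈ c · (Lˣ)^p · (1 + π^s V)` for the given constant `c`. -/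
def DepthC (V : ValuationSubring L) (π : L) (p : ℕ) (c : L) (s : ℕ) (u : L) : Prop :=
  ∃ g : L, g ≠ 0 ∧ Dv V (π ^ s) (u * (c * g ^ p)⁻¹ - 1)

theorem DepthC.mono {V : ValuationSubring L} {π : L} {p : ℕ} {c : L} (hπ : π ∈ V) {s t : ℕ}
    (hst : s ≤ t) {u : L} (h : DepthC V π p c t u) : DepthC V π p c s u := by
  obtain ⟨g, hg, hdv⟩ := h
  exact ⟨g, hg, Dv.pow_mono hπ hst hdv⟩

theorem DepthC.depth {V : ValuationSubring L} {π : L} {p : ℕ} {ι : K →+* L} {C : Set K}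
    {c : K} (hc : c ∈ C) {s : ℕ} {u : L} (h : DepthC V π p (ι c) s u) :
    Depth V π p ι C s u := by
  obtain ⟨g, hg, hdv⟩ := h
  exact ⟨c, hc, g, hg, hdv⟩

/-- `(1 + π^n V)` is closed under powers. -/
theorem dv_pow_sub_one {V : ValuationSubring L} {π : L} (h : IsUnif V π) {n : ℕ} {u : L}
    (hu : Dv V (π ^ n) (u - 1)) (m : ℕ) : Dv V (π ^ n) (u ^ m - 1) := by
  induction m with
  | zero =>
    rw [pow_zero, sub_self]
    exact Dv.zero
  | succ m ih =>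
    rw [pow_succ]
    exact dv_mul_sub_one h ih hu

/-- **One step of the ping-pong, with the constant of the norm.** -/
theorem Side.step_const {O : ValuationSubring K} {Vd Vi : ValuationSubring L} {ϖ : K} {p : ℕ}
    {φ : K →+* L} {N : L →* K} (hS : Side O Vd Vi ϖ p φ N)
    {ι : K →+* L} {C : Set K} (hC : IsConstSet C) (hφι : ∀ c ∈ C, φ c = ι c)
    {s : ℕ} (hs : 1 ≤ s) {u : L} {c₁ h₁ : K} (hc₁ : c₁ ∈ C) (hh₁ : h₁ ≠ 0)
    (hNu : N u = c₁ * h₁ ^ p)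
    (hd : Depth Vi (φ ϖ) p ι C s u) : DepthC Vd (φ ϖ) p (ι c₁) (s + 1) u := by
  obtain ⟨c, hc, g, hg, hdv⟩ := hd
  have hc0 := hC.ne_zero c hc
  have hc₁0 := hC.ne_zero c₁ hc₁
  have hιc : ι c ≠ 0 := by rw [← hφι c hc, Ne, map_eq_zero]; exact hc0
  have hιc₁ : ι c₁ ≠ 0 := by rw [← hφι c₁ hc₁, Ne, map_eq_zero]; exact hc₁0
  have hx0 : ι c * g ^ p ≠ 0 := mul_ne_zero hιc (pow_ne_zero _ hg)
  set u' : L := u * (ι c * g ^ p)⁻¹ with hu'
  have hu'0 : u' ≠ 0 :=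
    ne_zero_of_dv_sub_one hS.unif_i (Dv.of_pow hS.unif_i.mem hs hdv)
  -- the norm of u'
  have hNg : N g ≠ 0 := norm_ne_zero_of_ne_zero N hg
  have hNu' : N u' = (c₁ * c⁻¹) * (h₁ * (c * N g)⁻¹) ^ p := by
    rw [hu', map_mul, norm_inv_of_ne_zero N hx0, map_mul, map_pow, ← hφι c hc, hS.norm_base,
      hNu, pow_succ, mul_pow, inv_pow, mul_pow]
    field_simp
  set c₂ : K := c₁ * c⁻¹ with hc₂
  set h₂ : K := h₁ * (c * N g)⁻¹ with hh₂
  have hc₂C : c₂ ∈ C := hC.mul_mem _ hc₁ _ (hC.inv_mem _ hc)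
  have hc₂0 : c₂ ≠ 0 := hC.ne_zero _ hc₂C
  have hh₂0 : h₂ ≠ 0 := mul_ne_zero hh₁ (inv_ne_zero (mul_ne_zero hc0 hNg))
  -- approximation at the degree-one place
  obtain ⟨v, hv0, hv⟩ := hS.approx (s + 1) u' hu'0
  have hloc := hS.loc s hs u' 1 v one_ne_zero hv0 hv (by simpa using hdv)
  rw [one_pow, mul_one, hNu'] at hloc
  have hmap := ringHom_dv φ hS.le_d hloc
  rw [map_sub, map_one, map_mul, map_mul, map_pow, map_inv₀, map_pow] at hmap
  have hφv : φ v ≠ 0 := by rw [Ne, map_eq_zero]; exact hv0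
  have hφc₂ : φ c₂ ≠ 0 := by rw [Ne, map_eq_zero]; exact hc₂0
  have hφh₂ : φ h₂ ≠ 0 := by rw [Ne, map_eq_zero]; exact hh₂0
  have hinv := dv_inv_sub_one hS.unif_d (n := s + 1) (by omega) hmap
  have hprod := dv_mul_sub_one hS.unif_d hv hinv
  have e1 : u' * (φ v)⁻¹ * (φ c₂ * φ h₂ ^ p * (φ v)⁻¹)⁻¹ = u' * (φ c₂ * φ h₂ ^ p)⁻¹ := by
    field_simp
  rw [e1] at hprod
  refine ⟨g * φ h₂, mul_ne_zero hg hφh₂, ?_⟩
  have e3 : φ c₂ = ι c₁ * (ι c)⁻¹ := by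
    rw [hc₂, map_mul, map_inv₀, hφι c₁ hc₁, hφι c hc]
  have e2 : u * (ι c₁ * (g * φ h₂) ^ p)⁻¹ = u' * (φ c₂ * φ h₂ ^ p)⁻¹ := by
    rw [hu', e3, mul_pow]
    field_simp
  rw [e2]
  exact hprod

/-- **Ping-pong with the constants of the norms.** -/
theorem pingpong_const {O : ValuationSubring K} {Vinf V0 : ValuationSubring L} {ϖ : K} {p : ℕ}
    {α β : K →+* L} {Nα Nβ : L →* K}
    (hα : Side O Vinf V0 ϖ p α Nα) (hβ : Side O V0 Vinf ϖ p β Nβ)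
    {C : Set K} (hC : IsConstSet C) (hαβ : ∀ c ∈ C, β c = α c) (hϖ : β ϖ = α ϖ)
    {u : L} {cα cβ hA hB : K} (hcα : cα ∈ C) (hcβ : cβ ∈ C) (hhA : hA ≠ 0) (hhB : hB ≠ 0)
    (hNα : Nα u = cα * hA ^ p) (hNβ : Nβ u = cβ * hB ^ p)
    (h1 : Depth Vinf (α ϖ) p α C 1 u ∨ Depth V0 (α ϖ) p α C 1 u) (s : ℕ) :
    DepthC Vinf (α ϖ) p (α cα) s u ∧ DepthC V0 (α ϖ) p (α cβ) s u := by
  have hPα : IsPthNorm Nα p C u := ⟨cα, hcα, hA, hhA, hNα⟩
  have hPβ : IsPthNorm Nβ p C u := ⟨cβ, hcβ, hB, hhB, hNβ⟩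
  have hall : ∀ t : ℕ, Depth Vinf (α ϖ) p α C t u ∧ Depth V0 (α ϖ) p α C t u := by
    rcases h1 with h1 | h1
    · exact pingpong_inf hα hβ hC hαβ hϖ hPα hPβ h1
    · exact pingpong_zero hα hβ hC hαβ hϖ hPα hPβ h1
  have h0 := (hall (s + 1)).2
  have hi := (hall (s + 1)).1
  constructor
  · have := hα.step_const hC (fun _ _ => rfl) (Nat.le_add_left 1 s) hcα hhA hNα h0
    exact DepthC.mono hα.unif_d.mem (by omega) this
  · have := hβ.step_const hC hαβ (Nat.le_add_left 1 s) hcβ hhB hNβ (by rw [hϖ]; exact hi)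
    rw [hϖ] at this
    exact DepthC.mono hα.unif_i.mem (by omega) this

/-- **Weak approximation of the roots.**  If `u ∈ c g₁^p (1 + π^s V₁)` and
`u ∈ c g₂^p (1 + π^s V₂)`, there is one `g` with `u ∈ c g^p (1 + π^s V₁) ∩ c g^p (1 + π^s V₂)`. -/
theorem exists_common_root {V₁ V₂ : ValuationSubring L} {π : L} (h₁ : IsUnif V₁ π)
    (h₂ : IsUnif V₂ π) (hne : V₁ ≠ V₂) (arch₁ : ∀ a : L, ∃ k : ℕ, π ^ k * a ∈ V₁)
    (arch₂ : ∀ a : L, ∃ k : ℕ, π ^ k * a ∈ V₂) {p s : ℕ} {c u : L}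
    (d₁ : DepthC V₁ π p c s u) (d₂ : DepthC V₂ π p c s u) :
    ∃ g : L, g ≠ 0 ∧ Dv V₁ (π ^ s) (u * (c * g ^ p)⁻¹ - 1)
      ∧ Dv V₂ (π ^ s) (u * (c * g ^ p)⁻¹ - 1) := by
  obtain ⟨g₁, hg₁, hd₁⟩ := d₁
  obtain ⟨g₂, hg₂, hd₂⟩ := d₂
  have hπ := h₁.ne_zero
  obtain ⟨k₁, hk₁⟩ := arch₁ (g₂ * g₁⁻¹ - 1)
  obtain ⟨k₂, hk₂⟩ := arch₂ (g₁ * g₂⁻¹ - 1)
  obtain ⟨e, -, -, he₁, he₂⟩ := exists_idem h₁ h₂ hne (s + 1 + k₁ + k₂)
  set g : L := e * g₁ + (1 - e) * g₂ with hg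
  -- `g / g₁ ∈ 1 + π^(s+1) V₁`
  have c1 : Dv V₁ (π ^ (s + 1)) (g * g₁⁻¹ - 1) := by
    obtain ⟨y, hy, hey⟩ := he₁
    refine ⟨-(π ^ k₂ * y * (π ^ k₁ * (g₂ * g₁⁻¹ - 1))), ?_, ?_⟩
    · exact neg_mem (mul_mem (mul_mem (pow_mem h₁.mem _) hy) hk₁)
    · have h3 : g * g₁⁻¹ - 1 = -((e - 1) * (g₂ * g₁⁻¹ - 1)) := by
        rw [hg]
        field_simp
        ring
      rw [h3, hey]
      ring
  have c2 : Dv V₂ (π ^ (s + 1)) (g * g₂⁻¹ - 1) := by
    obtain ⟨y, hy, hey⟩ := he₂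
    refine ⟨π ^ k₁ * y * (π ^ k₂ * (g₁ * g₂⁻¹ - 1)), ?_, ?_⟩
    · exact mul_mem (mul_mem (pow_mem h₂.mem _) hy) hk₂
    · have h3 : g * g₂⁻¹ - 1 = e * (g₁ * g₂⁻¹ - 1) := by
        rw [hg]
        field_simp
        ring
      rw [h3, hey]
      ring
  have hgg₁ : g * g₁⁻¹ ≠ 0 :=
    ne_zero_of_dv_sub_one h₁ (Dv.of_pow h₁.mem (Nat.le_add_left 1 s) c1)
  have hg0 : g ≠ 0 := fun h0 => hgg₁ (by rw [h0, zero_mul])
  refine ⟨g, hg0, ?_, ?_⟩
  · have i1 := dv_inv_sub_one h₁ (Nat.le_add_left 1 s) c1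
    have i2 := dv_pow_sub_one h₁ i1 p
    have i3 := Dv.pow_mono h₁.mem (Nat.le_succ s) i2
    have i4 := dv_mul_sub_one h₁ hd₁ i3
    have e1 : u * (c * g ^ p)⁻¹ = u * (c * g₁ ^ p)⁻¹ * ((g * g₁⁻¹)⁻¹) ^ p := by
      have hp0 : g₁ ^ p ≠ 0 := pow_ne_zero _ hg₁
      have e0 : ((g * g₁⁻¹)⁻¹) ^ p = g₁ ^ p * (g ^ p)⁻¹ := by
        rw [mul_inv, inv_inv, mul_pow, inv_pow, mul_comm]
      rw [e0, mul_inv, mul_inv]
      calc u * (c⁻¹ * (g ^ p)⁻¹) = u * c⁻¹ * ((g₁ ^ p)⁻¹ * g₁ ^ p) * (g ^ p)⁻¹ := by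
            rw [inv_mul_cancel₀ hp0]; ring
        _ = u * (c⁻¹ * (g₁ ^ p)⁻¹) * (g₁ ^ p * (g ^ p)⁻¹) := by ring
    rw [e1]
    exact i4
  · have i1 := dv_inv_sub_one h₂ (Nat.le_add_left 1 s) c2
    have i2 := dv_pow_sub_one h₂ i1 p
    have i3 := Dv.pow_mono h₂.mem (Nat.le_succ s) i2
    have i4 := dv_mul_sub_one h₂ hd₂ i3
    have e1 : u * (c * g ^ p)⁻¹ = u * (c * g₂ ^ p)⁻¹ * ((g * g₂⁻¹)⁻¹) ^ p := by
      have hp0 : g₂ ^ p ≠ 0 := pow_ne_zero _ hg₂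
      have e0 : ((g * g₂⁻¹)⁻¹) ^ p = g₂ ^ p * (g ^ p)⁻¹ := by
        rw [mul_inv, inv_inv, mul_pow, inv_pow, mul_comm]
      rw [e0, mul_inv, mul_inv]
      calc u * (c⁻¹ * (g ^ p)⁻¹) = u * c⁻¹ * ((g₂ ^ p)⁻¹ * g₂ ^ p) * (g ^ p)⁻¹ := by
            rw [inv_mul_cancel₀ hp0]; ring
        _ = u * (c⁻¹ * (g₂ ^ p)⁻¹) * (g₂ ^ p * (g ^ p)⁻¹) := by ring
    rw [e1]
    exact i4

end Abstract

/-! ## 2. concrete part -/

section ConcreteBoth

variable {P : ValuationSubring Qb} {E : IntermediateField ℚ Qb} {M p : ℕ} [NeZero M] [NeZero p]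
  {w : RE P E}

/-- `V₀` has rank one: bounded denominators. -/
theorem arch_comap (hS : Setting P E M p w) {V : ValuationSubring (FE E (M * p))}
    (hV : IsVinf P E (M * p) V) (W : FE E (M * p) ≃ₐ[E] FE E (M * p)) (a : FE E (M * p)) :
    ∃ k : ℕ, cE P E (M * p) w ^ k * a ∈ V.comap (W : FE E (M * p) →+* FE E (M * p)) := by
  obtain ⟨k, hk⟩ := arch_vinf hS hV (W a)
  refine ⟨k, ?_⟩
  show W (cE P E (M * p) w ^ k * a) ∈ V
  have hWc : W (cE P E (M * p) w) = cE P E (M * p) w := W.commutes _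
  rw [map_mul, map_pow, hWc]
  exact hk

/-- **W-NC, concrete form with the constants of the norms.**  If `N_α u = e_α h^p` and
`N_β u = e_β h'^p` (`e_α, e_β ∈ E`) and `u` has depth `≥ 1` at `V∞` or at `V₀`, then for every
`s`: `u ∈ e_α (F_N^×)^p (1 + w^s V∞)` and `u ∈ e_β (F_N^×)^p (1 + w^s V₀)`. -/
theorem wnc_const (hS : Setting P E M p w) {VM : ValuationSubring (FE E M)}
    {V : ValuationSubring (FE E (M * p))} (hVM : IsVinf P E M VM) (hV : IsVinf P E (M * p) V)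
    {W : FE E (M * p) ≃ₐ[E] FE E (M * p)} (hW : IsFricke E (M * p) W)
    {u : FE E (M * p)} (hu : u ≠ 0) {eα eβ : E} {hA hB : FE E M}
    (hNα : normAlpha E M p u = algebraMap E (FE E M) eα * hA ^ p)
    (hNβ : normBeta E M p u = algebraMap E (FE E M) eβ * hB ^ p)
    (h1 : DepthE w p V 1 u ∨
      DepthE w p (V.comap (W : FE E (M * p) →+* FE E (M * p))) 1 u) (s : ℕ) :
    DepthC V (cE P E (M * p) w) p (algebraMap E (FE E (M * p)) eα) s u ∧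
      DepthC (V.comap (W : FE E (M * p) →+* FE E (M * p))) (cE P E (M * p) w) p
        (algebraMap E (FE E (M * p)) eβ) s u := by
  have hαβ : ∀ c ∈ constSet E M, (βE E M p).toRingHom c = (αE E M p).toRingHom c := by
    rintro c ⟨e, -, rfl⟩
    exact ((βE E M p).commutes e).trans ((αE E M p).commutes e).symm
  have hϖ : (βE E M p).toRingHom (cE P E M w) = (αE E M p).toRingHom (cE P E M w) :=
    ((βE E M p).commutes _).trans ((αE E M p).commutes _).symm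
  have hNα0 : normAlpha E M p u ≠ 0 := norm_ne_zero_of_ne_zero _ hu
  have hNβ0 : normBeta E M p u ≠ 0 := norm_ne_zero_of_ne_zero _ hu
  have heα : eα ≠ 0 := by
    rintro rfl
    rw [map_zero, zero_mul] at hNα
    exact hNα0 hNα
  have heβ : eβ ≠ 0 := by
    rintro rfl
    rw [map_zero, zero_mul] at hNβ
    exact hNβ0 hNβ
  have hhA : hA ≠ 0 := by
    rintro rfl
    rw [zero_pow (NeZero.ne p), mul_zero] at hNα
    exact hNα0 hNα
  have hhB : hB ≠ 0 := by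
    rintro rfl
    rw [zero_pow (NeZero.ne p), mul_zero] at hNβ
    exact hNβ0 hNβ
  have h1' : Depth V ((αE E M p).toRingHom (cE P E M w)) p (αE E M p).toRingHom
        (constSet E M) 1 u ∨
      Depth (V.comap (W : FE E (M * p) →+* FE E (M * p))) ((αE E M p).toRingHom (cE P E M w)) p
        (αE E M p).toRingHom (constSet E M) 1 u := by
    rcases h1 with h | h
    · exact Or.inl ((depth_iff_depthE hS V 1 u).mpr h)
    · exact Or.inr ((depth_iff_depthE hS _ 1 u).mpr h)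
  have key := pingpong_const (side_alpha hS hVM hV hW) (side_beta hS hVM hV hW)
    (isConstSet_constSet E M) hαβ hϖ (cα := algebraMap E (FE E M) eα)
    (cβ := algebraMap E (FE E M) eβ) ⟨eα, heα, rfl⟩ ⟨eβ, heβ, rfl⟩ hhA hhB hNα hNβ h1' s
  have hϖ' : (αE E M p).toRingHom (cE P E M w) = cE P E (M * p) w := H378.alpha_cE w
  have hcα : (αE E M p).toRingHom (algebraMap E (FE E M) eα) = algebraMap E (FE E (M * p)) eα :=
    (αE E M p).commutes eα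
  have hcβ : (αE E M p).toRingHom (algebraMap E (FE E M) eβ) = algebraMap E (FE E (M * p)) eβ :=
    (αE E M p).commutes eβ
  rw [hϖ', hcα, hcβ] at key
  exact key

/-- **W-NC, concrete form with ONE root.**  If `N_α u = e h^p` and `N_β u = e h'^p` with the same
constant `e ∈ E` and `u` has depth `≥ 1` at `V∞` or at `V₀`, then for every `s` there is
`g ≠ 0` with `u / (e g^p) ∈ 1 + w^s V∞` and `u / (e g^p) ∈ 1 + w^s V₀`. -/
theorem wnc_both (hS : Setting P E M p w) {VM : ValuationSubring (FE E M)}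
    {V : ValuationSubring (FE E (M * p))} (hVM : IsVinf P E M VM) (hV : IsVinf P E (M * p) V)
    {W : FE E (M * p) ≃ₐ[E] FE E (M * p)} (hW : IsFricke E (M * p) W)
    {u : FE E (M * p)} (hu : u ≠ 0) {e : E} {hA hB : FE E M}
    (hNα : normAlpha E M p u = algebraMap E (FE E M) e * hA ^ p)
    (hNβ : normBeta E M p u = algebraMap E (FE E M) e * hB ^ p)
    (h1 : DepthE w p V 1 u ∨
      DepthE w p (V.comap (W : FE E (M * p) →+* FE E (M * p))) 1 u) (s : ℕ) :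
    ∃ g : FE E (M * p), g ≠ 0 ∧
      (u * (algebraMap E (FE E (M * p)) e * g ^ p)⁻¹ - 1) * (cE P E (M * p) w ^ s)⁻¹ ∈ V ∧
      (u * (algebraMap E (FE E (M * p)) e * g ^ p)⁻¹ - 1) * (cE P E (M * p) w ^ s)⁻¹
        ∈ V.comap (W : FE E (M * p) →+* FE E (M * p)) := by
  obtain ⟨d₁, d₂⟩ := wnc_const hS hVM hV hW hu hNα hNβ h1 s
  have hu₁ : IsUnif V (cE P E (M * p) w) := isUnif_vinf hS level_ne_zero hV
  have hWc : (W : FE E (M * p) →+* FE E (M * p)) (cE P E (M * p) w) = cE P E (M * p) w :=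
    W.commutes _
  have hu₂ : IsUnif (V.comap (W : FE E (M * p) →+* FE E (M * p))) (cE P E (M * p) w) :=
    isUnif_comap hu₁ _ hWc
  obtain ⟨g, hg, hg₁, hg₂⟩ := exists_common_root hu₁ hu₂
    (H553.vzeroNe P E M p w hS V W hV hW).symm (arch_vinf hS hV) (arch_comap hS hV W) d₁ d₂
  have hc0 : cE P E (M * p) w ^ s ≠ 0 := pow_ne_zero _ (H378.cE_ne_zero hS _)
  exact ⟨g, hg, (Dv.iff_mul_inv hc0).mp hg₁, (Dv.iff_mul_inv hc0).mp hg₂⟩

/-- **W-NC, concrete form, norms `p`-th powers.**  If `N_α u` and `N_β u` are `p`-th powers in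
`F_M` and `u` has depth `≥ 1` at `V∞` or at `V₀`, then for every `s` there is `g ≠ 0` with
`u / g^p ∈ 1 + w^s V∞` and `u / g^p ∈ 1 + w^s V₀`. -/
theorem wnc_both_one (hS : Setting P E M p w) {VM : ValuationSubring (FE E M)}
    {V : ValuationSubring (FE E (M * p))} (hVM : IsVinf P E M VM) (hV : IsVinf P E (M * p) V)
    {W : FE E (M * p) ≃ₐ[E] FE E (M * p)} (hW : IsFricke E (M * p) W)
    {u : FE E (M * p)} (hu : u ≠ 0) {hA hB : FE E M}
    (hNα : normAlpha E M p u = hA ^ p) (hNβ : normBeta E M p u = hB ^ p)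
    (h1 : DepthE w p V 1 u ∨
      DepthE w p (V.comap (W : FE E (M * p) →+* FE E (M * p))) 1 u) (s : ℕ) :
    ∃ g : FE E (M * p), g ≠ 0 ∧
      (u * (g ^ p)⁻¹ - 1) * (cE P E (M * p) w ^ s)⁻¹ ∈ V ∧
      (u * (g ^ p)⁻¹ - 1) * (cE P E (M * p) w ^ s)⁻¹
        ∈ V.comap (W : FE E (M * p) →+* FE E (M * p)) := by
  have hNα' : normAlpha E M p u = algebraMap E (FE E M) 1 * hA ^ p := by
    rw [map_one, one_mul, hNα]
  have hNβ' : normBeta E M p u = algebraMap E (FE E M) 1 * hB ^ p := by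
    rw [map_one, one_mul, hNβ]
  obtain ⟨g, hg, h₁, h₂⟩ := wnc_both hS hVM hV hW hu hNα' hNβ' h1 s
  rw [map_one, one_mul] at h₁ h₂
  exact ⟨g, hg, h₁, h₂⟩

end ConcreteBoth

end Fermat.Agent.Ribet.H232
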