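import Fermat.Agent.Ribet.H232.NCTo
import Fermat.Agent.Ribet.H220.S2Spec
import Fermat.Agent.S35.H858.NormBC
import Fermat.Agent.A2.IF.H429.IF
import Fermat.Agent.A2.T1.H669.T1Core
import Fermat.Agent.A2.H708.GaussLevel
import Fermat.Agent.Lib.HI.H864.Modular

/-!
# RIBET / WALL-p, (S2): the leaf NC = `H220.NormContrStatement` (helper232)

`theorem normContr : Fermat.Agent.Ribet.H220.NormContrStatement` (VERBATIM): norm contraction in
the ABSOLUTE form (level `ℚ̄`, Gauss valuation rings `H708.Vinf`, `H708.Vzero` of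
`ℚ̄(X₀(p M'))`).

Route: level descent to a good level `E ⊆ ℚ̄` (`A2.IF.H429.ifStatement`,
`T1.H669.exists_finset_descent`) where `R_E` is a discrete valuation ring, Gauss descent/ascent
between `H708.Vinf` (over `A ⊆ ℚ̄`) and `V∞` of level `E` (`isGaussInt_descent`,
`isGaussInt_ascent`, via `H708` normal forms), norms commute with `E ⊆ ℚ̄`
(`S35.H858.iota_normAlong`), and the concrete norm contraction `wnc_both_one_to` at level `E`.
Only the depth-`ϖ` hypothesis at `V∞` is used.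
-/

set_option autoImplicit false
set_option synthInstance.maxHeartbeats 400000
set_option maxHeartbeats 1600000
set_option linter.unusedSectionVars false
set_option linter.style.haveILetI false

noncomputable section

namespace Fermat.Agent.Ribet.H232

open ModularCurve HahnSeries AlgebraicCurve
open Fermat.Agent.A2 Fermat.Agent.A2.Mod Fermat.Agent.A2.H48

local notation "Q̄" => AlgebraicClosure ℚ

/-! ## 1. Gauss descent and ascent -/

section GaussLevels

variable (A : ValuationSubring Q̄) (E : IntermediateField ℚ Q̄)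

/-- The inclusion `R_E = A ∩ E → A`. -/
def inclRA : Mod.RE A E →+* A where
  toFun x := ⟨algebraMap E Q̄ (x : E), x.2⟩
  map_one' := Subtype.ext (map_one _)
  map_mul' _ _ := Subtype.ext (map_mul _ _ _)
  map_zero' := Subtype.ext (map_zero _)
  map_add' _ _ := Subtype.ext (map_add _ _ _)

theorem coeffMap_incl_RE (U : LaurentSeries (Mod.RE A E)) :
    coeffMap (algebraMap E Q̄) (H708.incl (Mod.RE A E) U)
      = H708.incl A (coeffMap (inclRA A E) U) := by
  ext n
  rfl

theorem red_inclRA_ne_zero {U : LaurentSeries (Mod.RE A E)} (h : H708.red (Mod.RE A E) U ≠ 0) :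
    H708.red A (coeffMap (inclRA A E) U) ≠ 0 := by
  rw [H708.red_ne_zero_iff] at h ⊢
  obtain ⟨n, hn⟩ := h
  refine ⟨n, ?_⟩
  have hx0 : ((U.coeff n : Mod.RE A E) : E) ≠ 0 := by
    intro h0
    rw [h0, map_zero] at hn
    exact zero_ne_one hn
  obtain ⟨h1, h2⟩ := (H708.valuation_eq_one_iff_mem (Mod.RE A E) hx0).mp hn
  have hx0' : algebraMap E Q̄ ((U.coeff n : Mod.RE A E) : E) ≠ 0 :=
    (map_ne_zero_iff _ (algebraMap E Q̄).injective).mpr hx0
  show A.valuation (algebraMap E Q̄ ((U.coeff n : Mod.RE A E) : E)) = 1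
  rw [H708.valuation_eq_one_iff_mem A hx0']
  refine ⟨h1, ?_⟩
  have h3 : algebraMap E Q̄ (((U.coeff n : Mod.RE A E) : E)⁻¹) ∈ A := h2
  rwa [map_inv₀] at h3

variable {A E}

/-- **Gauss ascent**: Gauss-integral at level `E` ⟹ Gauss-integral over `ℚ̄`. -/
theorem isGaussInt_ascent {F₀ : IntermediateField ℚ (LaurentSeries ℚ)} {y : LaurentSeries E}
    (h : H708.IsGaussInt (Mod.RE A E) F₀ y) :
    H708.IsGaussInt A F₀ (coeffMap (algebraMap E Q̄) y) := by
  obtain ⟨U₁, U₂, hU₂, hm, he⟩ := h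
  refine ⟨coeffMap (inclRA A E) U₁, coeffMap (inclRA A E) U₂, red_inclRA_ne_zero A E hU₂, ?_, ?_⟩
  · rw [← coeffMap_incl_RE]
    exact Fermat.Agent.S18.H602.coeffMap_mem_laurentBaseChange F₀ _ hm
  · rw [← coeffMap_incl_RE, ← coeffMap_incl_RE, ← map_mul, he]

/-- **Gauss descent**: an element of `F_E` which is Gauss-integral over `ℚ̄` is Gauss-integral at
level `E` (`R_E` noetherian). -/
theorem isGaussInt_descent [IsNoetherianRing (Mod.RE A E)]
    {F₀ : IntermediateField ℚ (LaurentSeries ℚ)} (hgen : H708.IntGen F₀) {y : LaurentSeries E}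
    (hy : y ∈ laurentBaseChange E F₀)
    (h : H708.IsGaussInt A F₀ (coeffMap (algebraMap E Q̄) y)) :
    H708.IsGaussInt (Mod.RE A E) F₀ y := by
  by_cases hy0 : y = 0
  · rw [hy0]
    exact H708.IsGaussInt.zero
  obtain ⟨c, U₁, U₂, hc, h₁, h₂, hm₁, hm₂, he⟩ :=
    H708.exists_normal_form hgen (H708.attainsMax_of_isNoetherianRing (Mod.RE A E) F₀) hy hy0
  have hm₂' : H708.incl A (coeffMap (inclRA A E) U₂) ∈ laurentBaseChange Q̄ F₀ := by
    rw [← coeffMap_incl_RE]
    exact Fermat.Agent.S18.H602.coeffMap_mem_laurentBaseChange F₀ _ hm₂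
  have he' : coeffMap (algebraMap E Q̄) y * H708.incl A (coeffMap (inclRA A E) U₂)
      = H708.cst (algebraMap E Q̄ c) * H708.incl A (coeffMap (inclRA A E) U₁) := by
    rw [← coeffMap_incl_RE, ← coeffMap_incl_RE, ← map_mul, he, map_mul]
    congr 1
    exact Fermat.Agent.S18.H602.coeffMap_algebraMap' (algebraMap E Q̄) c
  have hcA : algebraMap E Q̄ c ∈ A :=
    (H708.isGaussInt_iff_of_normal_form (red_inclRA_ne_zero A E h₁) (red_inclRA_ne_zero A E h₂)
      hm₂' he').mp h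
  exact (H708.isGaussInt_iff_of_normal_form h₁ h₂ hm₂ he).mpr hcA

end GaussLevels

/-! ## 2. nonunits -/

section Nonunit

variable {A : ValuationSubring Q̄} {E : IntermediateField ℚ Q̄}

/-- a nonunit of `A` lying in `E` is divisible by the uniformiser of `R_E`. -/
theorem exists_eq_mul_of_nonunit [IsDiscreteValuationRing (Mod.RE A E)] {w : Mod.RE A E}
    (hw : Irreducible w) {ϖ : E} (hϖ : algebraMap E Q̄ ϖ ∈ A.nonunits) :
    ∃ r : Mod.RE A E, ϖ = (w : E) * (r : E) := by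
  have hv : A.valuation (algebraMap E Q̄ ϖ) < 1 := (ValuationSubring.mem_nonunits_iff A).mp hϖ
  have hmem : algebraMap E Q̄ ϖ ∈ A := (A.valuation_le_one_iff _).mp hv.le
  set x : Mod.RE A E := ⟨ϖ, hmem⟩ with hx
  have hnu : ¬ IsUnit x := by
    intro hu
    obtain ⟨u', hu'⟩ := hu.exists_right_inv
    have h1 : ϖ * (u' : E) = 1 := congrArg (fun z : Mod.RE A E => (z : E)) hu'
    have h2 : algebraMap E Q̄ ϖ * algebraMap E Q̄ (u' : E) = 1 := by
      rw [← map_mul, h1, map_one]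
    have h3 : A.valuation (algebraMap E Q̄ (u' : E)) ≤ 1 := (A.valuation_le_one_iff _).mpr u'.2
    have h4 := congrArg A.valuation h2
    rw [map_mul, map_one] at h4
    have h5 : A.valuation (algebraMap E Q̄ ϖ) * A.valuation (algebraMap E Q̄ (u' : E)) < 1 :=
      mul_lt_one_of_lt_of_le hv h3
    rw [h4] at h5
    exact lt_irrefl _ h5
  have hxm : x ∈ IsLocalRing.maximalIdeal (Mod.RE A E) := (IsLocalRing.mem_maximalIdeal _).mpr hnu
  rw [hw.maximalIdeal_eq, Ideal.mem_span_singleton'] at hxm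
  obtain ⟨r, hr⟩ := hxm
  refine ⟨r, ?_⟩
  have h6 : ((r * w : Mod.RE A E) : E) = (x : E) := congrArg (fun z : Mod.RE A E => (z : E)) hr
  have h7 : (x : E) = ϖ := rfl
  rw [← h7, ← h6]
  show (r : E) * (w : E) = (w : E) * (r : E)
  exact mul_comm _ _

end Nonunit

/-! ## 3. the leaf -/

section Main

open Fermat.Agent.S24 Fermat.Agent.A2.H708 Fermat.Agent.A2.H528
open Fermat.Agent.S29.H395 Fermat.Agent.S29.H801
open Fermat.Agent.A2.T1.H669
open Fermat.Agent.Ribet.H220

/-- retargeted finiteness for `β` (local copy of the one-line transport). -/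
theorem betaTo_finite_nc (L : Type*) [Field L] [Algebra ℚ L] {M ℓ N : ℕ} [NeZero M] [NeZero ℓ]
    [NeZero N] (h : M * ℓ = N) (hfin : FiniteAlong L (ModularCurve.heckeBetaBar L M ℓ)) :
    FiniteAlong L (betaTo L M ℓ N h) := by
  subst h
  exact hfin

/-- **NC** (`H220.NormContrStatement`, VERBATIM). -/
theorem normContr : NormContrStatement := by
  intro p M' _ _ _ hp _hp2 hpM A hA f g₁ g₂ hf hNα hNβ ϖ hϖ0 hϖ _hdiv Dinf _Dzero n
  classical
  obtain ⟨c₁, G₁, u₁, hc₁, hG₁, hf₁, y₁, hy₁, hu₁⟩ := Dinf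
  have hMN : M' * p = p * M' := Nat.mul_comm M' p
  -- the level
  obtain ⟨Sf, hSf⟩ := exists_finset_descent (modularFunctionFieldFull (p * M')) f
  obtain ⟨SG, hSG⟩ := exists_finset_descent (modularFunctionFieldFull (p * M')) G₁
  obtain ⟨Sy, hSy⟩ := exists_finset_descent (modularFunctionFieldFull (p * M')) y₁
  obtain ⟨S₁, hS₁⟩ := exists_finset_descent (modularFunctionFieldFull M') g₁
  obtain ⟨S₂, hS₂⟩ := exists_finset_descent (modularFunctionFieldFull M') g₂
  obtain ⟨E, hSE, hE⟩ := Fermat.Agent.A2.IF.H429.ifStatement p hp A hA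
    (Sf ∪ SG ∪ Sy ∪ S₁ ∪ S₂ ∪ {ϖ, c₁})
  obtain ⟨fE, hfE⟩ := hSf E (fun s hs => hSE s (by simp [hs]))
  obtain ⟨GE, hGE⟩ := hSG E (fun s hs => hSE s (by simp [hs]))
  obtain ⟨yE, hyE⟩ := hSy E (fun s hs => hSE s (by simp [hs]))
  obtain ⟨g₁E, hg₁E⟩ := hS₁ E (fun s hs => hSE s (by simp [hs]))
  obtain ⟨g₂E, hg₂E⟩ := hS₂ E (fun s hs => hSE s (by simp [hs]))
  have hϖE : ϖ ∈ E := hSE ϖ (by simp)
  have hcE : c₁ ∈ E := hSE c₁ (by simp)
  obtain ⟨ϖE, hϖEdef⟩ : ∃ ϖE : E, algebraMap E Q̄ ϖE = ϖ := ⟨⟨ϖ, hϖE⟩, rfl⟩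
  obtain ⟨cE₁, hcEdef⟩ : ∃ cE₁ : E, algebraMap E Q̄ cE₁ = c₁ := ⟨⟨c₁, hcE⟩, rfl⟩
  have hϖE0 : ϖE ≠ 0 := by
    rintro rfl
    rw [map_zero] at hϖEdef
    exact hϖ0 hϖEdef.symm
  have hcE0 : cE₁ ≠ 0 := by
    rintro rfl
    rw [map_zero] at hcEdef
    exact hc₁ hcEdef.symm
  haveI := hE.dvr
  obtain ⟨w, hw⟩ := IsDiscreteValuationRing.exists_irreducible (Mod.RE A E)
  have hS : Setting A E M' p w := ⟨hp, hpM, NeZero.ne M', hA, hE.dvr, hw⟩
  obtain ⟨V, hV⟩ := H553.vinfExists A E (p * M') (NeZero.ne (p * M')) hE.dvr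
  obtain ⟨VM, hVM⟩ := H553.vinfExists A E M' (NeZero.ne M') hE.dvr
  have hW := H553.isFricke_wE E (p * M')
  have hfE0 : fE ≠ 0 := by
    rintro rfl
    rw [map_zero] at hfE
    exact hf hfE.symm
  have hGE0 : GE ≠ 0 := by
    rintro rfl
    rw [map_zero] at hGE
    exact hG₁ hGE.symm
  -- the norms at level `E`
  have hcα : ∀ a, iota E (modularFunctionFieldFull (p * M')) (alphaTo E M' p (p * M') hMN a)
      = alphaTo Q̄ M' p (p * M') hMN (iota E (modularFunctionFieldFull M') a) := fun a =>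
    Subtype.ext (by rw [coe_iota, coe_alphaTo, coe_alphaTo, coe_iota])
  have hcβ : ∀ a, iota E (modularFunctionFieldFull (p * M')) (betaTo E M' p (p * M') hMN a)
      = betaTo Q̄ M' p (p * M') hMN (iota E (modularFunctionFieldFull M') a) := fun a =>
    Subtype.ext (by rw [coe_iota, coe_betaTo, coe_betaTo, coe_iota, coeffMap_qExpand])
  have hfinα : FiniteAlong Q̄ (alphaTo Q̄ M' p (p * M') hMN) :=
    alphaTo_finite Q̄ hMN (Fermat.Agent.Lib.HI.H864.finiteAlong_alpha M' p)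
  have hfinβ : FiniteAlong Q̄ (betaTo Q̄ M' p (p * M') hMN) :=
    betaTo_finite_nc Q̄ hMN (Fermat.Agent.Lib.HI.H864.finiteAlong_beta M' p)
  have hNαE : normAlong (alphaTo E M' p (p * M') hMN) fE = g₁E ^ p := by
    apply iota_injective E (modularFunctionFieldFull M')
    rw [Fermat.Agent.S35.H858.iota_normAlong E _ _ _ _ hcα hfinα fE, hfE, map_pow, hg₁E]
    exact hNα
  have hNβE : normAlong (betaTo E M' p (p * M') hMN) fE = g₂E ^ p := by
    apply iota_injective E (modularFunctionFieldFull M')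
    rw [Fermat.Agent.S35.H858.iota_normAlong E _ _ _ _ hcβ hfinβ fE, hfE, map_pow, hg₂E]
    exact hNβ
  -- depth one at `V∞`
  have hyEV : yE ∈ V := by
    rw [hV]
    refine isGaussInt_descent (H708.intGen_full (p * M')) yE.2 ?_
    have h1 : H708.IsGaussInt A (modularFunctionFieldFull (p * M'))
        ((y₁ : FF (p * M')) : LaurentSeries Q̄) := hy₁
    rw [← hyE] at h1
    exact h1
  have hfE₁ : fE = algebraMap E (FE E (p * M')) cE₁ * GE ^ p
      * (1 + algebraMap E (FE E (p * M')) ϖE * yE) := by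
    apply iota_injective E (modularFunctionFieldFull (p * M'))
    rw [hfE, map_mul, map_mul, map_pow, map_add, map_one, map_mul, iota_algebraMap,
      iota_algebraMap, hGE, hyE, hcEdef, hϖEdef, hf₁, hu₁]
  obtain ⟨r, hr⟩ := exists_eq_mul_of_nonunit hw (ϖ := ϖE) (by rw [hϖEdef]; exact hϖ)
  have hcw0 : cE A E (p * M') w ≠ 0 := H378.cE_ne_zero hS _
  have h1 : DepthE w p V 1 fE ∨
      DepthE w p (V.comap ((H553.wE E (p * M') : FE E (p * M') ≃ₐ[E] FE E (p * M')) :
        FE E (p * M') →+* FE E (p * M'))) 1 fE := by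
    refine Or.inl ⟨cE₁, hcE0, GE, hGE0, ?_⟩
    have hc0 : algebraMap E (FE E (p * M')) cE₁ ≠ 0 :=
      (map_ne_zero_iff _ (algebraMap E (FE E (p * M'))).injective).mpr hcE0
    have h2 : fE * (algebraMap E (FE E (p * M')) cE₁ * GE ^ p)⁻¹ - 1
        = algebraMap E (FE E (p * M')) ϖE * yE := by
      have hGp : GE ^ p ≠ 0 := pow_ne_zero _ hGE0
      rw [hfE₁]
      field_simp
      ring
    have h3 : algebraMap E (FE E (p * M')) ϖE
        = cE A E (p * M') w * cE A E (p * M') r := by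
      rw [hr, map_mul]
      rfl
    rw [h2, h3, pow_one]
    have h4 : cE A E (p * M') w * cE A E (p * M') r * yE * (cE A E (p * M') w)⁻¹
        = cE A E (p * M') r * yE := by
      field_simp
    rw [h4]
    exact V.mul_mem _ _ (H378.cE_mem hV r) hyEV
  -- norm contraction at level `E`
  obtain ⟨s, hs⟩ := exists_pow_mul_mem_of_dvr (Mod.RE A E) hw ((ϖE ^ n)⁻¹)
  obtain ⟨g, hg0, hgV, hgV₀⟩ := wnc_both_one_to hMN hS hVM hV hW hfE0 hNαE hNβE h1 s
  obtain ⟨v, hvdef⟩ : ∃ v : FE E (p * M'),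
      v = (fE * (g ^ p)⁻¹ - 1) * (cE A E (p * M') w ^ s)⁻¹ := ⟨_, rfl⟩
  rw [← hvdef] at hgV hgV₀
  obtain ⟨t, htdef⟩ : ∃ t : Mod.RE A E, (t : E) = (w : E) ^ s * (ϖE ^ n)⁻¹ := ⟨⟨_, hs⟩, rfl⟩
  obtain ⟨z, hzdef⟩ : ∃ z : FE E (p * M'), z = cE A E (p * M') t * v := ⟨_, rfl⟩
  have hzV : z ∈ V := by
    rw [hzdef]
    exact V.mul_mem _ _ (H378.cE_mem hV t) hgV
  have hzV₀ : H553.wE E (p * M') z ∈ V := by
    have h5 : H553.wE E (p * M') z = cE A E (p * M') t * H553.wE E (p * M') v := by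
      rw [hzdef, map_mul]
      congr 1
      exact (H553.wE E (p * M')).commutes _
    rw [h5]
    exact V.mul_mem _ _ (H378.cE_mem hV t) hgV₀
  have heq : fE * (g ^ p)⁻¹ = 1 + algebraMap E (FE E (p * M')) ϖE ^ n * z := by
    have hwE0 : (w : E) ≠ 0 := H378.w_ne_zero hS
    have hws : cE A E (p * M') w ^ s ≠ 0 := pow_ne_zero _ hcw0
    have h6 : algebraMap E (FE E (p * M')) ϖE ^ n * cE A E (p * M') t
        = cE A E (p * M') w ^ s := by
      show algebraMap E (FE E (p * M')) ϖE ^ n * algebraMap E (FE E (p * M')) (t : E)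
        = algebraMap E (FE E (p * M')) (w : E) ^ s
      rw [htdef, ← map_pow, ← map_pow, ← map_mul]
      congr 1
      have hϖn : ϖE ^ n ≠ 0 := pow_ne_zero _ hϖE0
      field_simp
    rw [hzdef, ← mul_assoc, h6, hvdef]
    field_simp
    ring
  have hfg : f = (iota E (modularFunctionFieldFull (p * M')) g) ^ p
      * iota E (modularFunctionFieldFull (p * M')) (fE * (g ^ p)⁻¹) := by
    rw [← map_pow, ← map_mul, ← hfE]
    congr 1
    have hgp : g ^ p ≠ 0 := pow_ne_zero _ hg0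
    field_simp
  have hone : iota E (modularFunctionFieldFull (p * M')) (fE * (g ^ p)⁻¹)
      = 1 + cF (p * M') ϖ ^ n * iota E (modularFunctionFieldFull (p * M')) z := by
    rw [heq, map_add, map_one, map_mul, map_pow, iota_algebraMap, hϖEdef]
  have hzinf : iota E (modularFunctionFieldFull (p * M')) z ∈ Vinf (p * M') A hp.ne_zero hA := by
    show H708.IsGaussInt A (modularFunctionFieldFull (p * M'))
      (coeffMap (algebraMap E Q̄) (z : LaurentSeries E))
    exact isGaussInt_ascent ((hV z).mp hzV)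
  have hzzero : iota E (modularFunctionFieldFull (p * M')) z
      ∈ Vzero (p * M') A hp.ne_zero hA := by
    show wF (p * M') (iota E (modularFunctionFieldFull (p * M')) z)
      ∈ Vinf (p * M') A hp.ne_zero hA
    have h7 : wF (p * M') (iota E (modularFunctionFieldFull (p * M')) z)
        = iota E (modularFunctionFieldFull (p * M')) (H553.wE E (p * M') z) :=
      (H553.iota_wE E (p * M') z).symm
    rw [h7]
    show H708.IsGaussInt A (modularFunctionFieldFull (p * M'))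
      (coeffMap (algebraMap E Q̄) ((H553.wE E (p * M') z : FE E (p * M')) : LaurentSeries E))
    exact isGaussInt_ascent ((hV _).mp hzV₀)
  have hg0' : iota E (modularFunctionFieldFull (p * M')) g ≠ 0 := iota_ne_zero E _ hg0
  exact ⟨⟨_, _, hg0', hfg, _, hzinf, hone⟩, ⟨_, _, hg0', hfg, _, hzzero, hone⟩⟩

end Main

end Fermat.Agent.Ribet.H232
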