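import Fermat.Agent.A2.H48.TwoExt

/-!
# RIBET / WALL-p, leaf W-NC = I4 (norm contraction): abstract core  (helper232)

Mathlib + `A2/H48` (Mathlib-only) only.  NO completions, NO Hensel.

## Setting `NLSetting O V₁ V₂ ϖ p θ g`
`K ⊆ F` fields, `[F : K] = p + 1`; `O` a rank-one valuation ring of `K` with uniformiser `ϖ`,
residue characteristic `p`; `V₁ ≠ V₂` valuation rings of `F` over `O`, both with uniformiser `ϖ`;
`θ ∈ V₁ ∩ V₂` with `1, θ, …, θ^(p-1)` residually independent over `O` at `V₂` and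
`θ^p ≡ g mod ϖ V₂`, `g ∈ O`.  (So `V₁` has residue degree one and `V₂` a purely inseparable
residue extension of degree `p`: the situation of `α, β : X₀(pM') → X₀(M')` at the two Gauss
valuations, by Kronecker's congruence.)

## Results
* `NLSetting.trace_dv`        : `η ∈ V₂`, `η ∈ π V₁` ⟹ `Tr η ∈ ϖ O`;
* `NLSetting.norm_sub_one_dv` : `u ∈ 1 + π^(s+1) V₁`, `u ∈ 1 + π^s V₂`, `s ≥ 1`
  ⟹ `N u ∈ 1 + ϖ^(s+1) O`  (**contraction** at the inseparable place);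
* `NLSetting.norm_locconst_dv`: `r ≡ ρ₁` at `V₁`, `r ≡ ρ₂` at `V₂` mod `π^m` multiplicatively
  ⟹ `N r ≡ ρ₁ ρ₂^p` mod `ϖ^m`;
* `NLSetting.norm_loc`        : **NORM-LOC** `u ≡ v` at `V₁` mod `π^(s+1)`, `u ≡ c` at `V₂` mod
  `π^s` (`v, c ∈ Kˣ`, multiplicatively) ⟹ `N u ≡ v c^p` mod `ϖ^(s+1)`;
* `NLSetting.exists_approx_mul`: multiplicative approximation at `V₁` by elements of `Kˣ`;
* `Side`, `NLSetting.side`, `Depth`, `IsPthNorm`, `Side.step`;
* `pingpong_inf`, `pingpong_zero` : **PING-PONG**.  For two embeddings `α, β : K → L` with the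
  roles of the two places exchanged: if `N_α u, N_β u ∈ C · (Kˣ)^p` (`u` is "new") and
  `u ∈ C · (Lˣ)^p · (1 + π V)` at ONE of the two places, then `u ∈ C · (Lˣ)^p · (1 + π^s V)` for
  EVERY `s` at BOTH places.
-/

set_option autoImplicit false

namespace Fermat.Agent.Ribet.H232

/-! ## Part 1: NormLocBasic -/

section Part1

open Fermat.Agent.A2.H48

section Dv

variable {F : Type*} [Field F]

/-- `x ∈ c · A` (elementwise divisibility in a valuation subring). -/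
def Dv (A : ValuationSubring F) (c x : F) : Prop := ∃ y ∈ A, x = c * y

namespace Dv

variable {A : ValuationSubring F} {c d x y : F}

theorem zero : Dv A c 0 := ⟨0, zero_mem _, by simp⟩

theorem self : Dv A c c := ⟨1, one_mem _, by simp⟩

theorem add (hx : Dv A c x) (hy : Dv A c y) : Dv A c (x + y) := by
  obtain ⟨a, ha, rfl⟩ := hx
  obtain ⟨b, hb, rfl⟩ := hy
  exact ⟨a + b, add_mem ha hb, by ring⟩

theorem neg (hx : Dv A c x) : Dv A c (-x) := by
  obtain ⟨a, ha, rfl⟩ := hx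
  exact ⟨-a, neg_mem ha, by ring⟩

theorem sub (hx : Dv A c x) (hy : Dv A c y) : Dv A c (x - y) := by
  obtain ⟨a, ha, rfl⟩ := hx
  obtain ⟨b, hb, rfl⟩ := hy
  exact ⟨a - b, sub_mem ha hb, by ring⟩

theorem mul (hx : Dv A c x) (hy : Dv A d y) : Dv A (c * d) (x * y) := by
  obtain ⟨a, ha, rfl⟩ := hx
  obtain ⟨b, hb, rfl⟩ := hy
  exact ⟨a * b, mul_mem ha hb, by ring⟩

theorem mul_left {a : F} (ha : a ∈ A) (hx : Dv A c x) : Dv A c (a * x) := by
  obtain ⟨b, hb, rfl⟩ := hx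
  exact ⟨a * b, mul_mem ha hb, by ring⟩

theorem mul_right {a : F} (ha : a ∈ A) (hx : Dv A c x) : Dv A c (x * a) := by
  obtain ⟨b, hb, rfl⟩ := hx
  exact ⟨b * a, mul_mem hb ha, by ring⟩

theorem pow (hx : Dv A c x) (n : ℕ) : Dv A (c ^ n) (x ^ n) := by
  obtain ⟨a, ha, rfl⟩ := hx
  exact ⟨a ^ n, pow_mem ha n, by ring⟩

theorem of_mem (hx : x ∈ A) : Dv A 1 x := ⟨x, hx, by simp⟩

theorem mem_of (hc : c ∈ A) (hx : Dv A c x) : x ∈ A := by
  obtain ⟨a, ha, rfl⟩ := hx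
  exact mul_mem hc ha

theorem one_iff : Dv A 1 x ↔ x ∈ A :=
  ⟨fun h => mem_of (one_mem _) h, of_mem⟩

theorem of_mul (hd : d ∈ A) (hx : Dv A (c * d) x) : Dv A c x := by
  obtain ⟨a, ha, rfl⟩ := hx
  exact ⟨d * a, mul_mem hd ha, by ring⟩

theorem pow_mono {π : F} (hπ : π ∈ A) {m n : ℕ} (hmn : m ≤ n) (hx : Dv A (π ^ n) x) :
    Dv A (π ^ m) x := by
  obtain ⟨k, rfl⟩ := Nat.exists_eq_add_of_le hmn
  rw [pow_add] at hx
  exact of_mul (pow_mem hπ k) hx

theorem of_pow {π : F} (hπ : π ∈ A) {n : ℕ} (hn : 1 ≤ n) (hx : Dv A (π ^ n) x) :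
    Dv A π x := by
  have := pow_mono hπ hn hx
  rwa [pow_one] at this

theorem sum {ι : Type*} (s : Finset ι) (f : ι → F) (h : ∀ i ∈ s, Dv A c (f i)) :
    Dv A c (∑ i ∈ s, f i) := by
  classical
  induction s using Finset.induction_on with
  | empty => simpa using zero
  | insert i s hi ih =>
    rw [Finset.sum_insert hi]
    exact add (h i (Finset.mem_insert_self i s))
      (ih fun j hj => h j (Finset.mem_insert_of_mem hj))

theorem iff_mul_inv (hc : c ≠ 0) : Dv A c x ↔ x * c⁻¹ ∈ A := by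
  constructor
  · rintro ⟨a, ha, rfl⟩
    have : c * a * c⁻¹ = a := by field_simp
    rw [this]; exact ha
  · intro h
    exact ⟨x * c⁻¹, h, by field_simp⟩

theorem smul_iff (hd : d ≠ 0) : Dv A (d * c) (d * x) ↔ Dv A c x := by
  constructor
  · rintro ⟨a, ha, h⟩
    refine ⟨a, ha, ?_⟩
    have : d * x = d * (c * a) := by rw [h]; ring
    exact mul_left_cancel₀ hd this
  · rintro ⟨a, ha, rfl⟩
    exact ⟨a, ha, by ring⟩

end Dv

end Dv

section Unif

variable {F : Type*} [Field F] {V : ValuationSubring F} {π : F}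

/-- A unit of `V` is not divisible by the uniformiser. -/
theorem not_dv_one (h : IsUnif V π) : ¬ Dv V π 1 := by
  rintro ⟨a, ha, h1⟩
  apply h.inv_not_mem
  have hπ := h.ne_zero
  have : π⁻¹ = a := by
    field_simp
    exact h1
  rw [this]; exact ha

/-- `1 + π x` is a unit of `V`. -/
theorem inv_mem_of_dv_sub_one (h : IsUnif V π) {u : F} (hu : Dv V π (u - 1)) : u⁻¹ ∈ V := by
  have huV : u ∈ V := by
    have := Dv.mem_of h.mem hu
    have h2 : u = (u - 1) + 1 := by ring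
    rw [h2]; exact add_mem this (one_mem _)
  by_contra hinv
  have := h.gen u huV hinv
  have h1 : Dv V π u := (Dv.iff_mul_inv h.ne_zero).2 this
  apply not_dv_one h
  have h2 : (1 : F) = u - (u - 1) := by ring
  rw [h2]; exact h1.sub hu

theorem ne_zero_of_dv_sub_one (h : IsUnif V π) {u : F} (hu : Dv V π (u - 1)) : u ≠ 0 := by
  rintro rfl
  apply not_dv_one h
  have : (1 : F) = -(0 - 1) := by ring
  rw [this]; exact hu.neg

/-- `(1 + π^n x)⁻¹ ∈ 1 + π^n V` for `n ≥ 1`. -/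
theorem dv_inv_sub_one (h : IsUnif V π) {n : ℕ} (hn : 1 ≤ n) {u : F}
    (hu : Dv V (π ^ n) (u - 1)) : Dv V (π ^ n) (u⁻¹ - 1) := by
  have hu1 : Dv V π (u - 1) := Dv.of_pow h.mem hn hu
  have hinv := inv_mem_of_dv_sub_one h hu1
  have hu0 := ne_zero_of_dv_sub_one h hu1
  have : u⁻¹ - 1 = u⁻¹ * (-(u - 1)) := by field_simp; ring
  rw [this]
  exact Dv.mul_left hinv hu.neg

/-- `1 + π^n V` is closed under multiplication. -/
theorem dv_mul_sub_one (h : IsUnif V π) {n : ℕ} {u v : F}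
    (hu : Dv V (π ^ n) (u - 1)) (hv : Dv V (π ^ n) (v - 1)) : Dv V (π ^ n) (u * v - 1) := by
  have hvV : v ∈ V := by
    have := Dv.mem_of (pow_mem h.mem n) hv
    have h2 : v = (v - 1) + 1 := by ring
    rw [h2]; exact add_mem this (one_mem _)
  have : u * v - 1 = (u - 1) * v + (v - 1) := by ring
  rw [this]
  exact (Dv.mul_right hvV hu).add hv

end Unif

section Idem

variable {F : Type*} [Field F] {V₁ V₂ : ValuationSubring F} {π : F}

/-- Approximate idempotents of any order: `e ≡ 1 mod π^T V₁`, `e ≡ 0 mod π^T V₂`. -/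
theorem exists_idem (h₁ : IsUnif V₁ π) (h₂ : IsUnif V₂ π) (hne : V₁ ≠ V₂) (T : ℕ) :
    ∃ e : F, e ∈ V₁ ∧ e ∈ V₂ ∧ Dv V₁ (π ^ T) (e - 1) ∧ Dv V₂ (π ^ T) e := by
  have hπ := h₁.ne_zero
  obtain ⟨x, hx1, hx2, hx3⟩ := exists_approx (k := 0) h₁ h₂ hne (one_mem V₁)
    (by simp)
  have hxa : Dv V₁ π (x - 1) := (Dv.iff_mul_inv hπ).2 hx2
  have hxb : Dv V₂ π x := (Dv.iff_mul_inv hπ).2 hx3
  have hx2' : x ∈ V₂ := Dv.mem_of h₂.mem hxb
  refine ⟨1 - (1 - x ^ T) ^ T, ?_, ?_, ?_, ?_⟩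
  · exact sub_mem (one_mem _) (pow_mem (sub_mem (one_mem _) (pow_mem hx1 _)) _)
  · exact sub_mem (one_mem _) (pow_mem (sub_mem (one_mem _) (pow_mem hx2' _)) _)
  · -- at V₁
    have e1 : 1 - x ^ T = (1 - x) * ∑ i ∈ Finset.range T, x ^ i := (mul_neg_geom_sum x T).symm
    have h1 : Dv V₁ π (1 - x ^ T) := by
      rw [e1]
      have : Dv V₁ π (1 - x) := by
        have := hxa.neg
        rwa [neg_sub] at this
      exact Dv.mul_right (sum_mem fun i _ => pow_mem hx1 i) this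
    have h2 := h1.pow T
    have : 1 - (1 - x ^ T) ^ T - 1 = -((1 - x ^ T) ^ T) := by ring
    rw [this]; exact h2.neg
  · -- at V₂
    have e2 : 1 - (1 - x ^ T) ^ T = (1 - (1 - x ^ T)) * ∑ i ∈ Finset.range T, (1 - x ^ T) ^ i :=
      (mul_neg_geom_sum (1 - x ^ T) T).symm
    rw [e2]
    have : 1 - (1 - x ^ T) = x ^ T := by ring
    rw [this]
    exact Dv.mul_right (sum_mem fun i _ =>
      pow_mem (sub_mem (one_mem _) (pow_mem hx2' _)) i) (hxb.pow T)

end Idem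

end Part1

/-! ## Part 2: NormLocBasis -/

section Part2

open Fermat.Agent.A2.H48

variable {K F : Type*} [Field K] [Field F] [Algebra K F]

/-- The setting of the local norm congruence. -/
structure NLSetting (O : ValuationSubring K) (V₁ V₂ : ValuationSubring F) (ϖ : K) (p : ℕ)
    (θ : F) (g : K) : Prop where
  unifO : IsUnif O ϖ
  unif₁ : IsUnif V₁ (algebraMap K F ϖ)
  unif₂ : IsUnif V₂ (algebraMap K F ϖ)
  le₁ : ∀ a ∈ O, algebraMap K F a ∈ V₁
  le₂ : ∀ a ∈ O, algebraMap K F a ∈ V₂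
  ne : V₁ ≠ V₂
  arch : ∀ a : K, ∃ k : ℕ, ϖ ^ k * a ∈ O
  char_p : Dv O ϖ (p : K)
  θ_mem₁ : θ ∈ V₁
  θ_mem₂ : θ ∈ V₂
  g_mem : g ∈ O
  θ_pow : Dv V₂ (algebraMap K F ϖ) (θ ^ p - algebraMap K F g)
  θ_indep : ∀ a : Fin p → K, (∀ i, a i ∈ O) →
    Dv V₂ (algebraMap K F ϖ) (∑ i, algebraMap K F (a i) * θ ^ (i : ℕ)) → ∀ i, Dv O ϖ (a i)
  card : Module.finrank K F = p + 1

section Comap

variable {O : ValuationSubring K} {V : ValuationSubring F} {ϖ : K}

/-- `V ∩ K = O` for a valuation ring `V` of `F` over `O` with the same uniformiser. -/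
theorem mem_of_map_mem (hO : IsUnif O ϖ) (hV : IsUnif V (algebraMap K F ϖ))
    (le : ∀ a ∈ O, algebraMap K F a ∈ V) {a : K} (ha : algebraMap K F a ∈ V) : a ∈ O := by
  by_contra hmem
  have ha0 : a ≠ 0 := by rintro rfl; exact hmem (zero_mem _)
  have hinv : a⁻¹ ∈ O := (O.mem_or_inv_mem a).resolve_left hmem
  have h1 : a⁻¹ * ϖ⁻¹ ∈ O := hO.gen a⁻¹ hinv (by rwa [inv_inv])
  have h2 := le _ h1
  apply hV.inv_not_mem
  have : (algebraMap K F ϖ)⁻¹ = algebraMap K F a * algebraMap K F (a⁻¹ * ϖ⁻¹) := by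
    rw [← map_mul, ← map_inv₀]
    congr 1
    field_simp
  rw [this]
  exact mul_mem ha h2

theorem dv_of_map_dv (hO : IsUnif O ϖ) (hV : IsUnif V (algebraMap K F ϖ))
    (le : ∀ a ∈ O, algebraMap K F a ∈ V) {a : K} {n : ℕ}
    (ha : Dv V (algebraMap K F ϖ ^ n) (algebraMap K F a)) : Dv O (ϖ ^ n) a := by
  have hϖ := hO.ne_zero
  rw [Dv.iff_mul_inv (pow_ne_zero _ hV.ne_zero)] at ha
  rw [Dv.iff_mul_inv (pow_ne_zero _ hϖ)]
  apply mem_of_map_mem hO hV le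
  rw [map_mul, map_inv₀, map_pow]
  exact ha

theorem map_dv (le : ∀ a ∈ O, algebraMap K F a ∈ V) {a c : K}
    (ha : Dv O c a) : Dv V (algebraMap K F c) (algebraMap K F a) := by
  obtain ⟨b, hb, rfl⟩ := ha
  exact ⟨algebraMap K F b, le b hb, by rw [map_mul]⟩

end Comap

/-- The adapted family `e, (1 - e) θ ^ i` (`i < p`). -/
def fam (p : ℕ) (e θ : F) : Fin (p + 1) → F :=
  Fin.cons e (fun i : Fin p => (1 - e) * θ ^ (i : ℕ))

@[simp] theorem fam_zero (p : ℕ) (e θ : F) : fam p e θ 0 = e := rfl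

@[simp] theorem fam_succ (p : ℕ) (e θ : F) (i : Fin p) :
    fam p e θ i.succ = (1 - e) * θ ^ (i : ℕ) := by
  simp [fam]

namespace NLSetting

variable {O : ValuationSubring K} {V₁ V₂ : ValuationSubring F} {ϖ : K} {p : ℕ} {θ : F} {g : K}

theorem pi_ne_zero (h : NLSetting O V₁ V₂ ϖ p θ g) : algebraMap K F ϖ ≠ 0 := h.unif₁.ne_zero

/-- An approximate idempotent of order `T`. -/
structure IsIdem (V₁ V₂ : ValuationSubring F) (π : F) (T : ℕ) (e : F) : Prop where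
  mem₁ : e ∈ V₁
  mem₂ : e ∈ V₂
  dv₁ : Dv V₁ (π ^ T) (e - 1)
  dv₂ : Dv V₂ (π ^ T) e

theorem exists_isIdem (h : NLSetting O V₁ V₂ ϖ p θ g) (T : ℕ) :
    ∃ e : F, IsIdem V₁ V₂ (algebraMap K F ϖ) T e := by
  obtain ⟨e, h1, h2, h3, h4⟩ := exists_idem h.unif₁ h.unif₂ h.ne T
  exact ⟨e, h1, h2, h3, h4⟩

section Fam

variable (h : NLSetting O V₁ V₂ ϖ p θ g) {T : ℕ} {e : F}
  (he : IsIdem V₁ V₂ (algebraMap K F ϖ) T e)

include h he

theorem fam_mem₁ (l : Fin (p + 1)) : fam p e θ l ∈ V₁ := by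
  refine Fin.cases ?_ (fun i => ?_) l
  · exact he.mem₁
  · rw [fam_succ]
    exact mul_mem (sub_mem (one_mem _) he.mem₁) (pow_mem h.θ_mem₁ _)

theorem fam_mem₂ (l : Fin (p + 1)) : fam p e θ l ∈ V₂ := by
  refine Fin.cases ?_ (fun i => ?_) l
  · exact he.mem₂
  · rw [fam_succ]
    exact mul_mem (sub_mem (one_mem _) he.mem₂) (pow_mem h.θ_mem₂ _)

set_option linter.unusedSectionVars false in
/-- `(1 - e) ∈ π^T V₁`. -/
theorem one_sub_dv₁ : Dv V₁ (algebraMap K F ϖ ^ T) (1 - e) := by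
  have := he.dv₁.neg
  rwa [neg_sub] at this

/-- the members `(1-e) θ^i` are `≡ 0 mod π^T V₁`. -/
theorem fam_succ_dv₁ (i : Fin p) : Dv V₁ (algebraMap K F ϖ ^ T) (fam p e θ i.succ) := by
  rw [fam_succ]
  exact Dv.mul_right (pow_mem h.θ_mem₁ _) (one_sub_dv₁ h he)

/-- the members `(1-e) θ^i` are `≡ θ^i mod π^T V₂`. -/
theorem fam_succ_dv₂ (i : Fin p) :
    Dv V₂ (algebraMap K F ϖ ^ T) (fam p e θ i.succ - θ ^ (i : ℕ)) := by
  rw [fam_succ]
  have : (1 - e) * θ ^ (i : ℕ) - θ ^ (i : ℕ) = -(e * θ ^ (i : ℕ)) := by ring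
  rw [this]
  exact (Dv.mul_right (pow_mem h.θ_mem₂ _) he.dv₂).neg

/-- A combination of the adapted family, read at `V₁`: it is `≡ a 0`. -/
theorem sum_fam_dv₁ (a : Fin (p + 1) → K) (ha : ∀ l, a l ∈ O) :
    Dv V₁ (algebraMap K F ϖ ^ T)
      ((∑ l, algebraMap K F (a l) * fam p e θ l) - algebraMap K F (a 0)) := by
  rw [Fin.sum_univ_succ, fam_zero]
  have : algebraMap K F (a 0) * e + ∑ i : Fin p, algebraMap K F (a i.succ) * fam p e θ i.succ
      - algebraMap K F (a 0) =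
      algebraMap K F (a 0) * (e - 1) +
        ∑ i : Fin p, algebraMap K F (a i.succ) * fam p e θ i.succ := by ring
  rw [this]
  refine (Dv.mul_left (h.le₁ _ (ha 0)) he.dv₁).add (Dv.sum _ _ fun i _ => ?_)
  exact Dv.mul_left (h.le₁ _ (ha _)) (fam_succ_dv₁ h he i)

/-- A combination of the adapted family, read at `V₂`: it is `≡ ∑ a (i+1) θ^i`. -/
theorem sum_fam_dv₂ (a : Fin (p + 1) → K) (ha : ∀ l, a l ∈ O) :
    Dv V₂ (algebraMap K F ϖ ^ T)
      ((∑ l, algebraMap K F (a l) * fam p e θ l) -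
        ∑ i : Fin p, algebraMap K F (a i.succ) * θ ^ (i : ℕ)) := by
  rw [Fin.sum_univ_succ, fam_zero, add_sub_assoc, ← Finset.sum_sub_distrib]
  refine (Dv.mul_left (h.le₂ _ (ha 0)) he.dv₂).add (Dv.sum _ _ fun i _ => ?_)
  rw [← mul_sub]
  exact Dv.mul_left (h.le₂ _ (ha _)) (fam_succ_dv₂ h he i)

/-- The adapted family is good in the sense of `A2/H48`. -/
theorem fam_isGood (hT : 1 ≤ T) : TwoExt.IsGood O V₁ V₂ ϖ (fam p e θ) := by
  have hπ := h.pi_ne_zero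
  refine ⟨fam_mem₁ h he, fam_mem₂ h he, ?_⟩
  intro a ha hS₁ hS₂
  rw [← Dv.iff_mul_inv hπ] at hS₁ hS₂
  have h0 : Dv O ϖ (a 0) := by
    have h1 := Dv.of_pow h.unif₁.mem hT (sum_fam_dv₁ h he a ha)
    have h2 := hS₁.sub h1
    rw [sub_sub_cancel] at h2
    have h3 : Dv V₁ (algebraMap K F ϖ ^ 1) (algebraMap K F (a 0)) := by rwa [pow_one]
    have := dv_of_map_dv h.unifO h.unif₁ h.le₁ h3
    rwa [pow_one] at this
  have hs : ∀ i : Fin p, Dv O ϖ (a i.succ) := by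
    apply h.θ_indep (fun i => a i.succ) (fun i => ha _)
    have h1 := Dv.of_pow h.unif₂.mem hT (sum_fam_dv₂ h he a ha)
    have h2 := hS₂.sub h1
    rwa [sub_sub_cancel] at h2
  intro l
  rw [← Dv.iff_mul_inv h.unifO.ne_zero]
  refine Fin.cases h0 hs l

theorem fam_linearIndependent (hT : 1 ≤ T) : LinearIndependent K (fam p e θ) :=
  (fam_isGood h he hT).linearIndependent h.unifO

end Fam

/-- The adapted basis. -/
noncomputable def basis (h : NLSetting O V₁ V₂ ϖ p θ g) {T : ℕ} {e : F}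
    (he : IsIdem V₁ V₂ (algebraMap K F ϖ) T e) (hT : 1 ≤ T) :
    Module.Basis (Fin (p + 1)) K F :=
  basisOfLinearIndependentOfCardEqFinrank (fam_linearIndependent h he hT)
    (by rw [Fintype.card_fin, h.card])

section Basis

variable (h : NLSetting O V₁ V₂ ϖ p θ g) {T : ℕ} {e : F}
  (he : IsIdem V₁ V₂ (algebraMap K F ϖ) T e) (hT : 1 ≤ T)

theorem basis_apply (l : Fin (p + 1)) : h.basis he hT l = fam p e θ l := by
  simp [basis]

theorem basis_zero : h.basis he hT 0 = e := by rw [basis_apply, fam_zero]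

theorem basis_succ (i : Fin p) : h.basis he hT i.succ = (1 - e) * θ ^ (i : ℕ) := by
  rw [basis_apply, fam_succ]

/-- Coordinates of elements of `V₁ ∩ V₂` are integral. -/
theorem repr_mem {z : F} (hz₁ : z ∈ V₁) (hz₂ : z ∈ V₂) (l : Fin (p + 1)) :
    (h.basis he hT).repr z l ∈ O :=
  (fam_isGood h he hT).repr_mem h.unifO h.le₁ h.le₂ (h.basis he hT)
    (basis_apply h he hT) hz₁ hz₂ l

/-- Coordinates of elements of `π^n (V₁ ∩ V₂)` are in `ϖ^n O`. -/
theorem repr_dv {z : F} {n : ℕ} (hz₁ : Dv V₁ (algebraMap K F ϖ ^ n) z)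
    (hz₂ : Dv V₂ (algebraMap K F ϖ ^ n) z) (l : Fin (p + 1)) :
    Dv O (ϖ ^ n) ((h.basis he hT).repr z l) := by
  have hπ := h.pi_ne_zero
  obtain ⟨y, hy, rfl⟩ := hz₁
  have hy₂ : y ∈ V₂ := by
    obtain ⟨y', hy', hyy⟩ := hz₂
    have : y = y' := mul_left_cancel₀ (pow_ne_zero n hπ) hyy
    rw [this]; exact hy'
  refine ⟨(h.basis he hT).repr y l, repr_mem h he hT hy hy₂ l, ?_⟩
  have : algebraMap K F ϖ ^ n * y = (ϖ ^ n) • y := by
    rw [Algebra.smul_def, map_pow]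
  rw [this, map_smul, Finsupp.smul_apply, smul_eq_mul]

/-- The `0`-th coordinate of `z ∈ V₁ ∩ V₂` is `≡ z mod π V₁`. -/
theorem repr_zero_dv {z : F} (hz₁ : z ∈ V₁) (hz₂ : z ∈ V₂) :
    Dv V₁ (algebraMap K F ϖ) (z - algebraMap K F ((h.basis he hT).repr z 0)) := by
  set a : Fin (p + 1) → K := fun l => (h.basis he hT).repr z l with ha
  have haO : ∀ l, a l ∈ O := fun l => repr_mem h he hT hz₁ hz₂ l
  have hz : z = ∑ l, algebraMap K F (a l) * fam p e θ l := by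
    conv_lhs => rw [← (h.basis he hT).sum_repr z]
    refine Finset.sum_congr rfl fun l _ => ?_
    rw [Algebra.smul_def, basis_apply]
  have := Dv.of_pow h.unif₁.mem hT (sum_fam_dv₁ h he a haO)
  rw [← hz] at this
  exact this

/-- If `z ∈ V₁ ∩ V₂` is `≡ 0 mod π V₁` then its `0`-th coordinate is divisible by `ϖ`. -/
theorem repr_zero_dv_of_dv {z : F} (hz₁ : Dv V₁ (algebraMap K F ϖ) z) (hz₂ : z ∈ V₂) :
    Dv O ϖ ((h.basis he hT).repr z 0) := by
  have h1 := repr_zero_dv h he hT (Dv.mem_of h.unif₁.mem hz₁) hz₂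
  have h2 := hz₁.sub h1
  rw [sub_sub_cancel] at h2
  have h3 : Dv V₁ (algebraMap K F ϖ ^ 1) (algebraMap K F ((h.basis he hT).repr z 0)) := by
    rwa [pow_one]
  have := dv_of_map_dv h.unifO h.unif₁ h.le₁ h3
  rwa [pow_one] at this

end Basis

end NLSetting

end Part2

/-! ## Part 3: NormLocDet -/

section Part3

open Fermat.Agent.A2.H48 Matrix

variable {K : Type*} [Field K] {ι : Type*} [Fintype ι] [DecidableEq ι]

/-- `det (1 + c • X) = 1 + tr X · c + y · c²` with `y` integral, for `c` and `X` integral. -/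
theorem det_one_add_smul_mem (O : ValuationSubring K) {c : K} (hc : c ∈ O)
    (X : Matrix ι ι K) (hX : ∀ i j, X i j ∈ O) :
    ∃ y ∈ O, Matrix.det (1 + c • X) = 1 + X.trace * c + y * c ^ 2 := by
  set X' : Matrix ι ι O := fun i j => ⟨X i j, hX i j⟩ with hX'
  set c' : O := ⟨c, hc⟩ with hc'
  have key := Matrix.det_one_add_smul c' X'
  set y' : O := (Polynomial.eval c'
    (Matrix.det (1 + (Polynomial.X : Polynomial O) • X'.map Polynomial.C)).divX.divX) with hy'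
  have hmap : (O.subtype).mapMatrix (1 + c' • X') = 1 + c • X := by
    ext i j
    simp only [RingHom.mapMatrix_apply, Matrix.map_apply, Matrix.add_apply, Matrix.smul_apply,
      Matrix.one_apply, map_add]
    congr 1
    split_ifs <;> simp
  have htr : (O.subtype) (X'.trace) = X.trace := by
    simp only [Matrix.trace, map_sum, Matrix.diag_apply]
    rfl
  refine ⟨(y' : K), y'.2, ?_⟩
  have h2 := congrArg (O.subtype) key
  rw [RingHom.map_det, hmap] at h2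
  rw [h2, map_add, map_add, map_mul, map_mul, map_pow, map_one, htr]
  rfl

/-- `det (1 + c • X) ∈ 1 + c O`. -/
theorem det_one_add_smul_dv (O : ValuationSubring K) {c : K} (hc : c ∈ O)
    (X : Matrix ι ι K) (hX : ∀ i j, X i j ∈ O) :
    Dv O c (Matrix.det (1 + c • X) - 1) := by
  obtain ⟨y, hy, h⟩ := det_one_add_smul_mem O hc X hX
  have htr : X.trace ∈ O := sum_mem fun i _ => hX i i
  refine ⟨X.trace + y * c, add_mem htr (mul_mem hy hc), ?_⟩
  rw [h]; ring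

/-- `det (1 + ϖ^s • X) ∈ 1 + ϖ^(s+1) O` if `tr X ∈ ϖ O` and `s ≥ 1`. -/
theorem det_one_add_smul_dv_succ (O : ValuationSubring K) {ϖ : K} (hϖ : ϖ ∈ O) {s : ℕ}
    (hs : 1 ≤ s) (X : Matrix ι ι K) (hX : ∀ i j, X i j ∈ O) (htr : Dv O ϖ X.trace) :
    Dv O (ϖ ^ (s + 1)) (Matrix.det (1 + ϖ ^ s • X) - 1) := by
  obtain ⟨y, hy, h⟩ := det_one_add_smul_mem O (pow_mem hϖ s) X hX
  obtain ⟨t, ht, htt⟩ := htr
  obtain ⟨k, rfl⟩ := Nat.exists_eq_add_of_le hs
  refine ⟨t + y * ϖ ^ k, add_mem ht (mul_mem hy (pow_mem hϖ _)), ?_⟩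
  rw [h, htt]; ring

end Part3

/-! ## Part 4: NormLocTrace -/

section Part4

open Fermat.Agent.A2.H48 Matrix

variable {K F : Type*} [Field K] [Field F] [Algebra K F]
variable {O : ValuationSubring K} {V₁ V₂ : ValuationSubring F} {ϖ : K} {p : ℕ} {θ : F} {g : K}

namespace NLSetting

section

variable (h : NLSetting O V₁ V₂ ϖ p θ g) {T : ℕ} {e : F}
  (he : IsIdem V₁ V₂ (algebraMap K F ϖ) T e) (hT : 1 ≤ T)

include h he hT

theorem basis_mem₁ (l : Fin (p + 1)) : h.basis he hT l ∈ V₁ := by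
  rw [basis_apply]; exact fam_mem₁ h he l

theorem basis_mem₂ (l : Fin (p + 1)) : h.basis he hT l ∈ V₂ := by
  rw [basis_apply]; exact fam_mem₂ h he l

/-- Entries of the multiplication matrix of an integral element are integral. -/
theorem leftMulMatrix_mem {z : F} (hz₁ : z ∈ V₁) (hz₂ : z ∈ V₂) (i j : Fin (p + 1)) :
    Algebra.leftMulMatrix (h.basis he hT) z i j ∈ O := by
  rw [Algebra.leftMulMatrix_eq_repr_mul]
  exact repr_mem h he hT (mul_mem hz₁ (basis_mem₁ h he hT j))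
    (mul_mem hz₂ (basis_mem₂ h he hT j)) i

/-- `1 - e ∈ π V₁`. -/
theorem one_sub_dv_pi : Dv V₁ (algebraMap K F ϖ) (1 - e) :=
  Dv.of_pow h.unif₁.mem hT (one_sub_dv₁ h he)

/-- `e ∈ π V₂`. -/
theorem e_dv_pi : Dv V₂ (algebraMap K F ϖ) e :=
  Dv.of_pow h.unif₂.mem hT he.dv₂

/-- Coordinates of an element of `π (V₁ ∩ V₂)`. -/
theorem repr_dv_one {z : F} (hz₁ : Dv V₁ (algebraMap K F ϖ) z)
    (hz₂ : Dv V₂ (algebraMap K F ϖ) z) (l : Fin (p + 1)) :
    Dv O ϖ ((h.basis he hT).repr z l) := by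
  have h1 : Dv V₁ (algebraMap K F ϖ ^ 1) z := by rwa [pow_one]
  have h2 : Dv V₂ (algebraMap K F ϖ ^ 1) z := by rwa [pow_one]
  have := repr_dv h he hT h1 h2 l
  rwa [pow_one] at this

/-- Products of the `V₂`-part of the basis, case `i + k < p`. -/
theorem mul_basis_lt (i k : Fin p) (hn : (i : ℕ) + (k : ℕ) < p) (l : Fin (p + 1)) :
    Dv O ϖ ((h.basis he hT).repr (h.basis he hT i.succ * h.basis he hT k.succ) l -
      (h.basis he hT).repr (h.basis he hT (Fin.succ ⟨(i : ℕ) + (k : ℕ), hn⟩)) l) := by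
  rw [← Finsupp.sub_apply, ← map_sub]
  have hid : h.basis he hT i.succ * h.basis he hT k.succ -
      h.basis he hT (Fin.succ ⟨(i : ℕ) + (k : ℕ), hn⟩) =
      -(e * ((1 - e) * θ ^ ((i : ℕ) + (k : ℕ)))) := by
    rw [basis_succ, basis_succ, basis_succ]
    simp only
    ring
  rw [hid]
  apply repr_dv_one h he hT
  · refine Dv.neg (Dv.mul_left he.mem₁ ?_)
    exact Dv.mul_right (pow_mem h.θ_mem₁ _) (one_sub_dv_pi h he hT)
  · refine Dv.neg ?_
    exact Dv.mul_right (mul_mem (sub_mem (one_mem _) he.mem₂) (pow_mem h.θ_mem₂ _))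
      (e_dv_pi h he hT)

/-- Products of the `V₂`-part of the basis, case `i + k = p + m`. -/
theorem mul_basis_ge (i k m : Fin p) (hn : (i : ℕ) + (k : ℕ) = p + (m : ℕ))
    (l : Fin (p + 1)) :
    Dv O ϖ ((h.basis he hT).repr (h.basis he hT i.succ * h.basis he hT k.succ) l -
      g * (h.basis he hT).repr (h.basis he hT m.succ) l) := by
  have hg : g * (h.basis he hT).repr (h.basis he hT m.succ) l =
      (h.basis he hT).repr (algebraMap K F g * h.basis he hT m.succ) l := by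
    rw [← Algebra.smul_def, map_smul, Finsupp.smul_apply, smul_eq_mul]
  rw [hg, ← Finsupp.sub_apply, ← map_sub]
  have hpow : θ ^ (i : ℕ) * θ ^ (k : ℕ) = θ ^ p * θ ^ (m : ℕ) := by
    rw [← pow_add, ← pow_add, hn]
  have hid : h.basis he hT i.succ * h.basis he hT k.succ -
      algebraMap K F g * h.basis he hT m.succ =
      (1 - e) * θ ^ (m : ℕ) * ((θ ^ p - algebraMap K F g) - e * θ ^ p) := by
    rw [basis_succ, basis_succ, basis_succ]
    linear_combination (1 - e) ^ 2 * hpow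
  rw [hid]
  apply repr_dv_one h he hT
  · refine Dv.mul_right ?_ (Dv.mul_right (pow_mem h.θ_mem₁ _) (one_sub_dv_pi h he hT))
    exact sub_mem (sub_mem (pow_mem h.θ_mem₁ _) (h.le₁ _ h.g_mem))
      (mul_mem he.mem₁ (pow_mem h.θ_mem₁ _))
  · refine Dv.mul_left (mul_mem (sub_mem (one_mem _) he.mem₂) (pow_mem h.θ_mem₂ _)) ?_
    exact h.θ_pow.sub (Dv.mul_right (pow_mem h.θ_mem₂ _) (e_dv_pi h he hT))

/-- Diagonal entries of the multiplication matrix of `(1 - e) θ^i` on the `V₂`-block. -/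
theorem diag_basis_succ (i k : Fin p) :
    Dv O ϖ (Algebra.leftMulMatrix (h.basis he hT) (h.basis he hT i.succ) k.succ k.succ -
      (if (i : ℕ) = 0 then 1 else 0)) := by
  rw [Algebra.leftMulMatrix_eq_repr_mul]
  by_cases hn : (i : ℕ) + (k : ℕ) < p
  · have h1 := mul_basis_lt h he hT i k hn k.succ
    rw [Module.Basis.repr_self, Finsupp.single_apply] at h1
    have hiff : (Fin.succ ⟨(i : ℕ) + (k : ℕ), hn⟩ = k.succ) ↔ (i : ℕ) = 0 := by
      rw [Fin.succ_inj, Fin.ext_iff]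
      simp
    by_cases hi : (i : ℕ) = 0
    · rw [if_pos (hiff.2 hi)] at h1
      rw [if_pos hi]; exact h1
    · rw [if_neg (fun hh => hi (hiff.1 hh))] at h1
      rw [if_neg hi]; exact h1
  · have hi0 : (i : ℕ) ≠ 0 := by
      intro hi
      have := k.2
      omega
    have hm : (i : ℕ) + (k : ℕ) - p < p := by
      have := i.2
      have := k.2
      omega
    have h1 := mul_basis_ge h he hT i k ⟨(i : ℕ) + (k : ℕ) - p, hm⟩ (by simp only; omega) k.succ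
    rw [Module.Basis.repr_self, Finsupp.single_apply] at h1
    have hne : ¬ (Fin.succ ⟨(i : ℕ) + (k : ℕ) - p, hm⟩ = k.succ) := by
      rw [Fin.succ_inj, Fin.ext_iff]
      simp only
      have := i.2
      omega
    rw [if_neg hne, mul_zero] at h1
    rw [if_neg hi0]; exact h1

/-- `Tr ((1 - e) θ^i) ∈ ϖ O`. -/
theorem trace_basis_succ_dv (i : Fin p) :
    Dv O ϖ (Algebra.leftMulMatrix (h.basis he hT) (h.basis he hT i.succ)).trace := by
  rw [Matrix.trace, Fin.sum_univ_succ]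
  simp only [Matrix.diag_apply]
  refine Dv.add ?_ ?_
  · rw [Algebra.leftMulMatrix_eq_repr_mul]
    apply repr_dv_one h he hT
    · rw [basis_succ, basis_zero]
      exact Dv.mul_right he.mem₁
        (Dv.mul_right (pow_mem h.θ_mem₁ _) (one_sub_dv_pi h he hT))
    · rw [basis_succ, basis_zero]
      exact Dv.mul_left (mul_mem (sub_mem (one_mem _) he.mem₂) (pow_mem h.θ_mem₂ _))
        (e_dv_pi h he hT)
  · have hsplit : ∑ k : Fin p,
        Algebra.leftMulMatrix (h.basis he hT) (h.basis he hT i.succ) k.succ k.succ =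
        (∑ k : Fin p,
          (Algebra.leftMulMatrix (h.basis he hT) (h.basis he hT i.succ) k.succ k.succ -
            (if (i : ℕ) = 0 then 1 else 0))) + (p : K) * (if (i : ℕ) = 0 then 1 else 0) := by
      rw [Finset.sum_sub_distrib, Finset.sum_const, Finset.card_univ, Fintype.card_fin,
        nsmul_eq_mul]
      ring
    rw [hsplit]
    refine Dv.add (Dv.sum _ _ fun k _ => diag_basis_succ h he hT i k) ?_
    refine Dv.mul_right ?_ h.char_p
    split_ifs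
    · exact one_mem _
    · exact zero_mem _

/-- **Trace lemma.**  `η ∈ V₂`, `η ∈ π V₁`  ⟹  the trace of the multiplication matrix of `η` is
divisible by `ϖ`. -/
theorem trace_dv {η : F} (hη₁ : Dv V₁ (algebraMap K F ϖ) η) (hη₂ : η ∈ V₂) :
    Dv O ϖ (Algebra.leftMulMatrix (h.basis he hT) η).trace := by
  have hη₁' : η ∈ V₁ := Dv.mem_of h.unif₁.mem hη₁
  have hη : η = ∑ l, (h.basis he hT).repr η l • h.basis he hT l :=
    ((h.basis he hT).sum_repr η).symm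
  have hX : Algebra.leftMulMatrix (h.basis he hT) η =
      ∑ l, (h.basis he hT).repr η l • Algebra.leftMulMatrix (h.basis he hT) (h.basis he hT l) := by
    conv_lhs => rw [hη]
    rw [map_sum]
    refine Finset.sum_congr rfl fun l _ => ?_
    rw [map_smul]
  rw [hX, Matrix.trace_sum]
  refine Dv.sum _ _ fun l _ => ?_
  rw [Matrix.trace_smul, smul_eq_mul]
  refine Fin.cases ?_ (fun i => ?_) l
  · -- l = 0
    refine Dv.mul_right ?_ (repr_zero_dv_of_dv h he hT hη₁ hη₂)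
    exact sum_mem fun j _ => leftMulMatrix_mem h he hT (basis_mem₁ h he hT 0)
      (basis_mem₂ h he hT 0) j j
  · exact Dv.mul_left (repr_mem h he hT hη₁' hη₂ _) (trace_basis_succ_dv h he hT i)

end

end NLSetting

end Part4

/-! ## Part 5: NormLoc -/

section Part5

open Fermat.Agent.A2.H48 Matrix

variable {K F : Type*} [Field K] [Field F] [Algebra K F]
variable {O : ValuationSubring K} {V₁ V₂ : ValuationSubring F} {ϖ : K} {p : ℕ} {θ : F} {g : K}

namespace NLSetting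

/-- **Contraction.**  `u ∈ 1 + π^(s+1) V₁`, `u ∈ 1 + π^s V₂`, `s ≥ 1` ⟹ `N(u) ∈ 1 + ϖ^(s+1) O`. -/
theorem norm_sub_one_dv (h : NLSetting O V₁ V₂ ϖ p θ g) {s : ℕ} (hs : 1 ≤ s) {u : F}
    (hu₁ : Dv V₁ (algebraMap K F ϖ ^ (s + 1)) (u - 1))
    (hu₂ : Dv V₂ (algebraMap K F ϖ ^ s) (u - 1)) :
    Dv O (ϖ ^ (s + 1)) (Algebra.norm K u - 1) := by
  obtain ⟨e, he⟩ := h.exists_isIdem 1
  have hT : 1 ≤ 1 := le_rfl
  obtain ⟨η, hη₂, hη⟩ := hu₂
  obtain ⟨η₁, hη₁, hη'⟩ := hu₁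
  have hπ := h.pi_ne_zero
  have hηη : η = algebraMap K F ϖ * η₁ := by
    have : algebraMap K F ϖ ^ s * η = algebraMap K F ϖ ^ s * (algebraMap K F ϖ * η₁) := by
      rw [← hη, hη', pow_succ]; ring
    exact mul_left_cancel₀ (pow_ne_zero s hπ) this
  have hdv : Dv V₁ (algebraMap K F ϖ) η := ⟨η₁, hη₁, hηη⟩
  have hu : u = 1 + (ϖ ^ s) • η := by
    rw [Algebra.smul_def, map_pow, ← hη]; ring
  rw [Algebra.norm_eq_matrix_det (h.basis he hT), hu, map_add, map_one, map_smul]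
  exact det_one_add_smul_dv_succ O h.unifO.mem hs _
    (fun i j => leftMulMatrix_mem h he hT (Dv.mem_of h.unif₁.mem hdv) hη₂ i j)
    (trace_dv h he hT hdv hη₂)

/-- Auxiliary: if `x ≡ 1 mod π^m V` and `ϖ^n · t ∈ O` then `π^n (t x - 1) ∈ V`. -/
theorem aux_scale {V : ValuationSubring F} (hV : IsUnif V (algebraMap K F ϖ))
    (le : ∀ a ∈ O, algebraMap K F a ∈ V) {m n : ℕ} {x : F} {t : K}
    (hx : Dv V (algebraMap K F ϖ ^ m) (x - 1)) (ht : ϖ ^ n * t ∈ O) :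
    algebraMap K F ϖ ^ n * (algebraMap K F t * x - 1) ∈ V := by
  have hxV : x ∈ V := by
    have := Dv.mem_of (pow_mem hV.mem m) hx
    have h2 : x = (x - 1) + 1 := by ring
    rw [h2]; exact add_mem this (one_mem _)
  have h1 : algebraMap K F ϖ ^ n * algebraMap K F t ∈ V := by
    have := le _ ht
    rwa [map_mul, map_pow] at this
  have : algebraMap K F ϖ ^ n * (algebraMap K F t * x - 1) =
      algebraMap K F ϖ ^ n * algebraMap K F t * x - algebraMap K F ϖ ^ n := by ring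
  rw [this]
  exact sub_mem (mul_mem h1 hxV) (pow_mem hV.mem n)

/-- **Locally constant elements.**  `r/ρ₁ ∈ 1 + π^m V₁`, `r/ρ₂ ∈ 1 + π^m V₂`
⟹ `N(r)/(ρ₁ ρ₂^p) ∈ 1 + ϖ^m O`. -/
theorem norm_locconst_dv (h : NLSetting O V₁ V₂ ϖ p θ g) {m : ℕ} {r : F} {ρ₁ ρ₂ : K}
    (hρ₁ : ρ₁ ≠ 0) (hρ₂ : ρ₂ ≠ 0)
    (hr₁ : Dv V₁ (algebraMap K F ϖ ^ m) (r * (algebraMap K F ρ₁)⁻¹ - 1))
    (hr₂ : Dv V₂ (algebraMap K F ϖ ^ m) (r * (algebraMap K F ρ₂)⁻¹ - 1)) :
    Dv O (ϖ ^ m) (Algebra.norm K r * (ρ₁ * ρ₂ ^ p)⁻¹ - 1) := by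
  classical
  have hπ := h.pi_ne_zero
  have hϖ := h.unifO.ne_zero
  obtain ⟨n₁, hn₁⟩ := h.arch (ρ₂ * ρ₁⁻¹)
  obtain ⟨n₂, hn₂⟩ := h.arch (ρ₁ * ρ₂⁻¹)
  set T := m + n₁ + n₂ + 1 with hTdef
  have hT : 1 ≤ T := by omega
  obtain ⟨e, he⟩ := h.exists_isIdem T
  set B := h.basis he hT with hB
  set π := algebraMap K F ϖ with hπdef
  have hR₁ : algebraMap K F ρ₁ ≠ 0 := by
    rw [Ne, map_eq_zero]; exact hρ₁
  have hR₂ : algebraMap K F ρ₂ ≠ 0 := by
    rw [Ne, map_eq_zero]; exact hρ₂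
  -- the scaling vector
  set d : Fin (p + 1) → K := Fin.cons ρ₁ (fun _ => ρ₂) with hd
  have hd0 : d 0 = ρ₁ := rfl
  have hds : ∀ i : Fin p, d i.succ = ρ₂ := fun i => by simp [d]
  have hdne : ∀ j, d j ≠ 0 := by
    intro j
    refine Fin.cases ?_ (fun i => ?_) j
    · rw [hd0]; exact hρ₁
    · rw [hds]; exact hρ₂
  -- the integral elements
  set z : Fin (p + 1) → F := fun j => (r * (algebraMap K F (d j))⁻¹ - 1) * B j * (π ^ m)⁻¹
    with hz
  have hz₁ : ∀ j, z j ∈ V₁ := by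
    intro j
    refine Fin.cases ?_ (fun i => ?_) j
    · -- j = 0
      obtain ⟨y, hy, hyy⟩ := hr₁
      have : z 0 = y * e := by
        simp only [hz, hd0, hB, basis_zero]
        rw [hyy]; field_simp
      rw [this]; exact mul_mem hy he.mem₁
    · -- j = i.succ: use the idempotent
      obtain ⟨e'', he'', hee⟩ := one_sub_dv₁ h he
      have hx : r * (algebraMap K F ρ₂)⁻¹ =
          algebraMap K F (ρ₁ * ρ₂⁻¹) * (r * (algebraMap K F ρ₁)⁻¹) := by
        rw [map_mul, map_inv₀]; field_simp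
      have h1 := aux_scale (n := n₂) h.unif₁ h.le₁ hr₁ hn₂
      rw [← hx] at h1
      have : z i.succ = (π ^ n₂ * (r * (algebraMap K F ρ₂)⁻¹ - 1)) *
          (π ^ (n₁ + 1) * (e'' * θ ^ (i : ℕ))) := by
        simp only [hz, hds, hB, basis_succ]
        rw [hee, hTdef]
        field_simp
        ring
      rw [this]
      exact mul_mem h1 (mul_mem (pow_mem h.unif₁.mem _) (mul_mem he'' (pow_mem h.θ_mem₁ _)))
  have hz₂ : ∀ j, z j ∈ V₂ := by
    intro j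
    refine Fin.cases ?_ (fun i => ?_) j
    · obtain ⟨e', he', hee⟩ := he.dv₂
      have hx : r * (algebraMap K F ρ₁)⁻¹ =
          algebraMap K F (ρ₂ * ρ₁⁻¹) * (r * (algebraMap K F ρ₂)⁻¹) := by
        rw [map_mul, map_inv₀]; field_simp
      have h1 := aux_scale (n := n₁) h.unif₂ h.le₂ hr₂ hn₁
      rw [← hx] at h1
      have : z 0 = (π ^ n₁ * (r * (algebraMap K F ρ₁)⁻¹ - 1)) * (π ^ (n₂ + 1) * e') := by
        simp only [hz, hd0, hB, basis_zero]
        rw [hee, hTdef]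
        field_simp
        ring
      rw [this]
      exact mul_mem h1 (mul_mem (pow_mem h.unif₂.mem _) he')
    · obtain ⟨y, hy, hyy⟩ := hr₂
      have : z i.succ = y * ((1 - e) * θ ^ (i : ℕ)) := by
        simp only [hz, hds, hB, basis_succ]
        rw [hyy]; field_simp
      rw [this]
      exact mul_mem hy (mul_mem (sub_mem (one_mem _) he.mem₂) (pow_mem h.θ_mem₂ _))
  -- the matrix identity
  set X : Matrix (Fin (p + 1)) (Fin (p + 1)) K := fun i j => B.repr (z j) i with hX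
  have hXmem : ∀ i j, X i j ∈ O := fun i j => repr_mem h he hT (hz₁ j) (hz₂ j) i
  have hmat : Algebra.leftMulMatrix B r = (1 + ϖ ^ m • X) * Matrix.diagonal d := by
    ext i j
    rw [Algebra.leftMulMatrix_eq_repr_mul, Matrix.mul_diagonal, Matrix.add_apply,
      Matrix.smul_apply, smul_eq_mul]
    have hrB : r * B j = (d j) • B j + (d j * ϖ ^ m) • z j := by
      simp only [hz, Algebra.smul_def, map_mul, map_pow]
      have := hdne j
      have hdj : algebraMap K F (d j) ≠ 0 := by rw [Ne, map_eq_zero]; exact this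
      field_simp
      ring
    rw [hrB, map_add, map_smul, map_smul, Module.Basis.repr_self, Finsupp.add_apply,
      Finsupp.smul_apply, Finsupp.smul_apply, Finsupp.single_apply, Matrix.one_apply,
      smul_eq_mul, smul_eq_mul]
    by_cases hij : i = j
    · subst hij; simp only [if_true]; ring
    · rw [if_neg hij, if_neg (fun hh => hij hh.symm)]; ring
  have hprod : ∏ j, d j = ρ₁ * ρ₂ ^ p := by
    rw [Fin.prod_univ_succ, hd0]
    simp only [hds, Finset.prod_const, Finset.card_univ, Fintype.card_fin]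
  have hne : ρ₁ * ρ₂ ^ p ≠ 0 := mul_ne_zero hρ₁ (pow_ne_zero _ hρ₂)
  rw [Algebra.norm_eq_matrix_det B, hmat, Matrix.det_mul, Matrix.det_diagonal, hprod,
    mul_assoc, mul_inv_cancel₀ hne, mul_one]
  exact det_one_add_smul_dv O (pow_mem h.unifO.mem m) X hXmem

/-- **NORM-LOC.**  `u/v ∈ 1 + π^(s+1) V₁`, `u/c ∈ 1 + π^s V₂`, `s ≥ 1`, `v, c ∈ Kˣ`
⟹ `N(u)/(v c^p) ∈ 1 + ϖ^(s+1) O`. -/
theorem norm_loc (h : NLSetting O V₁ V₂ ϖ p θ g) {s : ℕ} (hs : 1 ≤ s) {u : F} {c v : K}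
    (hc : c ≠ 0) (hv : v ≠ 0)
    (hu₁ : Dv V₁ (algebraMap K F ϖ ^ (s + 1)) (u * (algebraMap K F v)⁻¹ - 1))
    (hu₂ : Dv V₂ (algebraMap K F ϖ ^ s) (u * (algebraMap K F c)⁻¹ - 1)) :
    Dv O (ϖ ^ (s + 1)) (Algebra.norm K u * (v * c ^ p)⁻¹ - 1) := by
  have hπ := h.pi_ne_zero
  obtain ⟨n, hn⟩ := h.arch (c * v⁻¹)
  obtain ⟨n', hn'⟩ := h.arch (v * c⁻¹)
  set T := s + 1 + n + n' with hTdef
  obtain ⟨e, he⟩ := h.exists_isIdem T
  set π := algebraMap K F ϖ with hπdef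
  have hC : algebraMap K F c ≠ 0 := by rw [Ne, map_eq_zero]; exact hc
  have hV : algebraMap K F v ≠ 0 := by rw [Ne, map_eq_zero]; exact hv
  set r : F := algebraMap K F v * e + algebraMap K F c * (1 - e) with hr
  -- r ≈ (v, c) to order s + 1
  have hr₁ : Dv V₁ (π ^ (s + 1)) (r * (algebraMap K F v)⁻¹ - 1) := by
    obtain ⟨e'', he'', hee⟩ := one_sub_dv₁ h he
    have h1 : π ^ n * (algebraMap K F (c * v⁻¹) * 1 - 1) ∈ V₁ :=
      aux_scale (m := 0) (x := 1) h.unif₁ h.le₁ (by simpa using Dv.zero) hn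
    refine ⟨(π ^ n * (algebraMap K F (c * v⁻¹) * 1 - 1)) * (π ^ n' * e''),
      mul_mem h1 (mul_mem (pow_mem h.unif₁.mem _) he''), ?_⟩
    have : r * (algebraMap K F v)⁻¹ - 1 = (1 - e) * (algebraMap K F (c * v⁻¹) * 1 - 1) := by
      rw [hr, map_mul, map_inv₀]; field_simp; ring
    rw [this, hee, hTdef]
    ring
  have hr₂ : Dv V₂ (π ^ (s + 1)) (r * (algebraMap K F c)⁻¹ - 1) := by
    obtain ⟨e', he', hee⟩ := he.dv₂
    have h1 : π ^ n' * (algebraMap K F (v * c⁻¹) * 1 - 1) ∈ V₂ :=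
      aux_scale (m := 0) (x := 1) h.unif₂ h.le₂ (by simpa using Dv.zero) hn'
    refine ⟨(π ^ n' * (algebraMap K F (v * c⁻¹) * 1 - 1)) * (π ^ n * e'),
      mul_mem h1 (mul_mem (pow_mem h.unif₂.mem _) he'), ?_⟩
    have : r * (algebraMap K F c)⁻¹ - 1 = e * (algebraMap K F (v * c⁻¹) * 1 - 1) := by
      rw [hr, map_mul, map_inv₀]; field_simp; ring
    rw [this, hee, hTdef]
    ring
  have hN := norm_locconst_dv h hv hc hr₁ hr₂
  -- r ≠ 0
  have hr0 : r ≠ 0 := by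
    have h1 : Dv V₁ π (r * (algebraMap K F v)⁻¹ - 1) :=
      Dv.of_pow h.unif₁.mem (by omega) hr₁
    have := ne_zero_of_dv_sub_one h.unif₁ h1
    exact left_ne_zero_of_mul this
  -- u' = u / r
  have hu'₁ : Dv V₁ (π ^ (s + 1)) (u * r⁻¹ - 1) := by
    have h1 := dv_inv_sub_one h.unif₁ (n := s + 1) (by omega) hr₁
    have h2 := dv_mul_sub_one h.unif₁ hu₁ h1
    have : u * (algebraMap K F v)⁻¹ * (r * (algebraMap K F v)⁻¹)⁻¹ = u * r⁻¹ := by
      field_simp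
    rwa [this] at h2
  have hu'₂ : Dv V₂ (π ^ s) (u * r⁻¹ - 1) := by
    have h1 := dv_inv_sub_one h.unif₂ (n := s + 1) (by omega) hr₂
    have h1' := Dv.pow_mono h.unif₂.mem (Nat.le_succ s) h1
    have h2 := dv_mul_sub_one h.unif₂ hu₂ h1'
    have : u * (algebraMap K F c)⁻¹ * (r * (algebraMap K F c)⁻¹)⁻¹ = u * r⁻¹ := by
      field_simp
    rwa [this] at h2
  have hN' := norm_sub_one_dv h hs hu'₁ hu'₂
  have hmul := dv_mul_sub_one h.unifO hN' hN
  have hu : u = u * r⁻¹ * r := by field_simp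
  have : Algebra.norm K (u * r⁻¹) * (Algebra.norm K r * (v * c ^ p)⁻¹) =
      Algebra.norm K u * (v * c ^ p)⁻¹ := by
    rw [← mul_assoc, ← map_mul, ← hu]
  rwa [this] at hmul

end NLSetting

end Part5

/-! ## Part 6: NormLocApprox -/

section Part6

open Fermat.Agent.A2.H48

variable {K F : Type*} [Field K] [Field F] [Algebra K F]
variable {O : ValuationSubring K} {V₁ V₂ : ValuationSubring F} {ϖ : K} {p : ℕ} {θ : F} {g : K}

namespace NLSetting

theorem finiteDimensional (h : NLSetting O V₁ V₂ ϖ p θ g) : FiniteDimensional K F :=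
  Module.finite_of_finrank_pos (by rw [h.card]; omega)

/-- Residue degree one at `V₁`. -/
theorem exists_res (h : NLSetting O V₁ V₂ ϖ p θ g) {f : F} (hf : f ∈ V₁) :
    ∃ a ∈ O, Dv V₁ (algebraMap K F ϖ) (f - algebraMap K F a) := by
  have := h.finiteDimensional
  have hπ := h.pi_ne_zero
  obtain ⟨e, he⟩ := h.exists_isIdem 1
  have hT : 1 ≤ 1 := le_rfl
  obtain ⟨k, hk⟩ := exists_pow_mul_mem h.unifO.mem h.arch V₂ h.le₂
    (Algebra.IsIntegral.isIntegral (R := K) f)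
  obtain ⟨f', hf'1, hf'2, hf'3⟩ := exists_approx h.unif₁ h.unif₂ h.ne hf hk
  have hf'V₂ : f' ∈ V₂ := Dv.mem_of h.unif₂.mem ((Dv.iff_mul_inv hπ).2 hf'3)
  refine ⟨(h.basis he hT).repr f' 0, repr_mem h he hT hf'1 hf'V₂ 0, ?_⟩
  have h1 := repr_zero_dv h he hT hf'1 hf'V₂
  have h2 : Dv V₁ (algebraMap K F ϖ) (f' - f) := (Dv.iff_mul_inv hπ).2 hf'2
  have : f - algebraMap K F ((h.basis he hT).repr f' 0) =
      (f' - algebraMap K F ((h.basis he hT).repr f' 0)) - (f' - f) := by ring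
  rw [this]
  exact h1.sub h2

/-- Additive approximation to any order at `V₁`. -/
theorem exists_approx_add (h : NLSetting O V₁ V₂ ϖ p θ g) (s : ℕ) {f : F} (hf : f ∈ V₁) :
    ∃ a ∈ O, Dv V₁ (algebraMap K F ϖ ^ s) (f - algebraMap K F a) := by
  induction s with
  | zero =>
    refine ⟨0, zero_mem _, ?_⟩
    rw [pow_zero, map_zero, sub_zero]
    exact Dv.of_mem hf
  | succ s ih =>
    obtain ⟨a, ha, y, hy, hya⟩ := ih
    obtain ⟨b, hb, z, hz, hzb⟩ := h.exists_res hy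
    refine ⟨a + ϖ ^ s * b, add_mem ha (mul_mem (pow_mem h.unifO.mem _) hb), z, hz, ?_⟩
    rw [map_add, map_mul, map_pow, pow_succ]
    have : f - (algebraMap K F a + algebraMap K F ϖ ^ s * algebraMap K F b) =
        (f - algebraMap K F a) - algebraMap K F ϖ ^ s * algebraMap K F b := by ring
    rw [this, hya]
    have hy' : y = algebraMap K F b + algebraMap K F ϖ * z := by
      rw [← hzb]; ring
    rw [hy']; ring

/-- Every nonzero element of `V₁` is a power of the uniformiser times a unit. -/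
theorem exists_pow_unit (h : NLSetting O V₁ V₂ ϖ p θ g) {u : F} (hu : u ≠ 0) (huV : u ∈ V₁) :
    ∃ (k : ℕ) (w : F), w ∈ V₁ ∧ w⁻¹ ∈ V₁ ∧ u = algebraMap K F ϖ ^ k * w := by
  classical
  have := h.finiteDimensional
  have hπ := h.pi_ne_zero
  have hex : ∃ k : ℕ, algebraMap K F ϖ ^ k * u⁻¹ ∈ V₁ :=
    exists_pow_mul_mem h.unifO.mem h.arch V₁ h.le₁ (Algebra.IsIntegral.isIntegral (R := K) u⁻¹)
  set k := Nat.find hex with hk
  have hk1 : algebraMap K F ϖ ^ k * u⁻¹ ∈ V₁ := Nat.find_spec hex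
  refine ⟨k, (algebraMap K F ϖ ^ k * u⁻¹)⁻¹, ?_, ?_, ?_⟩
  · -- the inverse is integral: else `π^k u⁻¹ ∈ π V₁`
    by_contra hcon
    have h2 := h.unif₁.gen _ hk1 hcon
    rcases Nat.eq_zero_or_pos k with h0 | hpos
    · -- k = 0: u⁻¹ ∈ V₁ and u ∈ V₁
      apply hcon
      rw [h0, pow_zero, one_mul, inv_inv]
      exact huV
    · have hlt : k - 1 < k := by omega
      apply Nat.find_min hex hlt
      have : algebraMap K F ϖ ^ (k - 1) * u⁻¹ =
          algebraMap K F ϖ ^ k * u⁻¹ * (algebraMap K F ϖ)⁻¹ := by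
        obtain ⟨j, hj⟩ : ∃ j, k = j + 1 := ⟨k - 1, by omega⟩
        rw [hj, Nat.add_sub_cancel, pow_succ]
        field_simp
      rw [this]
      exact h2
  · rw [inv_inv]; exact hk1
  · field_simp

/-- Multiplicative approximation to any order at `V₁` by elements of `Kˣ`. -/
theorem exists_approx_mul (h : NLSetting O V₁ V₂ ϖ p θ g) (s : ℕ) {u : F} (hu : u ≠ 0) :
    ∃ v : K, v ≠ 0 ∧ Dv V₁ (algebraMap K F ϖ ^ s) (u * (algebraMap K F v)⁻¹ - 1) := by
  have hπ := h.pi_ne_zero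
  have hϖ := h.unifO.ne_zero
  -- the case of a unit
  have hunit : ∀ w : F, w ∈ V₁ → w⁻¹ ∈ V₁ → w ≠ 0 →
      ∃ a : K, a ≠ 0 ∧ Dv V₁ (algebraMap K F ϖ ^ (s + 1)) (w * (algebraMap K F a)⁻¹ - 1) := by
    intro w hw hwinv hw0
    obtain ⟨a, ha, y, hy, hya⟩ := h.exists_approx_add (s + 1) hw
    have hay : algebraMap K F a = w * (1 - algebraMap K F ϖ ^ (s + 1) * (y * w⁻¹)) := by
      field_simp
      rw [← hya]; ring
    have hdv : Dv V₁ (algebraMap K F ϖ ^ (s + 1))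
        ((1 - algebraMap K F ϖ ^ (s + 1) * (y * w⁻¹)) - 1) :=
      ⟨-(y * w⁻¹), neg_mem (mul_mem hy hwinv), by ring⟩
    have hne : (1 - algebraMap K F ϖ ^ (s + 1) * (y * w⁻¹)) ≠ 0 :=
      ne_zero_of_dv_sub_one h.unif₁ (Dv.of_pow h.unif₁.mem (by omega) hdv)
    have ha0 : a ≠ 0 := by
      intro h0
      rw [h0, map_zero] at hay
      rcases mul_eq_zero.1 hay.symm with h1 | h1
      · exact hw0 h1
      · exact hne h1
    refine ⟨a, ha0, ?_⟩
    have := dv_inv_sub_one h.unif₁ (n := s + 1) (by omega) hdv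
    have e1 : w * (algebraMap K F a)⁻¹ =
        (1 - algebraMap K F ϖ ^ (s + 1) * (y * w⁻¹))⁻¹ := by
      rw [hay]; field_simp
    rw [e1]; exact this
  -- integral case
  have hint : ∀ u : F, u ≠ 0 → u ∈ V₁ →
      ∃ v : K, v ≠ 0 ∧ Dv V₁ (algebraMap K F ϖ ^ (s + 1)) (u * (algebraMap K F v)⁻¹ - 1) := by
    intro u hu huV
    obtain ⟨k, w, hw, hwinv, huw⟩ := h.exists_pow_unit hu huV
    have hw0 : w ≠ 0 := by
      rintro rfl
      rw [mul_zero] at huw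
      exact hu huw
    obtain ⟨a, ha0, hdv⟩ := hunit w hw hwinv hw0
    refine ⟨ϖ ^ k * a, mul_ne_zero (pow_ne_zero _ hϖ) ha0, ?_⟩
    have hA : algebraMap K F a ≠ 0 := by rw [Ne, map_eq_zero]; exact ha0
    have : u * (algebraMap K F (ϖ ^ k * a))⁻¹ = w * (algebraMap K F a)⁻¹ := by
      rw [huw, map_mul, map_pow]; field_simp
    rw [this]; exact hdv
  rcases V₁.mem_or_inv_mem u with huV | huV
  · obtain ⟨v, hv, hdv⟩ := hint u hu huV
    exact ⟨v, hv, Dv.pow_mono h.unif₁.mem (Nat.le_succ s) hdv⟩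
  · obtain ⟨v, hv, hdv⟩ := hint u⁻¹ (inv_ne_zero hu) huV
    refine ⟨v⁻¹, inv_ne_zero hv, ?_⟩
    have h1 := dv_inv_sub_one h.unif₁ (n := s + 1) (by omega) hdv
    have hV : algebraMap K F v ≠ 0 := by rw [Ne, map_eq_zero]; exact hv
    have : (u⁻¹ * (algebraMap K F v)⁻¹)⁻¹ = u * (algebraMap K F v⁻¹)⁻¹ := by
      rw [map_inv₀]; field_simp
    rw [this] at h1
    exact Dv.pow_mono h.unif₁.mem (Nat.le_succ s) h1

end NLSetting

end Part6

/-! ## Part 7: NormPingPong -/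

section Part7

open Fermat.Agent.A2.H48

variable {K L : Type*} [Field K] [Field L]

/-- One side of the ping-pong. -/
structure Side (O : ValuationSubring K) (Vd Vi : ValuationSubring L) (ϖ : K) (p : ℕ)
    (φ : K →+* L) (N : L →* K) : Prop where
  unifO : IsUnif O ϖ
  unif_d : IsUnif Vd (φ ϖ)
  unif_i : IsUnif Vi (φ ϖ)
  le_d : ∀ a ∈ O, φ a ∈ Vd
  norm_base : ∀ a : K, N (φ a) = a ^ (p + 1)
  approx : ∀ (s : ℕ) (u : L), u ≠ 0 → ∃ v : K, v ≠ 0 ∧ Dv Vd (φ ϖ ^ s) (u * (φ v)⁻¹ - 1)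
  loc : ∀ (s : ℕ), 1 ≤ s → ∀ (u : L) (c v : K), c ≠ 0 → v ≠ 0 →
    Dv Vd (φ ϖ ^ (s + 1)) (u * (φ v)⁻¹ - 1) → Dv Vi (φ ϖ ^ s) (u * (φ c)⁻¹ - 1) →
    Dv O (ϖ ^ (s + 1)) (N u * (v * c ^ p)⁻¹ - 1)

/-- The setting `NLSetting` gives a side (degree-one place `V₁`, inseparable place `V₂`). -/
theorem NLSetting.side {K F : Type*} [Field K] [Field F] [Algebra K F]
    {O : ValuationSubring K} {V₁ V₂ : ValuationSubring F} {ϖ : K} {p : ℕ} {θ : F} {g : K}
    (h : NLSetting O V₁ V₂ ϖ p θ g) :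
    Side O V₁ V₂ ϖ p (algebraMap K F) (Algebra.norm K) where
  unifO := h.unifO
  unif_d := h.unif₁
  unif_i := h.unif₂
  le_d := h.le₁
  norm_base := fun a => by
    have := h.finiteDimensional
    rw [Algebra.norm_algebraMap, h.card]
  approx := fun s _ hu => h.exists_approx_mul s hu
  loc := fun _ hs _ _ _ hc hv h1 h2 => h.norm_loc hs hc hv h1 h2

/-- `u ∈ ι(C) · (Lˣ)^p · (1 + π^s V)`. -/
def Depth (V : ValuationSubring L) (π : L) (p : ℕ) (ι : K →+* L) (C : Set K) (s : ℕ)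
    (u : L) : Prop :=
  ∃ c ∈ C, ∃ g : L, g ≠ 0 ∧ Dv V (π ^ s) (u * (ι c * g ^ p)⁻¹ - 1)

/-- `N u ∈ C · (Kˣ)^p`. -/
def IsPthNorm (N : L →* K) (p : ℕ) (C : Set K) (u : L) : Prop :=
  ∃ c ∈ C, ∃ h : K, h ≠ 0 ∧ N u = c * h ^ p

/-- A multiplicatively closed set of nonzero constants. -/
structure IsConstSet (C : Set K) : Prop where
  ne_zero : ∀ c ∈ C, c ≠ 0
  mul_mem : ∀ c ∈ C, ∀ d ∈ C, c * d ∈ C
  inv_mem : ∀ c ∈ C, c⁻¹ ∈ C

theorem Depth.mono {V : ValuationSubring L} {π : L} {p : ℕ} {ι : K →+* L} {C : Set K}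
    (hπ : π ∈ V) {s t : ℕ} (hst : s ≤ t) {u : L} (h : Depth V π p ι C t u) :
    Depth V π p ι C s u := by
  obtain ⟨c, hc, g, hg, hdv⟩ := h
  exact ⟨c, hc, g, hg, Dv.pow_mono hπ hst hdv⟩

section MonoidHom

theorem norm_ne_zero_of_ne_zero (N : L →* K) {x : L} (hx : x ≠ 0) : N x ≠ 0 := by
  intro h0
  have h1 : N (x * x⁻¹) = 1 := by rw [mul_inv_cancel₀ hx, map_one]
  rw [map_mul, h0, zero_mul] at h1
  exact zero_ne_one h1

theorem norm_inv_of_ne_zero (N : L →* K) {x : L} (hx : x ≠ 0) : N x⁻¹ = (N x)⁻¹ := by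
  have h1 : N (x * x⁻¹) = 1 := by rw [mul_inv_cancel₀ hx, map_one]
  rw [map_mul] at h1
  exact eq_inv_of_mul_eq_one_right h1

end MonoidHom

theorem ringHom_dv {O : ValuationSubring K} {V : ValuationSubring L} (φ : K →+* L)
    (le : ∀ a ∈ O, φ a ∈ V) {a c : K} (ha : Dv O c a) : Dv V (φ c) (φ a) := by
  obtain ⟨b, hb, rfl⟩ := ha
  exact ⟨φ b, le b hb, by rw [map_mul]⟩

/-- **One step of the ping-pong.** -/
theorem Side.step {O : ValuationSubring K} {Vd Vi : ValuationSubring L} {ϖ : K} {p : ℕ}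
    {φ : K →+* L} {N : L →* K} (hS : Side O Vd Vi ϖ p φ N)
    {ι : K →+* L} {C : Set K} (hC : IsConstSet C) (hφι : ∀ c ∈ C, φ c = ι c)
    {s : ℕ} (hs : 1 ≤ s) {u : L} (hN : IsPthNorm N p C u)
    (hd : Depth Vi (φ ϖ) p ι C s u) : Depth Vd (φ ϖ) p ι C (s + 1) u := by
  obtain ⟨c, hc, g, hg, hdv⟩ := hd
  obtain ⟨c₁, hc₁, h₁, hh₁, hNu⟩ := hN
  have hc0 := hC.ne_zero c hc
  have hc₁0 := hC.ne_zero c₁ hc₁
  have hιc : ι c ≠ 0 := by rw [← hφι c hc, Ne, map_eq_zero]; exact hc0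
  have hx0 : ι c * g ^ p ≠ 0 := mul_ne_zero hιc (pow_ne_zero _ hg)
  set u' : L := u * (ι c * g ^ p)⁻¹ with hu'
  have hu'0 : u' ≠ 0 :=
    ne_zero_of_dv_sub_one hS.unif_i (Dv.of_pow hS.unif_i.mem hs hdv)
  -- the norm of u'
  have hNg : N g ≠ 0 := norm_ne_zero_of_ne_zero N hg
  have hNu' : N u' = (c₁ * c⁻¹) * (h₁ * (c * N g)⁻¹) ^ p := by
    rw [hu', map_mul, norm_inv_of_ne_zero N hx0, map_mul, map_pow, ← hφι c hc, hS.norm_base,
      hNu, pow_succ, mul_pow, inv_pow, mul_pow]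
    field_simp
  set c₂ : K := c₁ * c⁻¹ with hc₂
  set h₂ : K := h₁ * (c * N g)⁻¹ with hh₂
  have hc₂C : c₂ ∈ C := hC.mul_mem _ hc₁ _ (hC.inv_mem _ hc)
  have hc₂0 : c₂ ≠ 0 := hC.ne_zero _ hc₂C
  have hh₂0 : h₂ ≠ 0 := mul_ne_zero hh₁ (inv_ne_zero (mul_ne_zero hc0 hNg))
  -- approximation at the degree-one place
  obtain ⟨v, hv0, hv⟩ := hS.approx (s + 1) u' hu'0
  have hloc := hS.loc s hs u' 1 v one_ne_zero hv0 hv (by simpa using hdv)
  rw [one_pow, mul_one, hNu'] at hloc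
  have hmap := ringHom_dv φ hS.le_d hloc
  rw [map_sub, map_one, map_mul, map_mul, map_pow, map_inv₀, map_pow] at hmap
  have hφv : φ v ≠ 0 := by rw [Ne, map_eq_zero]; exact hv0
  have hφc₂ : φ c₂ ≠ 0 := by rw [Ne, map_eq_zero]; exact hc₂0
  have hφh₂ : φ h₂ ≠ 0 := by rw [Ne, map_eq_zero]; exact hh₂0
  have hinv := dv_inv_sub_one hS.unif_d (n := s + 1) (by omega) hmap
  have hprod := dv_mul_sub_one hS.unif_d hv hinv
  have e1 : u' * (φ v)⁻¹ * (φ c₂ * φ h₂ ^ p * (φ v)⁻¹)⁻¹ = u' * (φ c₂ * φ h₂ ^ p)⁻¹ := by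
    field_simp
  rw [e1] at hprod
  refine ⟨c * c₂, hC.mul_mem _ hc _ hc₂C, g * φ h₂, mul_ne_zero hg hφh₂, ?_⟩
  have e2 : u * (ι (c * c₂) * (g * φ h₂) ^ p)⁻¹ = u' * (φ c₂ * φ h₂ ^ p)⁻¹ := by
    rw [hu', map_mul, ← hφι c₂ hc₂C, mul_pow]
    field_simp
  rw [e2]
  exact hprod

/-- **Ping-pong (norm contraction).**  Two sides: `α` with degree-one place `V∞` and inseparable
place `V₀`; `β` with the roles exchanged.  If `N_α u` and `N_β u` are constants times `p`-th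
powers and `u` has depth `≥ 1` at `V∞`, then `u` has every depth at `V∞` and at `V₀`. -/
theorem pingpong_inf {O : ValuationSubring K} {Vinf V0 : ValuationSubring L} {ϖ : K} {p : ℕ}
    {α β : K →+* L} {Nα Nβ : L →* K}
    (hα : Side O Vinf V0 ϖ p α Nα) (hβ : Side O V0 Vinf ϖ p β Nβ)
    {C : Set K} (hC : IsConstSet C) (hαβ : ∀ c ∈ C, β c = α c) (hϖ : β ϖ = α ϖ)
    {u : L} (hNα : IsPthNorm Nα p C u) (hNβ : IsPthNorm Nβ p C u)
    (h1 : Depth Vinf (α ϖ) p α C 1 u) :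
    ∀ s : ℕ, Depth Vinf (α ϖ) p α C s u ∧ Depth V0 (α ϖ) p α C s u := by
  have stepα : ∀ s, 1 ≤ s → Depth V0 (α ϖ) p α C s u → Depth Vinf (α ϖ) p α C (s + 1) u :=
    fun s hs hd => hα.step hC (fun _ _ => rfl) hs hNα hd
  have stepβ : ∀ s, 1 ≤ s → Depth Vinf (α ϖ) p α C s u → Depth V0 (α ϖ) p α C (s + 1) u := by
    intro s hs hd
    have := hβ.step hC hαβ hs hNβ (by rw [hϖ]; exact hd)
    rwa [hϖ] at this
  have hπinf : α ϖ ∈ Vinf := hα.unif_d.mem
  have hπ0 : α ϖ ∈ V0 := hα.unif_i.mem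
  have key : ∀ s : ℕ, Depth Vinf (α ϖ) p α C (s + 1) u ∧ Depth V0 (α ϖ) p α C (s + 1) u := by
    intro s
    induction s with
    | zero =>
      exact ⟨h1, Depth.mono hπ0 (Nat.le_succ 1) (stepβ 1 le_rfl h1)⟩
    | succ s ih =>
      exact ⟨stepα (s + 1) (by omega) ih.2, stepβ (s + 1) (by omega) ih.1⟩
  intro s
  exact ⟨Depth.mono hπinf (Nat.le_succ s) (key s).1, Depth.mono hπ0 (Nat.le_succ s) (key s).2⟩

/-- The same, starting from depth `≥ 1` at `V₀`. -/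
theorem pingpong_zero {O : ValuationSubring K} {Vinf V0 : ValuationSubring L} {ϖ : K} {p : ℕ}
    {α β : K →+* L} {Nα Nβ : L →* K}
    (hα : Side O Vinf V0 ϖ p α Nα) (hβ : Side O V0 Vinf ϖ p β Nβ)
    {C : Set K} (hC : IsConstSet C) (hαβ : ∀ c ∈ C, β c = α c) (hϖ : β ϖ = α ϖ)
    {u : L} (hNα : IsPthNorm Nα p C u) (hNβ : IsPthNorm Nβ p C u)
    (h1 : Depth V0 (α ϖ) p α C 1 u) :
    ∀ s : ℕ, Depth Vinf (α ϖ) p α C s u ∧ Depth V0 (α ϖ) p α C s u := by
  have h2 : Depth Vinf (α ϖ) p α C 1 u :=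
    Depth.mono hα.unif_d.mem (Nat.le_succ 1) (hα.step hC (fun _ _ => rfl) le_rfl hNα h1)
  exact pingpong_inf hα hβ hC hαβ hϖ hNα hNβ h2

end Part7

end Fermat.Agent.Ribet.H232
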